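import Fermat.Agent.LevelRaise.GalUnip
import Fermat.Agent.Cheb.Exist

set_option autoImplicit false
set_option linter.unusedSectionVars false
set_option linter.style.haveILetI false

/-!
The primes needed in the level raising argument.
-/

namespace Fermat.Agent.LRGal

open WeierstrassCurve WeierstrassCurve.Affine WeierstrassCurve.Affine.Point
open Fermat.Agent.Tate Fermat.Agent.QuadRep Fermat.Agent.ERep Fermat.Agent.Frob

noncomputable section

theorem dvd_orderOf {ℓ n m p q : ℕ} (hℓ : ℓ.Prime) (hp : p.Prime)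
    (hqℓ : ¬ ℓ ∣ q) (h : n * m * p ∣ ℓ - 1)
    (hpow : (q : ZMod ℓ) ^ ((ℓ - 1) / p) ≠ 1) : p ∣ orderOf ((q : ZMod ℓ) ^ m) := by
  by_contra hd
  have : Fact ℓ.Prime := ⟨hℓ⟩
  have hu : (q : ZMod ℓ) ≠ 0 := by
    rw [Ne, ZMod.natCast_eq_zero_iff]
    exact hqℓ
  set u : ZMod ℓ := ((q : ℕ) : ZMod ℓ) with hudef
  set d := orderOf (u ^ m) with hddef
  have hcop : d.Coprime p := ((Nat.Prime.coprime_iff_not_dvd hp).mpr hd).symm
  obtain ⟨k, hk⟩ := h
  have h1 : orderOf u ∣ m * d := by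
    apply orderOf_dvd_of_pow_eq_one
    rw [pow_mul, hddef, pow_orderOf_eq_one]
  have h2 : orderOf u ∣ m * (n * k * p) := by
    apply orderOf_dvd_of_pow_eq_one
    have : m * (n * k * p) = ℓ - 1 := by rw [hk]; ring
    rw [this]
    exact ZMod.pow_card_sub_one_eq_one hu
  have h3 : orderOf u ∣ m * Nat.gcd d (n * k * p) := by
    rw [← Nat.gcd_mul_left]
    exact Nat.dvd_gcd h1 h2
  have h4 : Nat.gcd d (n * k * p) = Nat.gcd d (n * k) := Nat.Coprime.gcd_mul_right_cancel_right _ hcop.symm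
  rw [h4] at h3
  apply hpow
  have h5 : (ℓ - 1) / p = m * (n * k) := by
    rw [hk]
    have : n * m * p * k = p * (m * (n * k)) := by ring
    rw [this, Nat.mul_div_cancel_left _ hp.pos]
  rw [h5]
  exact orderOf_dvd_iff_pow_eq_one.mp (h3.trans (mul_dvd_mul_left _ (Nat.gcd_dvd_right _ _)))

local notation "Qb" => AlgebraicClosure ℚ
local notation "GQ" => AlgebraicClosure ℚ ≃ₐ[ℚ] AlgebraicClosure ℚ

theorem frob_alpha {L : Type*} [Field L] [Algebra ℚ L] {A : ValuationSubring L} {ℓ : ℕ}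
    (hℓ : ℓ.Prime)
    (hA : A.LiesOverPrime ℓ) {τ : L ≃ₐ[ℚ] L} (hτ : A.IsFrobeniusAt τ ℓ) {p q : ℕ} (hp : p.Prime)
    (hpℓ : ℓ ≠ p) (hqℓ : ¬ ℓ ∣ q) (hpd : p ∣ ℓ - 1) {α : L} (hα : α ^ p = q)
    (h : (q : ZMod ℓ) ^ ((ℓ - 1) / p) = 1) : τ α = α := by
  have : CharZero L := algebraRat.charZero L
  have hq0 : q ≠ 0 := by
    rintro rfl
    exact hqℓ (dvd_zero _)
  have hα0 : α ≠ 0 := by
    rintro rfl
    rw [zero_pow hp.ne_zero] at hα
    exact hq0 (by exact_mod_cast hα.symm)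
  set η := τ α / α with hη
  have hη1 : η ^ p = 1 := by
    rw [hη, div_pow, ← map_pow, hα, map_natCast, div_self]
    exact_mod_cast hq0
  have hτα : τ α = η * α := by rw [hη, div_mul_cancel₀ _ hα0]
  let x : integralClosure ℤ L := ⟨α, by
    refine ⟨Polynomial.X ^ p - Polynomial.C (q : ℤ), Polynomial.monic_X_pow_sub_C _ hp.ne_zero, ?_⟩
    simp [hα]⟩
  let y : integralClosure ℤ L := ⟨τ α, by
    refine ⟨Polynomial.X ^ p - Polynomial.C (q : ℤ), Polynomial.monic_X_pow_sub_C _ hp.ne_zero, ?_⟩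
    simp [← map_pow, hα]⟩
  let e : integralClosure ℤ L := rootInt hp.pos η hη1
  have hyx : y - x ^ ℓ ∈ center A := by
    rw [center, Ideal.mem_comap, ← IsLocalRing.residue_eq_zero_iff]
    have h := hτ.smul_residue_eq (IsLocalRing.residue A (toVal A x))
    rw [← IsLocalRing.ResidueField.residue_smul] at h
    rw [map_sub, map_sub, map_pow, map_pow, ← h, sub_eq_zero]
    rfl
  have hyex : y = e * x := Subtype.ext hτα
  have hxp : x ^ p = (q : integralClosure ℤ L) := Subtype.ext hα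
  have hℓc : (ℓ : integralClosure ℤ L) ∈ center A := (natCast_mem_center_iff A ℓ).mpr hA
  have hxℓ : x ^ ℓ - x ∈ center A := by
    obtain ⟨k, hk⟩ := hpd
    have h1 : x ^ ℓ - x = x * ((q : integralClosure ℤ L) ^ k - 1) := by
      have h2 : ℓ = p * k + 1 := by
        rw [← hk]
        have := hℓ.pos
        omega
      conv_lhs => rw [h2]
      rw [pow_succ, pow_mul, hxp]
      ring
    have h3 : (ℓ : ℤ) ∣ (q : ℤ) ^ k - 1 := by
      have h4 : (ℓ - 1) / p = k := by rw [hk, Nat.mul_div_cancel_left _ hp.pos]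
      rw [h4] at h
      rw [← ZMod.intCast_zmod_eq_zero_iff_dvd]
      push_cast
      rw [h, sub_self]
    obtain ⟨r, hr⟩ := h3
    have h5 : ((q : integralClosure ℤ L) ^ k - 1) = (ℓ : integralClosure ℤ L) * r := by
      have := congrArg (Int.cast : ℤ → integralClosure ℤ L) hr
      push_cast at this
      exact this
    rw [h1, h5]
    exact Ideal.mul_mem_left _ _ (Ideal.mul_mem_right _ _ hℓc)
  have h6 : (e - 1) * x ∈ center A := by
    have : (e - 1) * x = (y - x ^ ℓ) + (x ^ ℓ - x) := by rw [hyex]; ring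
    rw [this]
    exact Ideal.add_mem _ hyx hxℓ
  have hxc : x ∉ center A := by
    intro hx
    have h7 : (q : integralClosure ℤ L) ∈ center A := by
      rw [← hxp]
      exact Ideal.pow_mem_of_mem _ hx _ hp.pos
    have hcop : IsCoprime (ℓ : ℤ) (q : ℤ) :=
      Nat.isCoprime_iff_coprime.mpr ((Nat.Prime.coprime_iff_not_dvd hℓ).mpr hqℓ)
    obtain ⟨a, b, hab⟩ := hcop
    have h8 : (1 : integralClosure ℤ L) = (a : integralClosure ℤ L) * ℓ + b * q := by
      have := congrArg (Int.cast : ℤ → integralClosure ℤ L) hab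
      push_cast at this
      exact this.symm
    apply (center_isPrime A).ne_top
    rw [Ideal.eq_top_iff_one, h8]
    exact Ideal.add_mem _ (Ideal.mul_mem_left _ _ hℓc) (Ideal.mul_mem_left _ _ h7)
  have h9 : e - 1 ∈ center A := ((center_isPrime A).mem_or_mem h6).resolve_right hxc
  have h10 : e = 1 := residue_toVal_eq_one_imp hℓ hA
    ((Nat.coprime_primes hp hℓ).mpr (Ne.symm hpℓ)) e (Subtype.ext hη1) h9
  have h11 : η = 1 := congrArg Subtype.val h10
  rw [hτα, h11, one_mul]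

variable (E : WeierstrassCurve ℚ) [E.IsElliptic] (p : ℕ) [hp : Fact p.Prime]
variable {W : WeierstrassCurve ℤ} (hWE : W.IsIntegralModelOf E)

theorem finite_torsionBy : Finite (Submodule.torsionBy ℤ (E⁄Qb).Point (p : ℤ)) := by
  have h1 : Nat.card (Submodule.torsionBy ℤ (E⁄Qb).Point (p : ℤ)) = p ^ 2 := by
    rw [← card_torsionE E hp.out.pos]
    refine Nat.card_congr (Equiv.subtypeEquivRight fun x => ?_)
    rw [Submodule.mem_torsionBy_iff, natCast_zsmul]
  exact Nat.finite_of_card_ne_zero (by rw [h1]; exact pow_ne_zero _ hp.out.ne_zero)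

include hWE in
/-- The key element: trivial on roots of unity, moving `q ^ (1 / p)`, of trace `≠ 2`. -/
theorem exists_sigma (hirr : GaloisRepIsIrreducible (K := Qb) ℚ E p) (hp2 : p ≠ 2) {q M : ℕ}
    (hq : q.Prime) (hM : 0 < M) (hpM : p ∣ M) :
    ∃ α : Qb, α ^ p = q ∧ ∃ σ ∈ fixMu M, σ α ≠ α ∧ tbar E p σ ≠ 2 := by
  have hns := nonScalar_of_irreducible E p hirr
  obtain ⟨c, hc2, hc⟩ := exists_conj
  obtain ⟨α, hα, hcα⟩ := exists_alpha hp.out hp2 hq hc
  obtain ⟨τ, hτM, hτ⟩ := exists_tau (M := M) hp.out hp2 hq hM hc hα hcα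
  refine ⟨α, hα, ?_⟩
  by_contra hcon
  push Not at hcon
  have hall : ∀ σ ∈ fixMu M, tbar E p σ = 2 := by
    intro σ hσ
    by_cases hσα : σ α = α
    · obtain ⟨h1, h2⟩ := moves hp.out hp2 hq hpM hα hσ hτM hσα hτ
      have h3 := hcon _ (mul_mem hσ hτM) h1
      have h4 := hcon _ (mul_mem (mul_mem hσ hτM) hτM) h2
      have h5 := tbar_mul E p hWE hns σ τ
      rw [h4, hcon τ hτM hτ, h3, cbar_fixMu p hpM hτM] at h5
      linear_combination h5
    · exact hcon σ hσ hσα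
  have := finite_torsionBy E p
  have := hirr.1
  have hpV : ∀ x : Submodule.torsionBy ℤ (E⁄Qb).Point (p : ℤ), p • x = 0 := fun x => by
    apply Subtype.ext
    have h := x.2
    rw [Submodule.mem_torsionBy_iff, natCast_zsmul] at h
    exact h
  have hirr' : ∀ N : AddSubgroup (Submodule.torsionBy ℤ (E⁄Qb).Point (p : ℤ)),
      (∀ (σ : GQ), ∀ x ∈ N, σ • x ∈ N) → N = ⊥ ∨ N = ⊤ := by
    intro N hN
    let e := AddSubgroup.toZModSubmodule (M := Submodule.torsionBy ℤ (E⁄Qb).Point (p : ℤ)) p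
    rcases hirr.2 (e N) hN with h | h
    · left
      rw [← map_bot e] at h
      exact e.injective h
    · right
      rw [← map_top e] at h
      exact e.injective h
  have htriv := trivial_of_unipotent hpV (fixMu M)
    (fun κ hκ σ => by
      have := conj_mem_fixMu hκ σ⁻¹
      rwa [inv_inv] at this) hirr'
    (fun σ hσ x => unip_rel E p hWE hns (cbar_fixMu p hpM hσ) (hall σ hσ) x)
  have hdet := det_eq_cyc E p hWE hns c
  have hcm := cbar_conj p hc
  have hone : cbar p c = 1 := by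
    rcases scalar_of_comm (V := Submodule.torsionBy ℤ (E⁄Qb).Point (p : ℤ)) c hc2 hirr'
      (fun σ x => by
        have h1 := htriv _ (comm_mem_fixMu hM c σ) x
        have h2 : c • σ • x = (σ * c) • ((σ * c)⁻¹ * (c * σ)) • x := by
          rw [smul_smul, smul_smul, mul_inv_cancel_left]
        rw [h2, h1, mul_smul]) with h | h
    · rw [cbar_of_scalar E p hdet 1 (fun x => by rw [h, one_smul])]
      norm_num
    · rw [cbar_of_scalar E p hdet (-1) (fun x => by rw [h, neg_one_smul])]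
      norm_num
  rw [hone] at hcm
  have : Fact (2 < p) := ⟨lt_of_le_of_ne hp.out.two_le (Ne.symm hp2)⟩
  exact ZMod.neg_one_ne_one hcm.symm

/-- the trace mod `p` depends only on the action on `E[p]` -/
theorem tbar_congr {σ τ : GQ}
    (h : ∀ x : (E⁄Qb).Point, p • x = 0 → σ • x = τ • x) : tbar E p σ = tbar E p τ := by
  have h1 : ∀ v : Fin 2 → ℤ_[p], ∃ w, repE E p σ v = repE E p τ v + (p : ℤ_[p]) • w := by
    intro v
    have h2 : (tb E p).pr 1 (repE E p σ v - repE E p τ v) = 0 := by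
      apply Subtype.ext
      have h3 := h ((tb E p).pr 1 v) (by
        have := ((tb E p).pr 1 v).2
        rw [mem_tor, pow_one] at this
        exact this)
      rw [map_sub, AddSubgroup.coe_sub, pr_repE, pr_repE, h3, sub_self]
      rfl
    obtain ⟨w, hw⟩ := ((tb E p).pr_eq_zero_iff 1 _).mp h2
    refine ⟨w, ?_⟩
    rw [pow_one] at hw
    rw [← hw]
    abel
  obtain ⟨w0, hw0⟩ := h1 (Pi.single 0 1)
  obtain ⟨w1, hw1⟩ := h1 (Pi.single 1 1)
  have hp0 : PadicInt.toZMod (p : ℤ_[p]) = 0 := by rw [map_natCast, ZMod.natCast_self]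
  have htr : ∀ f : Module.End ℤ_[p] (Fin 2 → ℤ_[p]), LinearMap.trace ℤ_[p] _ f =
      f (Pi.single 0 1) 0 + f (Pi.single 1 1) 1 := by
    intro f
    rw [LinearMap.trace_eq_matrix_trace ℤ_[p] (Pi.basisFun ℤ_[p] (Fin 2)), Matrix.trace_fin_two]
    simp
  rw [tbar, tbar, trE, trE, htr, htr, hw0, hw1]
  simp only [Pi.add_apply, Pi.smul_apply, smul_eq_mul, map_add, map_mul, hp0, zero_mul, add_zero]

include hWE in
/-- **The input `G2`.** -/
theorem exists_good_prime (hirr : GaloisRepIsIrreducible (K := Qb) ℚ E p) (hp2 : p ≠ 2)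
    {N q : ℕ} (hN : 0 < N) (hq : q.Prime) (n m : ℕ) (hn : 0 < n) (hm : 0 < m) :
    ∃ ℓ : ℕ, ℓ.Prime ∧ (ℓ.Prime ∧ W.IsGoodPrimeFor ℓ ∧ ¬ ℓ ∣ N * q ∧ ℓ ≠ p) ∧ n ∣ ℓ - 1 ∧
      p ∣ orderOf ((q : ZMod ℓ) ^ m) ∧ ((W.apOfModel ℓ : ℤ) : ZMod p) ≠ 1 + ℓ := by
  classical
  have hns := nonScalar_of_irreducible E p hirr
  set M := n * m * p with hMdef
  have hM : 0 < M := Nat.mul_pos (Nat.mul_pos hn hm) hp.out.pos
  have hpM : p ∣ M := Dvd.intro_left _ rfl
  obtain ⟨α, hα, σ, hσM, hσα, hσt⟩ := exists_sigma E p hWE hirr hp2 hq hM hpM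
  have : NeZero M := ⟨hM.ne'⟩
  obtain ⟨ζ, hζ⟩ := HasEnoughRootsOfUnity.exists_primitiveRoot (AlgebraicClosure ℚ) M
  have hfin := finite_torsionBy E p
  obtain ⟨L, hLfin, hL⟩ := exists_level E
    (S := (Submodule.torsionBy ℤ (E⁄Qb).Point (p : ℤ) : Set (E⁄Qb).Point)) (Set.toFinite _)
  set L' : IntermediateField ℚ Qb := IntermediateField.adjoin ℚ {α, ζ} with hL'
  have hL'fin : FiniteDimensional ℚ L' := IntermediateField.finiteDimensional_adjoin fun x _ =>
    (AlgebraicClosure.isAlgebraic ℚ).isIntegral.isIntegral x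
  have hαL : α ∈ L' := IntermediateField.subset_adjoin ℚ _ (by simp)
  have hζL : ζ ∈ L' := IntermediateField.subset_adjoin ℚ _ (by simp)
  obtain ⟨ℓ, hℓ, hℓS, -, A, hA, τ, hτ, hτσ⟩ := Fermat.Agent.Cheb.exists_frobenius_eq (L ⊔ L')
    (by infer_instance) σ ((W.Δ.natAbs * (N * q) * M).primeFactors)
  have hΔ0 : W.Δ.natAbs ≠ 0 := Int.natAbs_ne_zero.mpr (Δ_ne_zero E hWE)
  have hNq0 : N * q ≠ 0 := Nat.mul_ne_zero hN.ne' hq.ne_zero
  have hℓS' : ¬ ℓ ∣ W.Δ.natAbs * (N * q) * M := by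
    intro hd
    apply hℓS
    rw [Nat.mem_primeFactors]
    exact ⟨hℓ, hd, Nat.mul_ne_zero (Nat.mul_ne_zero hΔ0 hNq0) hM.ne'⟩
  have hgood : W.IsGoodPrimeFor ℓ := by
    intro hd
    exact hℓS' ((Int.natCast_dvd.mp hd).mul_right _ |>.mul_right _)
  have hℓNq : ¬ ℓ ∣ N * q := fun h => hℓS' ((h.mul_left _).mul_right _)
  have hℓM : ¬ ℓ ∣ M := fun h => hℓS' (h.mul_left _)
  have hℓp : ℓ ≠ p := fun h => hℓM (h ▸ hpM)
  have hℓq : ¬ ℓ ∣ q := fun h => hℓNq (h.mul_left _)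
  have hcop : M.Coprime ℓ := ((Nat.Prime.coprime_iff_not_dvd hℓ).mpr hℓM).symm
  -- `ℓ = 1 mod M`
  have hτζ : ζ ^ ℓ = ζ ^ 1 := by
    rw [← frobenius_smul_root hℓ hA hτ hM hcop ζ hζ.pow_eq_one,
      hτσ ζ ((le_sup_right : L' ≤ L ⊔ L') hζL), hσM ζ hζ.pow_eq_one, pow_one]
  have hmod : ℓ ≡ 1 [MOD M] := modEq_of_pow_eq hζ hM hτζ
  have hMd : M ∣ ℓ - 1 := (Nat.modEq_iff_dvd' hℓ.one_le).mp hmod.symm
  -- the trace
  have htr : tbar E p τ = tbar E p σ := by
    apply tbar_congr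
    intro x hx
    have hx' : x ∈ Submodule.torsionBy ℤ (E⁄Qb).Point (p : ℤ) := by
      rw [Submodule.mem_torsionBy_iff, natCast_zsmul]; exact hx
    have h1 : (σ⁻¹ * τ) • x = x := hL (σ⁻¹ * τ) (fun z hz => by
      change σ⁻¹ (τ z) = z
      rw [hτσ z ((le_sup_left : L ≤ L ⊔ L') hz)]
      exact inv_apply_self σ z) x hx'
    rw [mul_smul] at h1
    rw [← h1, smul_inv_smul, h1]
  have htr' : ((W.apOfModel ℓ : ℤ) : ZMod p) = tbar E p σ := by
    rw [← htr, tbar, trE_frob E p hWE hns hℓ hA hℓp hgood hτ, map_intCast]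
  refine ⟨ℓ, hℓ, ⟨hℓ, hgood, hℓNq, hℓp⟩, (Dvd.intro _ (mul_assoc n m p).symm).trans hMd, ?_, ?_⟩
  · refine dvd_orderOf hℓ hp.out hℓq hMd ?_
    intro hpow
    apply hσα
    rw [← hτσ α ((le_sup_right : L' ≤ L ⊔ L') hαL)]
    exact frob_alpha hℓ hA hτ hp.out hℓp hℓq (hpM.trans hMd) hα hpow
  · rw [htr']
    have h2 : (ℓ : ZMod p) = 1 := by
      have h3 : (p : ℕ) ∣ ℓ - 1 := hpM.trans hMd
      have h4 : ((ℓ - 1 : ℕ) : ZMod p) = 0 := (ZMod.natCast_eq_zero_iff _ _).mpr h3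
      rw [Nat.cast_sub hℓ.one_le, Nat.cast_one, sub_eq_zero] at h4
      exact h4
    rw [h2, one_add_one_eq_two]
    exact hσt

end

end Fermat.Agent.LRGal
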