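import Fermat.Agent.LevelRaise.Core

set_option autoImplicit false
set_option linter.unusedSectionVars false

/-!
The level raising argument on modular symbols.
-/

namespace Fermat.Agent.LR

open Matrix CongruenceSubgroup
open scoped MatrixGroups
open Fermat.Agent.HeckeHom ModularCurve.Period

noncomputable section

/-- evaluation at a modular symbol -/
def evAt {Γ : Subgroup SL(2, ℤ)} (φ : MS ℂ Γ) : LL Γ →+ ℂ where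
  toFun d := d.1 φ
  map_zero' := rfl
  map_add' _ _ := rfl

theorem exists_ALD {N q : ℕ} (hq : q.Prime) (hqN : ¬ q ∣ N) : Nonempty (ALD N q) := by
  obtain ⟨d, b, h⟩ : IsCoprime (q : ℤ) (N : ℤ) :=
    Nat.isCoprime_iff_coprime.mpr ((Nat.Prime.coprime_iff_not_dvd hq).mpr hqN)
  exact ⟨⟨1, -b, 1, d, by linear_combination h, hq.ne_zero⟩⟩

theorem finite_quot {N : ℕ} (hN : 0 < N) : Finite (SL(2, ℤ) ⧸ Gamma0 N) := by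
  have : NeZero N := ⟨hN.ne'⟩
  infer_instance

/-- the key input: eigenvectors modulo `p` in the kernel are divisible. -/
theorem IH_of_ihara {N q p : ℕ} (hN : 0 < N) (hq : q.Prime) (hqN : ¬ q ∣ N) (hp : p.Prime)
    (hp2 : p ≠ 2) (w : ALD N q) (good : ℕ → Prop)
    (hgood : ∀ ℓ, good ℓ → ℓ.Prime ∧ ¬ ℓ ∣ N * q ∧ ℓ ≠ p) (lam : ℕ → ℤ)
    (G2 : ∀ n m : ℕ, 0 < n → 0 < m → ∃ ℓ : ℕ, ℓ.Prime ∧ good ℓ ∧ n ∣ ℓ - 1 ∧
      p ∣ orderOf ((q : ZMod ℓ) ^ m) ∧ (lam ℓ : ZMod p) ≠ 1 + ℓ)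
    (d1 d2 : LL (Gamma0 N))
    (h1 : ∀ (ℓ : ℕ) (hℓ : ℓ.Prime) (hℓN : ¬ ℓ ∣ N), good ℓ →
      ∃ e, TL hℓ hℓN d1 - lam ℓ • d1 = (p : ℤ) • e)
    (h2 : ∀ (ℓ : ℕ) (hℓ : ℓ.Prime) (hℓN : ¬ ℓ ∣ N), good ℓ →
      ∃ e, TL hℓ hℓN d2 - lam ℓ • d2 = (p : ℤ) • e)
    (hb : ∀ γ : Gamma0 (N * q),
      ((pd γ (w.tL hq hqN d1 + w.wL (w.tL hq hqN d2)) : ℤ) : ZMod p) = 0) :
    (∃ e, d1 = (p : ℤ) • e) ∧ ∃ e, d2 = (p : ℤ) • e := by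
  have : Fact p.Prime := ⟨hp⟩
  have := finite_quot hN
  have hk2 : (2 : ZMod p) ≠ 0 := by
    intro h
    have : ((2 : ℕ) : ZMod p) = 0 := by exact_mod_cast h
    rw [ZMod.natCast_eq_zero_iff] at this
    exact hp2 ((Nat.prime_dvd_prime_iff_eq hp Nat.prime_two).mp this)
  have heig : ∀ d : LL (Gamma0 N), (∀ (ℓ : ℕ) (hℓ : ℓ.Prime) (hℓN : ¬ ℓ ∣ N), good ℓ →
      ∃ e, TL hℓ hℓN d - lam ℓ • d = (p : ℤ) • e) →
      ∀ (ℓ : ℕ) (hℓ : ℓ.Prime) (hℓN : ¬ ℓ ∣ N), good ℓ →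
      (dataT hℓ hℓN).hom (ZMod p) (pdHom (ZMod p) d) = (lam ℓ : ZMod p) • pdHom (ZMod p) d := by
    intro d hd ℓ hℓ hℓN hg
    obtain ⟨e, he⟩ := hd ℓ hℓ hℓN hg
    rw [pdHom_TL]
    refine AddMonoidHom.ext fun γ => ?_
    change ((pd (Additive.toMul γ) (TL hℓ hℓN d) : ℤ) : ZMod p) =
      (lam ℓ : ZMod p) * ((pd (Additive.toMul γ) d : ℤ) : ZMod p)
    have h3 : TL hℓ hℓN d = lam ℓ • d + (p : ℤ) • e := by rw [← he]; abel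
    rw [h3, map_add, map_zsmul, map_zsmul]
    push_cast
    rw [smul_eq_mul, smul_eq_mul]
    push_cast
    rw [ZMod.natCast_self]
    ring
  obtain ⟨hD1, hD2⟩ := ihara_hom (p := p) (k := ZMod p) (ZMod.natCast_self p) hk2 hN hq hqN w
    (pdHom (ZMod p) d1) (pdHom (ZMod p) d2) (fun ℓ => (lam ℓ : ZMod p)) good
    (by
      intro ℓ hg
      refine ⟨(hgood ℓ hg).2.1, ?_⟩
      rw [Ne, ZMod.natCast_eq_zero_iff]
      intro h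
      exact (hgood ℓ hg).2.2 ((Nat.prime_dvd_prime_iff_eq hp (hgood ℓ hg).1).mp h).symm)
    (heig d1 h1) (heig d2 h2) (by
      intro γ γ' hγ hγ' h
      have h3 := hb ⟨γ, hγ⟩
      rw [map_add, w.pd_tL hq hqN, w.pd_wL hγ hγ' h, w.pd_tL hq hqN] at h3
      rw [pdHom_apply, pdHom_apply]
      push_cast at h3
      exact h3) G2
  have hdiv : ∀ d : LL (Gamma0 N), pdHom (ZMod p) d = 0 → ∃ e, d = (p : ℤ) • e := by
    intro d hd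
    obtain ⟨d', hd', h3⟩ := exists_smul_of_PD hp hp2 d.2 (by
      intro γ hγ
      have h4 : ((pd ⟨γ, hγ⟩ d : ℤ) : ZMod p) = 0 := by
        rw [← pdHom_apply, hd, AddMonoidHom.zero_apply]
      rw [ZMod.intCast_zmod_eq_zero_iff_dvd] at h4
      obtain ⟨n, hn⟩ := h4
      refine ⟨n, ?_⟩
      rw [pd_spec ⟨γ, hγ⟩ d, hn]
      push_cast
      rfl)
    exact ⟨⟨d', hd'⟩, Subtype.ext h3⟩
  exact ⟨hdiv d1 hD1, hdiv d2 hD2⟩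

/-- the functional `y`. -/
theorem exists_y {N q p : ℕ} (hN : 0 < N) (hq : q.Prime) (hqN : ¬ q ∣ N) (hp : p.Prime)
    (w : ALD N q) (good : ℕ → Prop)
    (hgood : ∀ ℓ, good ℓ → ℓ.Prime ∧ ¬ ℓ ∣ N * q ∧ ℓ ≠ p) (lam : ℕ → ℤ)
    (G2 : ∀ n m : ℕ, 0 < n → 0 < m → ∃ ℓ : ℕ, ℓ.Prime ∧ good ℓ ∧ n ∣ ℓ - 1 ∧
      p ∣ orderOf ((q : ZMod ℓ) ^ m) ∧ (lam ℓ : ZMod p) ≠ 1 + ℓ)
    (φ : MS ℂ (Gamma0 N)) (hφ : φ ≠ 0) (a : ℕ → integralClosure ℤ ℂ)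
    (ha : ∀ ℓ, good ℓ → To ℓ φ.1 = (a ℓ : ℂ) • φ.1) (haq : To q φ.1 = (a q : ℂ) • φ.1)
    (𝔪 : Ideal (integralClosure ℤ ℂ)) (h𝔪 : 𝔪 ≠ ⊤) (hpm : (p : integralClosure ℤ ℂ) ∈ 𝔪)
    (hlam : ∀ ℓ, good ℓ → a ℓ - (lam ℓ : integralClosure ℤ ℂ) ∈ 𝔪) (ε : ℤ) (hε : ε * ε = 1)
    (hεq : a q - ((ε * (q + 1) : ℤ) : integralClosure ℤ ℂ) ∈ 𝔪) :
    ∃ y : LL (Gamma0 (N * q)) →+ ZMod p, y ≠ 0 ∧ (∀ d, y (w.tL hq hqN d) = 0) ∧
      (∀ d, y (w.wL (w.tL hq hqN d)) = 0) ∧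
      ∀ (ℓ : ℕ) (hℓ : ℓ.Prime) (hℓN : ¬ ℓ ∣ N * q), good ℓ → ∀ z,
        y (TL hℓ hℓN z) = (lam ℓ : ZMod p) * y z := by
  classical
  have hpF : Fact p.Prime := ⟨hp⟩
  have hfin1 := finite_quot hN
  have hgN : ∀ ℓ, good ℓ → ¬ ℓ ∣ N := fun ℓ hg h => (hgood ℓ hg).2.1 (h.mul_right _)
  let ι := {ℓ : ℕ // good ℓ}
  let T1 : ι → Module.End ℤ (LL (Gamma0 N)) := fun i => TL (hgood i.1 i.2).1 (hgN i.1 i.2)
  -- reduction modulo p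
  have hφT : ∀ (i : Option ι) (x : LL (Gamma0 N)),
      evAt φ ((i.elim (TL hq hqN) T1) x) = ((i.elim (a q) (fun i => a i.1) :
        integralClosure ℤ ℂ) : ℂ) * evAt φ x := by
    intro i x
    cases i with
    | none =>
      change x.1 (ToM hq hqN φ) = (a q : ℂ) * x.1 φ
      have : ToM hq hqN φ = (a q : ℂ) • φ := Subtype.ext haq
      rw [this, map_smul, smul_eq_mul]
    | some i =>
      change x.1 (ToM _ _ φ) = (a i.1 : ℂ) * x.1 φ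
      have : ToM (hgood i.1 i.2).1 (hgN i.1 i.2) φ = (a i.1 : ℂ) • φ := Subtype.ext (ha i.1 i.2)
      rw [this, map_smul, smul_eq_mul]
  have hevφ : evAt φ ≠ 0 := by
    intro h
    apply hφ
    apply Subtype.ext
    funext u v
    exact DFunLike.congr_fun h ⟨ev _ u v, ev_mem u v⟩
  obtain ⟨x, hx0, hxT⟩ := exists_mod_p (fun i : Option ι => i.elim (TL hq hqN) T1) (evAt φ) hevφ
    (fun i => i.elim (a q) (fun i => a i.1)) hφT 𝔪 h𝔪 hp hpm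
    (fun i => i.elim (ε * (q + 1)) (fun i => lam i.1)) (by
      intro i
      cases i with
      | none => exact hεq
      | some i => exact hlam i.1 i.2)
  have hxq : ∀ z, x (TL hq hqN z) = ((ε * (q + 1) : ℤ) : ZMod p) * x z := fun z => hxT none z
  have hxi : ∀ (ℓ : ℕ) (hℓ : ℓ.Prime) (hℓN : ¬ ℓ ∣ N), good ℓ → ∀ z,
      x (TL hℓ hℓN z) = (lam ℓ : ZMod p) * x z := fun ℓ _ _ hg z => hxT (some ⟨ℓ, hg⟩) z
  have hε' : (ε : ZMod p) * ε = 1 := by exact_mod_cast congrArg (Int.cast : ℤ → ZMod p) hε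
  -- the functional y
  let y : LL (Gamma0 (N * q)) →+ ZMod p :=
    x.comp (ALD.rL N q) - ε • x.comp ((ALD.rL N q).comp w.wL)
  have hyd : ∀ z, y z = x (ALD.rL N q z) - (ε : ZMod p) * x (ALD.rL N q (w.wL z)) := by
    intro z
    change x (ALD.rL N q z) - ε • x (ALD.rL N q (w.wL z)) = _
    rw [zsmul_eq_mul]
  refine ⟨y, ?_, ?_, ?_, ?_⟩
  · -- y is nonzero, by Ihara's lemma
    intro h0
    apply hx0
    apply hat_eq_zero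
    set X := hat x with hX
    have h1 : X.1 = - Vo q ((-(ε : ZMod p)) • X.1) := by
      funext u v
      have h2 : y ⟨ev _ u v, ev_mem u v⟩ = 0 := by rw [h0]; rfl
      rw [hyd] at h2
      have e1 : ALD.rL N q ⟨ev _ u v, ev_mem u v⟩ = ⟨ev _ u v, ev_mem u v⟩ := rfl
      have e2 : ALD.rL N q (w.wL ⟨ev _ u v, ev_mem u v⟩) =
        ⟨ev _ (w.mat • u) (w.mat • v), ev_mem _ _⟩ := rfl
      rw [e1, e2] at h2
      have h3 : Vo q X.1 u v = X.1 (w.mat • u) (w.mat • v) := by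
        rw [← w.slash_old X.2]; rfl
      rw [Vo_smul]
      change X.1 u v = -(-(ε : ZMod p) * Vo q X.1 u v)
      rw [h3]
      change x ⟨ev _ u v, ev_mem u v⟩ = -(-(ε : ZMod p) * x ⟨ev _ (w.mat • u) (w.mat • v), ev_mem _ _⟩)
      linear_combination h2
    refine ihara (p := p) (ZMod.natCast_self p) hq hqN X.2 (Submodule.smul_mem _ _ X.2) h1
      (fun ℓ => (lam ℓ : ZMod p)) good (fun ℓ hg h => (hgood ℓ hg).2.1 (h ▸ Dvd.intro_left _ rfl))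
      ?_ G2
    intro ℓ hℓ hg
    funext u v
    have h2 := hat_TL hℓ (hgN ℓ hg) x u v
    rw [← hX] at h2
    rw [← h2]
    exact hxi ℓ _ _ hg _
  · intro d
    rw [hyd, w.rL_tL, w.rL_wL_tL, hxq, map_zsmul, zsmul_eq_mul]
    push_cast
    linear_combination (-(((q : ZMod p) + 1) * x d)) * hε'
  · intro d
    rw [hyd, w.wL_wL, w.rL_tL, w.rL_wL_tL, hxq, map_zsmul, zsmul_eq_mul]
    push_cast
    ring
  · intro ℓ hℓ hℓN hg z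
    rw [hyd, hyd, ← ALD.TL_rL hℓ (hgN ℓ hg) hℓN z, ← w.TL_wL hℓ hℓN z,
      ← ALD.TL_rL hℓ (hgN ℓ hg) hℓN (w.wL z), hxi ℓ _ _ hg, hxi ℓ _ _ hg]
    ring

/-- the mod `p` pairing -/
def pairP (N q p : ℕ) : LL (Gamma0 (N * q)) →+ (Gamma0 (N * q) → ZMod p) where
  toFun z γ := ((pd γ z : ℤ) : ZMod p)
  map_zero' := by
    funext γ
    rw [map_zero, Int.cast_zero]
    rfl
  map_add' z z' := by
    funext γ
    rw [map_add, Int.cast_add]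
    rfl

/-- the map `b` -/
def bL {N q : ℕ} (hq : q.Prime) (hqN : ¬ q ∣ N) (w : ALD N q) :
    LL (Gamma0 N) × LL (Gamma0 N) →+ LL (Gamma0 (N * q)) :=
  AddMonoidHom.coprod (w.tL hq hqN) (w.wL.comp (w.tL hq hqN))

theorem bL_apply {N q : ℕ} (hq : q.Prime) (hqN : ¬ q ∣ N) (w : ALD N q)
    (d : LL (Gamma0 N) × LL (Gamma0 N)) :
    bL hq hqN w d = w.tL hq hqN d.1 + w.wL (w.tL hq hqN d.2) := rfl

instance LL_prod_tf (Γ : Subgroup SL(2, ℤ)) : Module.IsTorsionFree ℤ (LL Γ × LL Γ) := by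
  apply Module.IsTorsionFree.of_smul_eq_zero
  intro n d h
  have e1 : n • d.1 = 0 := congrArg Prod.fst h
  have e2 : n • d.2 = 0 := congrArg Prod.snd h
  by_cases hn : n = 0
  · exact Or.inl hn
  · right
    exact Prod.ext ((smul_eq_zero.mp e1).resolve_left hn) ((smul_eq_zero.mp e2).resolve_left hn)

/-- the characteristic zero functional `κ`. -/
theorem exists_kappa {N q p : ℕ} (hN : 0 < N) (hq : q.Prime) (hqN : ¬ q ∣ N) (hp : p.Prime)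
    (hp2 : p ≠ 2) (w : ALD N q) (good : ℕ → Prop)
    (hgood : ∀ ℓ, good ℓ → ℓ.Prime ∧ ¬ ℓ ∣ N * q ∧ ℓ ≠ p) (lam : ℕ → ℤ)
    (G2 : ∀ n m : ℕ, 0 < n → 0 < m → ∃ ℓ : ℕ, ℓ.Prime ∧ good ℓ ∧ n ∣ ℓ - 1 ∧
      p ∣ orderOf ((q : ZMod ℓ) ^ m) ∧ (lam ℓ : ZMod p) ≠ 1 + ℓ)
    (y : LL (Gamma0 (N * q)) →+ ZMod p) (hy0 : y ≠ 0) (hy1 : ∀ d, y (w.tL hq hqN d) = 0)
    (hy2 : ∀ d, y (w.wL (w.tL hq hqN d)) = 0)
    (hyT : ∀ (ℓ : ℕ) (hℓ : ℓ.Prime) (hℓN : ¬ ℓ ∣ N * q), good ℓ → ∀ z,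
      y (TL hℓ hℓN z) = (lam ℓ : ZMod p) * y z) :
    ∃ (κ : LL (Gamma0 (N * q)) →+ ℂ) (χ : {ℓ : ℕ // good ℓ} → integralClosure ℤ ℂ)
      (Q : Ideal (integralClosure ℤ ℂ)), κ ≠ 0 ∧ (∀ d, κ (bL hq hqN w d) = 0) ∧
      (∀ (i : {ℓ : ℕ // good ℓ}) (z : LL (Gamma0 (N * q))),
        κ (TL (hgood i.1 i.2).1 (hgood i.1 i.2).2.1 z) = (χ i : ℂ) * κ z) ∧ Q.IsMaximal ∧
      (p : integralClosure ℤ ℂ) ∈ Q ∧ ∀ i, χ i - (lam i.1 : integralClosure ℤ ℂ) ∈ Q := by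
  have hpF : Fact p.Prime := ⟨hp⟩
  have hfin1 := finite_quot hN
  have hNq : 0 < N * q := Nat.mul_pos hN hq.pos
  have hfin2 := finite_quot hNq
  have hgN : ∀ ℓ, good ℓ → ¬ ℓ ∣ N := fun ℓ hg h => (hgood ℓ hg).2.1 (h.mul_right _)
  let ι := {ℓ : ℕ // good ℓ}
  let T1 : ι → Module.End ℤ (LL (Gamma0 N)) := fun i => TL (hgood i.1 i.2).1 (hgN i.1 i.2)
  let TD : ι → Module.End ℤ (LL (Gamma0 N) × LL (Gamma0 N)) := fun i => (T1 i).prodMap (T1 i)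
  have hTD : ∀ i j, Commute (TD i) (TD j) := by
    intro i j
    have h1 : Commute (T1 i) (T1 j) := TL_comm _ _ _ _
    refine LinearMap.ext fun d => ?_
    change (T1 i (T1 j d.1), T1 i (T1 j d.2)) = (T1 j (T1 i d.1), T1 j (T1 i d.2))
    have h2 : ∀ z, T1 i (T1 j z) = T1 j (T1 i z) := fun z => LinearMap.congr_fun h1 z
    rw [h2, h2]
  refine exists_char_zero TD (fun i : ι => TL (hgood i.1 i.2).1 (hgood i.1 i.2).2.1) hTD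
    (fun i j => TL_comm _ _ _ _) (bL hq hqN w) ?_ hp (fun i => lam i.1) (pairP N q p) ?_ ?_ y hy0
    ?_ (fun i z => hyT i.1 _ _ i.2 z)
  · intro i d
    rw [bL_apply, bL_apply, map_add, w.TL_wL, w.TL_tL hq hqN _ (hgN i.1 i.2),
      w.TL_tL hq hqN _ (hgN i.1 i.2)]
    rfl
  · intro v
    funext γ
    change (p : ℤ) • v γ = 0
    rw [zsmul_eq_mul]
    push_cast
    rw [ZMod.natCast_self, zero_mul]
  · intro d hd hPd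
    have hd1 : ∀ (ℓ : ℕ) (hℓ : ℓ.Prime) (hℓN : ¬ ℓ ∣ N), good ℓ →
        ∃ e, TL hℓ hℓN d.1 - lam ℓ • d.1 = (p : ℤ) • e := by
      intro ℓ hℓ hℓN hg
      obtain ⟨e, he⟩ := hd ⟨ℓ, hg⟩
      exact ⟨e.1, congrArg Prod.fst he⟩
    have hd2 : ∀ (ℓ : ℕ) (hℓ : ℓ.Prime) (hℓN : ¬ ℓ ∣ N), good ℓ →
        ∃ e, TL hℓ hℓN d.2 - lam ℓ • d.2 = (p : ℤ) • e := by
      intro ℓ hℓ hℓN hg
      obtain ⟨e, he⟩ := hd ⟨ℓ, hg⟩
      exact ⟨e.2, congrArg Prod.snd he⟩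
    obtain ⟨⟨e1, he1⟩, ⟨e2, he2⟩⟩ := IH_of_ihara hN hq hqN hp hp2 w good hgood lam G2 d.1 d.2
      hd1 hd2 (fun γ => congrFun hPd γ)
    exact ⟨(e1, e2), Prod.ext he1 he2⟩
  · intro d
    rw [bL_apply, map_add, hy1, hy2, add_zero]

theorem core {N q p : ℕ} (hN : 0 < N) (hq : q.Prime) (hqN : ¬ q ∣ N) (hp : p.Prime)
    (hp2 : p ≠ 2) (good : ℕ → Prop)
    (hgood : ∀ ℓ, good ℓ → ℓ.Prime ∧ ¬ ℓ ∣ N * q ∧ ℓ ≠ p) (lam : ℕ → ℤ)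
    (G2 : ∀ n m : ℕ, 0 < n → 0 < m → ∃ ℓ : ℕ, ℓ.Prime ∧ good ℓ ∧ n ∣ ℓ - 1 ∧
      p ∣ orderOf ((q : ZMod ℓ) ^ m) ∧ (lam ℓ : ZMod p) ≠ 1 + ℓ)
    (φ : MS ℂ (Gamma0 N)) (hφ : φ ≠ 0) (a : ℕ → integralClosure ℤ ℂ)
    (ha : ∀ ℓ, good ℓ → To ℓ φ.1 = (a ℓ : ℂ) • φ.1) (haq : To q φ.1 = (a q : ℂ) • φ.1)
    (𝔪 : Ideal (integralClosure ℤ ℂ)) (h𝔪 : 𝔪 ≠ ⊤) (hpm : (p : integralClosure ℤ ℂ) ∈ 𝔪)
    (hlam : ∀ ℓ, good ℓ → a ℓ - (lam ℓ : integralClosure ℤ ℂ) ∈ 𝔪) (ε : ℤ) (hε : ε * ε = 1)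
    (hεq : a q - ((ε * (q + 1) : ℤ) : integralClosure ℤ ℂ) ∈ 𝔪) :
    ∃ (κ : MS ℂ (Gamma0 (N * q))) (χ : ℕ → integralClosure ℤ ℂ)
      (Q : Ideal (integralClosure ℤ ℂ)), κ ≠ 0 ∧
      (∀ ℓ, good ℓ → To ℓ κ.1 = (χ ℓ : ℂ) • κ.1) ∧ Uo q κ.1 ∈ MS ℂ (Gamma0 (N * q)) ∧
      Uo q (Uo q κ.1) = κ.1 ∧ Q.IsMaximal ∧ (p : integralClosure ℤ ℂ) ∈ Q ∧
      ∀ ℓ, good ℓ → χ ℓ - (lam ℓ : integralClosure ℤ ℂ) ∈ Q := by
  classical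
  obtain ⟨w⟩ := exists_ALD hq hqN
  obtain ⟨y, hy0, hy1, hy2, hyT⟩ := exists_y hN hq hqN hp w good hgood lam G2 φ hφ a ha haq 𝔪 h𝔪
    hpm hlam ε hε hεq
  obtain ⟨κ, χ, Q, hκ0, hκb, hκT, hQmax, hpQ, hχQ⟩ := exists_kappa hN hq hqN hp hp2 w good hgood
    lam G2 y hy0 hy1 hy2 hyT
  -- conclusion
  set K := hat κ with hK
  have hK0 : K ≠ 0 := by
    intro h
    apply hκ0
    apply hat_eq_zero
    rw [← hK, h]
    rfl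
  have hTr : w.Tr K.1 = 0 := by
    funext u v
    have h1 := hκb (⟨ev _ u v, ev_mem u v⟩, 0)
    rw [bL_apply, map_zero, map_zero, add_zero] at h1
    have h2 := hat_LLmap w.trR _ (w.TrM_hop hq hqN) κ u v
    rw [ALD.Tr, hK, ← h2]
    exact h1
  have hTrW : w.Tr (slash w.mat K.1) = 0 := by
    funext u v
    have h1 := hκb (0, ⟨ev _ u v, ev_mem u v⟩)
    rw [bL_apply, map_zero, zero_add] at h1
    have h2 := hat_LLmap w.trR _ (w.TrM_hop hq hqN) (κ.comp w.wL) u v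
    have h3 : (hat (κ.comp w.wL)).1 = slash w.mat K.1 := by
      funext u v
      rfl
    rw [h3] at h2
    rw [ALD.Tr, ← h2]
    exact h1
  obtain ⟨hU1, hU2⟩ := w.Uo_Uo_new K.2 hTr hTrW
  refine ⟨K, fun ℓ => if h : good ℓ then χ ⟨ℓ, h⟩ else 0, Q, hK0, ?_, hU1, hU2, hQmax, hpQ, ?_⟩
  · intro ℓ hg
    simp only [dif_pos hg]
    funext u v
    have h2 := hat_TL (hgood ℓ hg).1 (hgood ℓ hg).2.1 κ u v
    rw [hK, ← h2]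
    exact hκT ⟨ℓ, hg⟩ _
  · intro ℓ hg
    simp only [dif_pos hg]
    exact hχQ ⟨ℓ, hg⟩

end

end Fermat.Agent.LR
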