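import Fermat.Agent.LevelRaise.Ops

set_option autoImplicit false
set_option linter.unusedSectionVars false

/-!
Atkin–Lehner operator and trace.
-/

namespace Fermat.Agent.LR

open Matrix CongruenceSubgroup
open scoped MatrixGroups

noncomputable section

variable {R : Type*} [CommRing R] {N q : ℕ}

/-- parameters of an Atkin–Lehner matrix -/
structure ALD (N q : ℕ) where
  a : ℤ
  b : ℤ
  c : ℤ
  d : ℤ
  h : (q : ℤ) * a * d - N * b * c = 1
  hq : q ≠ 0

namespace ALD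

variable (w : ALD N q)

/-- the matrix -/
def mat : IM := ⟨!![(q : ℤ) * w.a, w.b; (N : ℤ) * q * w.c, q * w.d], by
  change (!![(q : ℤ) * w.a, w.b; (N : ℤ) * q * w.c, q * w.d] : M2).det ≠ 0
  rw [Matrix.det_fin_two_of]
  have h1 : (q : ℤ) * w.a * (q * w.d) - w.b * (N * q * w.c) = q := by
    linear_combination (q : ℤ) * w.h
  rw [h1]
  exact_mod_cast w.hq⟩

@[simp] theorem mat00 : w.mat.1 0 0 = q * w.a := rfl
@[simp] theorem mat01 : w.mat.1 0 1 = w.b := rfl
@[simp] theorem mat10 : w.mat.1 1 0 = N * q * w.c := rfl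
@[simp] theorem mat11 : w.mat.1 1 1 = q * w.d := rfl

theorem det_mat : w.mat.1.det = q := by
  rw [IM_det_eq, mat00, mat01, mat10, mat11]
  linear_combination (q : ℤ) * w.h

/-- the adjoint -/
def op : ALD N q := ⟨w.d, -w.b, -w.c, w.a, by linear_combination w.h, w.hq⟩

theorem adj_mat : adj w.mat = w.op.mat := by
  apply Subtype.ext
  rw [adj_apply]
  ext i j
  fin_cases i <;> fin_cases j <;> simp [op]

theorem conj (α : IM) (hα : ((N : ℤ) * q) ∣ α.1 1 0) :
    ∃ β : IM, α * w.mat = w.mat * β ∧ β.1.det = α.1.det ∧ ((N : ℤ) * q) ∣ β.1 1 0 := by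
  obtain ⟨z, hz⟩ := hα
  set x := α.1 0 0 with hx
  set y := α.1 0 1 with hy
  set t := α.1 1 1 with ht
  have hα2 := IM_det_eq α
  rw [← hx, ← hy, ← ht, hz] at hα2
  obtain ⟨a, b, c, d, h, hq⟩ := w
  set B : M2 := !![d * (x * q * a + y * N * q * c) - b * (N * z * q * a + t * N * c),
    d * (x * b + y * q * d) - b * (N * z * b + t * d);
    (N : ℤ) * q * (-c * x * a - y * N * c * c + a * a * q * z + a * t * c),
    -(N : ℤ) * c * (x * b + y * q * d) + a * (N * q * z * b + t * q * d)] with hB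
  have hdet : B.det = α.1.det := by
    rw [hB, Matrix.det_fin_two_of, hα2]
    linear_combination ((x * t - y * (N * q * z)) * ((q : ℤ) * a * d - N * b * c + 1)) * h
  refine ⟨⟨B, by change B.det ≠ 0; rw [hdet]; exact IM_det_ne α⟩, ?_, hdet, ⟨_, rfl⟩⟩
  apply IM_ext
  · rw [IM_mul_apply, IM_mul_apply]
    change α.1 0 0 * (q * a) + α.1 0 1 * (N * q * c) = q * a * (B 0 0) + b * B 1 0
    rw [hB, ← hx, ← hy]
    simp
    linear_combination (-((x : ℤ) * (q * a) + y * (N * q * c))) * h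
  · rw [IM_mul_apply, IM_mul_apply]
    change α.1 0 0 * b + α.1 0 1 * (q * d) = q * a * (B 0 1) + b * B 1 1
    rw [hB, ← hx, ← hy]
    simp
    linear_combination (-((x : ℤ) * b + y * (q * d))) * h
  · rw [IM_mul_apply, IM_mul_apply]
    change α.1 1 0 * (q * a) + α.1 1 1 * (N * q * c) = N * q * c * (B 0 0) + q * d * B 1 0
    rw [hB, hz, ← ht]
    simp
    linear_combination (-((N * q * z : ℤ) * (q * a) + t * (N * q * c))) * h
  · rw [IM_mul_apply, IM_mul_apply]
    change α.1 1 0 * b + α.1 1 1 * (q * d) = N * q * c * (B 0 1) + q * d * B 1 1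
    rw [hB, hz, ← ht]
    simp
    linear_combination (-((N * q * z : ℤ) * b + t * (q * d))) * h

theorem conj' (α : IM) (hα : ((N : ℤ) * q) ∣ α.1 1 0) :
    ∃ β : IM, w.mat * α = β * w.mat ∧ β.1.det = α.1.det ∧ ((N : ℤ) * q) ∣ β.1 1 0 := by
  obtain ⟨β, h1, h2, h3⟩ := w.op.conj α hα
  refine ⟨β, ?_, h2, h3⟩
  rw [← adj_mat] at h1
  have h4 : w.mat * (α * adj w.mat) * w.mat = w.mat * (adj w.mat * β) * w.mat := by rw [h1]
  have h5 : w.mat * (α * adj w.mat) * w.mat =
      scal w.mat.1.det (IM_det_ne w.mat) * (w.mat * α) := by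
    rw [scal_mul_comm, ← adj_mul_self]
    simp only [mul_assoc]
  have h6 : w.mat * (adj w.mat * β) * w.mat =
      scal w.mat.1.det (IM_det_ne w.mat) * (β * w.mat) := by
    rw [← mul_adj_self]
    simp only [mul_assoc]
  rw [h5, h6] at h4
  exact IM_mul_left_cancel h4

theorem exists_sl {A : IM} (h : A.1.det = 1) : ∃ γ : SL(2, ℤ), A = ofSL γ :=
  ⟨⟨A.1, h⟩, Subtype.ext rfl⟩

theorem mem_level {γ : SL(2, ℤ)} : γ ∈ Gamma0 (N * q) ↔ ((N : ℤ) * q) ∣ γ.1 1 0 := by
  rw [mem_Gamma0, Nat.cast_mul]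

theorem norm1 {γ : SL(2, ℤ)} (hγ : γ ∈ Gamma0 (N * q)) :
    ∃ γ' ∈ Gamma0 (N * q), ofSL γ * w.mat = w.mat * ofSL γ' := by
  obtain ⟨β, h1, h2, h3⟩ := w.conj (ofSL γ) (mem_level.mp hγ)
  rw [ofSL_det] at h2
  obtain ⟨γ', rfl⟩ := exists_sl h2
  exact ⟨γ', mem_level.mpr h3, h1⟩

theorem norm2 {γ : SL(2, ℤ)} (hγ : γ ∈ Gamma0 (N * q)) :
    ∃ γ' ∈ Gamma0 (N * q), w.mat * ofSL γ = ofSL γ' * w.mat := by
  obtain ⟨β, h1, h2, h3⟩ := w.conj' (ofSL γ) (mem_level.mp hγ)
  rw [ofSL_det] at h2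
  obtain ⟨γ', rfl⟩ := exists_sl h2
  exact ⟨γ', mem_level.mpr h3, h1⟩

theorem mul_self : ∃ γ ∈ Gamma0 (N * q), w.mat * w.mat = scal q (by exact_mod_cast w.hq) * ofSL γ := by
  refine ⟨mkSL (q * w.a ^ 2 + N * w.b * w.c) (w.b * (w.a + w.d)) (N * q * (w.c * (w.a + w.d)))
    (N * w.b * w.c + q * w.d ^ 2) ?_, ?_, ?_⟩
  · have h := w.h
    linear_combination ((q : ℤ) * w.a * w.d - N * w.b * w.c + 1) * h
  · rw [mem_level, mkSL_10]
    exact ⟨_, rfl⟩
  · apply Subtype.ext
    change (!![(q : ℤ) * w.a, w.b; (N : ℤ) * q * w.c, q * w.d] : M2) *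
      !![(q : ℤ) * w.a, w.b; (N : ℤ) * q * w.c, q * w.d] = ((q : ℤ) • (1 : M2)) *
      !![q * w.a ^ 2 + N * w.b * w.c, w.b * (w.a + w.d); N * q * (w.c * (w.a + w.d)),
        N * w.b * w.c + q * w.d ^ 2]
    rw [smul_mul_assoc, one_mul, Matrix.mul_fin_two, Matrix.smul_of]
    ext i j
    fin_cases i <;> fin_cases j <;> simp <;> ring

theorem slash_mem {φ : Vec → Vec → R} (hφ : φ ∈ MS R (Gamma0 (N * q))) :
    slash w.mat φ ∈ MS R (Gamma0 (N * q)) := by
  refine ⟨slash_mem_Coc _ hφ.1, fun γ hγ u v => ?_⟩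
  obtain ⟨γ', hγ', h⟩ := w.norm2 hγ
  rw [slash_apply, slash_apply, sl_smul_def, sl_smul_def, ← mul_smul, ← mul_smul, h, mul_smul,
    mul_smul]
  exact hφ.2 γ' hγ' _ _

theorem slash_scal {φ : Vec → Vec → R} (hφ : φ ∈ Coc R) (c : ℤ) (hc : c ≠ 0) (A : IM) :
    slash (scal c hc * A) φ = slash A φ := by
  rw [slash_mul, slash_scalar hφ]
  intro u
  simp only [dt, det2, scal_smul_val]; ring

theorem slash_slash {φ : Vec → Vec → R} (hφ : φ ∈ MS R (Gamma0 (N * q))) :
    slash w.mat (slash w.mat φ) = φ := by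
  obtain ⟨γ, hγ, h⟩ := w.mul_self
  rw [← slash_mul, h, slash_scal hφ.1, slash_ofSL hφ hγ]

/-- the element `(a, b; N c, q d)` -/
def gm : SL(2, ℤ) := mkSL w.a w.b (N * w.c) (q * w.d) (by linear_combination w.h)

theorem gm_mem : w.gm ∈ Gamma0 N := by
  rw [mem_Gamma0, gm, mkSL_10]
  exact ⟨_, rfl⟩

theorem mat_eq (h : (q : ℤ) * 1 ≠ 0) : w.mat = ofSL w.gm * ut q 0 1 h := by
  apply Subtype.ext
  change (!![(q : ℤ) * w.a, w.b; (N : ℤ) * q * w.c, q * w.d] : M2) =
    !![w.a, w.b; (N : ℤ) * w.c, q * w.d] * !![(q : ℤ), 0; 0, 1]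
  rw [Matrix.mul_fin_two]
  ext i j
  fin_cases i <;> fin_cases j <;> simp <;> ring

theorem slash_old {φ : Vec → Vec → R} (hφ : φ ∈ MS R (Gamma0 N)) :
    slash w.mat φ = Vo q φ := by
  have h : (q : ℤ) * 1 ≠ 0 := by rw [mul_one]; exact_mod_cast w.hq
  rw [w.mat_eq h, slash_mul, slash_ofSL hφ w.gm_mem, Vo, ts_eq h]

/-! trace -/

/-- coset representatives of `Γ₀(Nq) \ Γ₀(N)` -/
def gj (j : ℤ) : SL(2, ℤ) := mkSL w.a (w.a * j + w.b) (N * w.c) (N * w.c * j + q * w.d)
  (by linear_combination w.h)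

theorem gj_mem (j : ℤ) : w.gj j ∈ Gamma0 N := by
  rw [mem_Gamma0, gj, mkSL_10]
  exact ⟨_, rfl⟩

theorem mat_mul_ut (j : ℤ) (h : (1 : ℤ) * q ≠ 0) :
    w.mat * ut 1 j q h = scal q (by exact_mod_cast w.hq) * ofSL (w.gj j) := by
  apply Subtype.ext
  change (!![(q : ℤ) * w.a, w.b; (N : ℤ) * q * w.c, q * w.d] : M2) * !![1, j; 0, (q : ℤ)] =
    ((q : ℤ) • (1 : M2)) * !![w.a, w.a * j + w.b; N * w.c, N * w.c * j + q * w.d]
  rw [smul_mul_assoc, one_mul, Matrix.mul_fin_two, Matrix.smul_of]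
  ext i j
  fin_cases i <;> fin_cases j <;> simp <;> ring

/-- the trace representatives -/
def trR (x : Option (Fin q)) : IM := x.elim 1 (fun j => ofSL (w.gj (j.val : ℤ)))

theorem isReps_trR (hqp : q.Prime) (hqN : ¬ q ∣ N) :
    IsReps (Gamma0 (N * q)) (GG (Gamma0 N)) w.trR where
  mem γ hγ x := by
    have hγ' : γ ∈ Gamma0 N := by
      rw [mem_Gamma0]
      exact (Dvd.intro _ rfl : (N : ℤ) ∣ N * q).trans (mem_level.mp hγ)
    cases x with
    | none => exact ⟨γ, hγ', (mul_one _).symm⟩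
    | some j => exact ⟨γ * w.gj j.val, (Gamma0 N).mul_mem hγ' (w.gj_mem _), map_mul _ _ _⟩
  ex := by
    rintro _ ⟨δ, hδ, rfl⟩
    have hqp' : Prime (q : ℤ) := Nat.prime_iff_prime_int.mp hqp
    obtain ⟨z, hz⟩ := mem_Gamma0.mp hδ
    by_cases h1 : (q : ℤ) ∣ z
    · refine ⟨none, δ, ?_, (mul_one _).symm⟩
      rw [mem_level, hz]
      exact mul_dvd_mul_left _ h1
    · have hcop : IsCoprime (q : ℤ) (N * z) := by
        rw [Prime.coprime_iff_not_dvd hqp']
        intro h2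
        rcases hqp'.dvd_mul.mp h2 with h3 | h3
        · exact hqN (by exact_mod_cast h3)
        · exact h1 h3
      obtain ⟨s, t, hst⟩ := hcop
      -- t * (N z) ≡ 1; j ≡ t * w
      set ww := δ.1 1 1 with hww
      have hq0 : (q : ℤ) ≠ 0 := by exact_mod_cast w.hq
      have hqpos : (0 : ℤ) < q := by exact_mod_cast hqp.pos
      set j := (t * ww) % q with hj
      have hj1 : 0 ≤ j := Int.emod_nonneg _ hq0
      have hj2 : j < q := Int.emod_lt_of_pos _ hqpos
      have hj3 := Int.mul_ediv_add_emod (t * ww) q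
      rw [← hj] at hj3
      have hjn : (j.toNat : ℤ) = j := Int.toNat_of_nonneg hj1
      refine ⟨some ⟨j.toNat, by omega⟩, δ * (w.gj j)⁻¹, ?_, ?_⟩
      · rw [mem_level]
        have h2 : (δ * (w.gj j)⁻¹).1 1 0 = δ.1 1 0 * (N * w.c * j + q * w.d) + δ.1 1 1 * (-(N * w.c)) := by
          have h3 : ((w.gj j)⁻¹).1 = !![N * w.c * j + q * w.d, -(w.a * j + w.b); -(N * w.c), w.a] := by
            rw [Matrix.SpecialLinearGroup.coe_inv, Matrix.adjugate_fin_two]
            rfl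
          have h4 : (δ * (w.gj j)⁻¹).1 = δ.1 * ((w.gj j)⁻¹).1 := rfl
          rw [h4, h3, Matrix.mul_apply, Fin.sum_univ_two]
          simp
        rw [h2, hz, ← hww]
        -- N (z (N c j + q d) - w c)
        have h5 : (N : ℤ) * z * (N * w.c * j + q * w.d) + ww * -(N * w.c) =
            (N : ℤ) * (w.c * (N * z * j - ww) + q * (z * w.d)) := by ring
        rw [h5]
        refine mul_dvd_mul_left _ (dvd_add (Dvd.dvd.mul_left ?_ _) (Dvd.intro _ rfl))
        -- N z j - ww ≡ N z t ww - ww = ww (N z t - 1) = - ww s q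
        refine ⟨-(ww * s) - N * z * (t * ww / q), ?_⟩
        linear_combination (N * z) * hj3 + ww * hst
      · change ofSL δ = ofSL (δ * (w.gj j)⁻¹) * ofSL (w.gj ((j.toNat : ℕ) : ℤ))
        rw [hjn, ← map_mul, inv_mul_cancel_right]
  uniq := by
    have hqp' : Prime (q : ℤ) := Nat.prime_iff_prime_int.mp hqp
    have hNc : ¬ (q : ℤ) ∣ N * w.c := by
      intro h
      have h2 : (q : ℤ) ∣ 1 := by
        rw [← w.h]
        refine dvd_sub ?_ ?_
        · exact ⟨w.a * w.d, by ring⟩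
        · obtain ⟨k, hk⟩ := h
          exact ⟨k * w.b, by linear_combination w.b * hk⟩
      exact hqp'.not_isUnit (isUnit_of_dvd_one h2)
    intro x y γ hγ hxy
    have h10 := congrArg (fun A : IM => A.1 1 0) hxy
    have h11 := congrArg (fun A : IM => A.1 1 1) hxy
    simp only [IM_mul_apply, ofSL_val] at h10 h11
    obtain ⟨k, hk⟩ := mem_level.mp hγ
    have hdet := sl_det_eq γ
    cases x with
    | none =>
      cases y with
      | none => rfl
      | some j =>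
        exfalso
        change (0 : ℤ) = γ.1 1 0 * w.a + γ.1 1 1 * (N * w.c) at h10
        rw [hk] at h10 hdet
        have h2 : (q : ℤ) ∣ γ.1 1 1 * (N * w.c) := ⟨-(N * k * w.a), by linear_combination -h10⟩
        rcases hqp'.dvd_mul.mp h2 with h3 | h3
        · obtain ⟨m, hm⟩ := h3
          have h4 : (q : ℤ) ∣ 1 := by
            rw [← hdet, hm]
            exact ⟨γ.1 0 0 * m - γ.1 0 1 * (N * k), by ring⟩
          exact hqp'.not_isUnit (isUnit_of_dvd_one h4)
        · exact hNc h3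
    | some i =>
      cases y with
      | none =>
        exfalso
        change (N : ℤ) * w.c = γ.1 1 0 * 1 + γ.1 1 1 * 0 at h10
        apply hNc
        rw [h10, hk]
        exact ⟨N * k, by ring⟩
      | some j =>
        change (N : ℤ) * w.c = γ.1 1 0 * w.a + γ.1 1 1 * (N * w.c) at h10
        change (N : ℤ) * w.c * (i.val : ℤ) + q * w.d =
          γ.1 1 0 * (w.a * (j.val : ℤ) + w.b) + γ.1 1 1 * (N * w.c * (j.val : ℤ) + q * w.d) at h11
        rw [hk] at h10 h11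
        have h2 : (q : ℤ) ∣ (N * w.c) * ((i.val : ℤ) - j.val) := by
          -- modulo q
          have h3 : (q : ℤ) ∣ (N * w.c) - γ.1 1 1 * (N * w.c) := ⟨N * k * w.a, by linear_combination h10⟩
          obtain ⟨m, hm⟩ := h3
          refine ⟨N * k * (w.a * j.val + w.b) + γ.1 1 1 * w.d - w.d - m * j.val, ?_⟩
          linear_combination h11 - (j.val : ℤ) * hm
        have h3 := (hqp'.dvd_mul.mp h2).resolve_left hNc
        obtain ⟨m, hm⟩ := h3
        have hi := i.2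
        have hj := j.2
        have hm0 : m = 0 := by
          by_contra hne
          rcases lt_or_gt_of_ne hne with h4 | h4
          · have : (q : ℤ) * m ≤ -q := by nlinarith
            omega
          · have : (q : ℤ) ≤ q * m := by nlinarith
            omega
        rw [hm0, mul_zero] at hm
        congr 1
        apply Fin.ext
        omega

end ALD

end

end Fermat.Agent.LR
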