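import Fermat.Agent.LevelRaise.FinMod
import Fermat.Agent.DS.Eigen

set_option autoImplicit false
set_option linter.unusedSectionVars false

/-!
From an eigenfunctional modulo `p` on a cokernel to a characteristic zero eigenfunctional.
-/

namespace Fermat.Agent.LR

noncomputable section

variable {ι D L V : Type*} [AddCommGroup D] [AddCommGroup L] [AddCommGroup V]
  [Module.Finite ℤ D] [Module.Finite ℤ L] [Module.IsTorsionFree ℤ D] [Module.IsTorsionFree ℤ L]

theorem tf_cancel {M : Type*} [AddCommGroup M] [Module.IsTorsionFree ℤ M] {n : ℤ} (hn : n ≠ 0)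
    {x y : M} (h : n • x = n • y) : x = y := smul_right_injective M hn h

/-- Step 1: `y` vanishes on the saturation. -/
theorem vanish_saturation (TD : ι → Module.End ℤ D) (TL : ι → Module.End ℤ L)
    (hD : ∀ i j, Commute (TD i) (TD j)) (hL : ∀ i j, Commute (TL i) (TL j))
    (b : D →+ L) (hb : ∀ i d, b (TD i d) = TL i (b d)) {p : ℕ} (hp : p.Prime) (lam : ι → ℤ)
    (P' : L →+ V) (hV : ∀ v : V, (p : ℤ) • v = 0)
    (IH : ∀ d, (∀ i, ∃ e, TD i d - lam i • d = (p : ℤ) • e) → P' (b d) = 0 →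
      ∃ e, d = (p : ℤ) • e)
    (y : L →+ ZMod p) (hyb : ∀ d, y (b d) = 0) (hyT : ∀ i z, y (TL i z) = (lam i : ZMod p) * y z)
    {m : ℤ} (hm : m ≠ 0) {z : L} {d : D} (hz : m • z = b d) : y z = 0 := by
  classical
  have hp0 : (p : ℤ) ≠ 0 := by exact_mod_cast hp.ne_zero
  have : Fact p.Prime := ⟨hp⟩
  let A := MvPolynomial ι ℤ
  let actD : A →+* Module.End ℤ D := polyAct TD hD
  let actL : A →+* Module.End ℤ L := polyAct TL hL
  let 𝔪 : Ideal A := RingHom.ker (MvPolynomial.aeval (fun i => (lam i : ZMod p)) : A →ₐ[ℤ] ZMod p)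
  let : Module A D := Module.compHom D actD
  have hsmul : ∀ (a : A) (x : D), a • x = actD a x := fun a x => rfl
  -- the statement for `p`-powers
  have key : ∀ (n : ℕ) (z : L) (d : D), ((p : ℤ) ^ n) • z = b d → y z = 0 := by
    intro n
    rcases Nat.eq_zero_or_pos n with rfl | hn
    · intro z d hz
      rw [pow_zero, one_smul] at hz
      rw [hz]; exact hyb d
    have hpn0 : (p : ℤ) ^ n ≠ 0 := pow_ne_zero _ hp0
    let K : Submodule A D :=
      { carrier := {d | ∃ z, ((p : ℤ) ^ n) • z = b d}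
        zero_mem' := ⟨0, by rw [smul_zero, map_zero]⟩
        add_mem' := by
          rintro d d' ⟨z, hz⟩ ⟨z', hz'⟩
          exact ⟨z + z', by rw [smul_add, hz, hz', map_add]⟩
        smul_mem' := by
          rintro a d ⟨z, hz⟩
          refine ⟨actL a z, ?_⟩
          rw [hsmul]
          have h1 : b (actD a d) = actL a (b d) := polyAct_comm TD hD TL hL b hb a d
          rw [h1, ← hz, map_zsmul] }
    let P : Submodule A D :=
      { carrier := {d | ∃ e, d = ((p : ℤ) ^ n) • e}
        zero_mem' := ⟨0, by rw [smul_zero]⟩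
        add_mem' := by
          rintro _ _ ⟨e, rfl⟩ ⟨e', rfl⟩
          exact ⟨e + e', by rw [smul_add]⟩
        smul_mem' := by
          rintro a _ ⟨e, rfl⟩
          exact ⟨actD a e, by rw [hsmul, map_zsmul]⟩ }
    have hfin : Finite (D ⧸ P) := by
      have h1 : Module.Finite ℤ (D ⧸ P) := by
        refine Module.Finite.of_surjective ((P.mkQ : D →ₗ[A] D ⧸ P).toAddMonoidHom.toIntLinearMap) ?_
        exact P.mkQ_surjective
      apply Module.finite_of_fg_torsion
      intro x
      obtain ⟨d, rfl⟩ := P.mkQ_surjective x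
      refine ⟨⟨(p : ℤ) ^ n, mem_nonZeroDivisors_of_ne_zero hpn0⟩, ?_⟩
      change ((p : ℤ) ^ n) • P.mkQ d = 0
      rw [← map_zsmul, Submodule.mkQ_apply, Submodule.Quotient.mk_eq_zero]
      exact ⟨d, rfl⟩
    have h1 := le_smul_of_no_eigen 𝔪 (K.map P.mkQ) (by
      rintro _ ⟨d, ⟨z, hz⟩, rfl⟩ hx
      have hann : ∀ a ∈ 𝔪, ∃ e, actD a d = ((p : ℤ) ^ n) • e := by
        intro a ha
        have h2 := hx a ha
        rw [← map_smul, Submodule.mkQ_apply, Submodule.Quotient.mk_eq_zero] at h2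
        exact h2
      -- `p ∈ 𝔪`
      have hpm : (MvPolynomial.C (p : ℤ) : A) ∈ 𝔪 := by
        rw [RingHom.mem_ker]
        change MvPolynomial.aeval (fun i => (lam i : ZMod p)) (MvPolynomial.C (p : ℤ) : A) = 0
        rw [MvPolynomial.aeval_C]
        simp
      obtain ⟨d', hd'⟩ := hann _ hpm
      have hd1 : d = ((p : ℤ) ^ (n - 1)) • d' := by
        apply tf_cancel hp0
        have h3 : actD (MvPolynomial.C (p : ℤ)) d = (p : ℤ) • d := polyAct_C TD hD _ _
        rw [← h3, hd', smul_smul, ← pow_succ']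
        congr 2
        omega
      have hpn1 : (p : ℤ) ^ (n - 1) ≠ 0 := pow_ne_zero _ hp0
      have hpn2 : (p : ℤ) ^ n = (p : ℤ) ^ (n - 1) * p := by
        rw [← pow_succ]; congr 1; omega
      obtain ⟨e, he⟩ := IH d' (by
        intro i
        have hTm : (MvPolynomial.X i - MvPolynomial.C (lam i) : A) ∈ 𝔪 := by
          rw [RingHom.mem_ker]
          change MvPolynomial.aeval (fun i => (lam i : ZMod p))
            (MvPolynomial.X i - MvPolynomial.C (lam i) : A) = 0
          rw [map_sub, MvPolynomial.aeval_X, MvPolynomial.aeval_C]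
          simp
        obtain ⟨e, he⟩ := hann _ hTm
        refine ⟨e, ?_⟩
        apply tf_cancel hpn1
        have h3 : actD (MvPolynomial.X i - MvPolynomial.C (lam i) : A) d = TD i d - lam i • d := by
          rw [map_sub, LinearMap.sub_apply]
          congr 1
          · exact congrArg (fun f : Module.End ℤ D => f d) (polyAct_X TD hD i)
          · exact polyAct_C TD hD _ _
        rw [h3, hpn2] at he
        rw [smul_smul, ← he, hd1, map_zsmul, smul_sub, smul_comm (lam i)]) (by
        have h3 : b d' = (p : ℤ) • z := by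
          apply tf_cancel hpn1
          rw [← map_zsmul, ← hd1, ← hz, smul_smul, hpn2]
        rw [h3, map_zsmul, hV])
      rw [Submodule.mkQ_apply, Submodule.Quotient.mk_eq_zero]
      exact ⟨e, by rw [hd1, he, smul_smul, hpn2]⟩)
    have h2 : ∀ d ∈ 𝔪 • K, ∃ z, ((p : ℤ) ^ n) • z = b d ∧ y z = 0 := by
      intro d hd
      refine Submodule.smul_induction_on (p := fun d => ∃ z, ((p : ℤ) ^ n) • z = b d ∧ y z = 0)
        hd ?_ ?_
      · intro a ha d hd
        obtain ⟨z, hz⟩ := hd
        refine ⟨actL a z, ?_, ?_⟩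
        · rw [hsmul]
          have h1 : b (actD a d) = actL a (b d) := polyAct_comm TD hD TL hL b hb a d
          rw [h1, ← hz, map_zsmul]
        · have h3 : y (actL a z) = MvPolynomial.aeval (fun i => (lam i : ZMod p)) a * y z :=
            polyAct_eigen TL hL y _ hyT a z
          rw [h3]
          have h4 : MvPolynomial.aeval (fun i => (lam i : ZMod p)) a = 0 := ha
          rw [h4, zero_mul]
      · intro d d' hd hd'
        obtain ⟨z, hz, hy1⟩ := hd
        obtain ⟨z', hz', hy2⟩ := hd'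
        exact ⟨z + z', by rw [smul_add, hz, hz', map_add], by rw [map_add, hy1, hy2, add_zero]⟩
    intro z d hz
    have hdK : d ∈ K := ⟨z, hz⟩
    have h3 : P.mkQ d ∈ (𝔪 • K).map P.mkQ := by
      rw [Submodule.map_smul'']
      exact h1 ⟨d, hdK, rfl⟩
    obtain ⟨d1, hd1, hd2⟩ := h3
    obtain ⟨z1, hz1, hy1⟩ := h2 d1 hd1
    have h4 : d - d1 ∈ P := by
      rw [← Submodule.Quotient.eq]
      exact hd2.symm
    obtain ⟨e, he⟩ := h4
    have h5 : z = z1 + b e := by
      apply tf_cancel hpn0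
      rw [hz, smul_add, hz1, ← map_zsmul, ← he, ← map_add, add_sub_cancel]
    rw [h5, map_add, hy1, hyb, add_zero]
  -- general `m`
  obtain ⟨n, m', hm', hmm⟩ := Nat.exists_eq_pow_mul_and_not_dvd (Int.natAbs_ne_zero.mpr hm) p
    hp.ne_one
  have h1 : y ((m' : ℤ) • z) = 0 := by
    rcases Int.natAbs_eq m with h | h
    · apply key n _ d
      rw [smul_smul, ← hz, h, hmm]
      push_cast
      rfl
    · apply key n _ (-d)
      rw [smul_smul, map_neg, ← hz, h, hmm, ← neg_smul]
      push_cast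
      rw [neg_neg]
  rw [map_zsmul, zsmul_eq_mul, mul_eq_zero] at h1
  refine h1.resolve_left ?_
  rw [Int.cast_natCast, ZMod.natCast_eq_zero_iff]
  exact hm'

/-- complex functionals detect non-torsion elements of a f.g. abelian group. -/
theorem exists_torsion_of_forall {Q : Type*} [AddCommGroup Q] [Module.Finite ℤ Q] {z : Q}
    (h : ∀ κ : Q →ₗ[ℤ] ℂ, κ z = 0) : ∃ m : ℤ, m ≠ 0 ∧ m • z = 0 := by
  let F := Q ⧸ Submodule.torsion ℤ Q
  have hfree : Module.Free ℤ F := inferInstance
  let bas := Module.Free.chooseBasis ℤ F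
  have h1 : (Submodule.torsion ℤ Q).mkQ z = 0 := by
    apply bas.repr.injective
    rw [map_zero]
    ext i
    let c : ℤ →ₗ[ℤ] ℂ := (Int.castAddHom ℂ).toIntLinearMap
    have h2 := h (c ∘ₗ (bas.coord i) ∘ₗ (Submodule.torsion ℤ Q).mkQ)
    have h3 : ((bas.repr ((Submodule.torsion ℤ Q).mkQ z) i : ℤ) : ℂ) = 0 := h2
    rw [Finsupp.zero_apply]
    exact_mod_cast h3
  rw [Submodule.mkQ_apply, Submodule.Quotient.mk_eq_zero] at h1
  obtain ⟨a, ha⟩ := h1
  exact ⟨a, nonZeroDivisors.coe_ne_zero a, ha⟩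

theorem isIntegral_integralClosure (x : integralClosure ℤ ℂ) : IsIntegral ℤ x :=
  (isIntegral_algHom_iff (integralClosure ℤ ℂ).val Subtype.val_injective).mp x.2

/-- **Characteristic zero eigenfunctionals.** -/
theorem exists_char_zero (TD : ι → Module.End ℤ D) (TL : ι → Module.End ℤ L)
    (hD : ∀ i j, Commute (TD i) (TD j)) (hL : ∀ i j, Commute (TL i) (TL j))
    (b : D →+ L) (hb : ∀ i d, b (TD i d) = TL i (b d)) {p : ℕ} (hp : p.Prime) (lam : ι → ℤ)
    (P' : L →+ V) (hV : ∀ v : V, (p : ℤ) • v = 0)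
    (IH : ∀ d, (∀ i, ∃ e, TD i d - lam i • d = (p : ℤ) • e) → P' (b d) = 0 →
      ∃ e, d = (p : ℤ) • e)
    (y : L →+ ZMod p) (hy : y ≠ 0) (hyb : ∀ d, y (b d) = 0)
    (hyT : ∀ i z, y (TL i z) = (lam i : ZMod p) * y z) :
    ∃ (κ : L →+ ℂ) (χ : ι → integralClosure ℤ ℂ) (Q : Ideal (integralClosure ℤ ℂ)),
      κ ≠ 0 ∧ (∀ d, κ (b d) = 0) ∧ (∀ i z, κ (TL i z) = (χ i : ℂ) * κ z) ∧ Q.IsMaximal ∧
      (p : integralClosure ℤ ℂ) ∈ Q ∧ ∀ i, χ i - (lam i : integralClosure ℤ ℂ) ∈ Q := by
  classical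
  have hp0 : (p : ℤ) ≠ 0 := by exact_mod_cast hp.ne_zero
  have : Fact p.Prime := ⟨hp⟩
  let A := MvPolynomial ι ℤ
  let actL : A →+* Module.End ℤ L := polyAct TL hL
  let actD : A →+* Module.End ℤ D := polyAct TD hD
  let ev : A →ₐ[ℤ] ZMod p := MvPolynomial.aeval (fun i => (lam i : ZMod p))
  let 𝔪 : Ideal A := RingHom.ker ev
  have h𝔪 : 𝔪.IsPrime := RingHom.ker_isPrime _
  -- the space of functionals
  let bas := Module.Free.chooseBasis ℤ L
  have hfd : Module.Finite ℂ (L →ₗ[ℤ] ℂ) := Module.Finite.equiv (bas.constr ℂ)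
  let W : Submodule ℂ (L →ₗ[ℤ] ℂ) :=
    { carrier := {κ | ∀ d, κ (b d) = 0}
      zero_mem' := fun d => rfl
      add_mem' := by
        intro κ κ' h h' d
        rw [LinearMap.add_apply, h, h', add_zero]
      smul_mem' := by
        intro c κ h d
        rw [LinearMap.smul_apply, h, smul_zero] }
  have hstab : ∀ (a : A) (κ : L →ₗ[ℤ] ℂ), κ ∈ W → κ ∘ₗ actL a ∈ W := by
    intro a κ hκ d
    have h1 : b (actD a d) = actL a (b d) := polyAct_comm TD hD TL hL b hb a d
    rw [LinearMap.comp_apply, ← h1]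
    exact hκ _
  let ρ : A →+* Module.End ℂ W :=
    { toFun := fun a =>
        { toFun := fun κ => ⟨κ.1 ∘ₗ actL a, hstab a κ.1 κ.2⟩
          map_add' := fun κ κ' => rfl
          map_smul' := fun c κ => rfl }
      map_one' := by
        refine LinearMap.ext fun κ => Subtype.ext (LinearMap.ext fun x => ?_)
        change κ.1 (actL 1 x) = κ.1 x
        rw [map_one]; rfl
      map_mul' := fun a c => by
        refine LinearMap.ext fun κ => Subtype.ext (LinearMap.ext fun x => ?_)
        change κ.1 (actL (a * c) x) = κ.1 (actL c (actL a x))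
        rw [mul_comm, map_mul]; rfl
      map_zero' := by
        refine LinearMap.ext fun κ => Subtype.ext (LinearMap.ext fun x => ?_)
        change κ.1 (actL 0 x) = 0
        rw [map_zero, LinearMap.zero_apply, map_zero]
      map_add' := fun a c => by
        refine LinearMap.ext fun κ => Subtype.ext (LinearMap.ext fun x => ?_)
        change κ.1 (actL (a + c) x) = κ.1 (actL a x) + κ.1 (actL c x)
        rw [map_add, LinearMap.add_apply, map_add] }
  have hρ : ∀ (a : A) (κ : W) (x : L), (ρ a κ).1 x = κ.1 (actL a x) := fun _ _ _ => rfl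
  -- the range of b as a submodule
  let B : Submodule ℤ L := LinearMap.range b.toIntLinearMap
  have hker : ∀ a, ρ a = 0 → a ∈ 𝔪 := by
    intro a ha
    have h1 : ∀ z, y (actL a z) = 0 := by
      intro z
      obtain ⟨m, hm, h2⟩ := exists_torsion_of_forall (Q := L ⧸ B) (z := B.mkQ (actL a z)) (by
        intro κ
        have h3 : (κ ∘ₗ B.mkQ) ∈ W := by
          intro d
          have e : (Submodule.Quotient.mk (b d) : L ⧸ B) = 0 :=
            (Submodule.Quotient.mk_eq_zero B).mpr ⟨d, rfl⟩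
          rw [LinearMap.comp_apply, Submodule.mkQ_apply, e, map_zero]
        have h4 := hρ a ⟨_, h3⟩ z
        rw [ha] at h4
        exact h4.symm)
      rw [← map_zsmul, Submodule.mkQ_apply, Submodule.Quotient.mk_eq_zero] at h2
      obtain ⟨d, hd⟩ := h2
      exact vanish_saturation TD TL hD hL b hb hp lam P' hV IH y hyb hyT hm hd.symm
    obtain ⟨z, hz⟩ : ∃ z, y z ≠ 0 := by
      by_contra hcon
      push Not at hcon
      exact hy (AddMonoidHom.ext hcon)
    have h2 : y (actL a z) = ev a * y z := polyAct_eigen TL hL y _ hyT a z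
    rw [h1, eq_comm, mul_eq_zero] at h2
    exact h2.resolve_right hz
  obtain ⟨v, χ, hv0, hv, hχ⟩ := Fermat.Agent.DS.exists_common_eigenvector ρ 𝔪 h𝔪 hker
  have hvx : ∀ (a : A) (x : L), v.1 (actL a x) = χ a * v.1 x := by
    intro a x
    rw [← hρ, hv]
    rfl
  obtain ⟨x₀, hx₀⟩ : ∃ x, v.1 x ≠ 0 := by
    by_contra hcon
    push Not at hcon
    exact hv0 (Subtype.ext (LinearMap.ext hcon))
  -- integrality
  have hχint : ∀ a : A, IsIntegral ℤ (χ a) := by
    intro a
    obtain ⟨P, hPm, hP⟩ := (Module.End.isIntegral (R := ℤ) (M := L)).isIntegral (actL a)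
    refine ⟨P, hPm, ?_⟩
    have h1 : actL (Polynomial.aeval a P) = 0 := by
      have h2 : actL (Polynomial.aeval a P) = Polynomial.aeval (actL a) P :=
        (Polynomial.aeval_algHom_apply actL.toIntAlgHom a P).symm
      rw [h2]
      exact hP
    have h2 := hvx (Polynomial.aeval a P) x₀
    rw [h1, LinearMap.zero_apply, map_zero, eq_comm, mul_eq_zero] at h2
    have h3 := h2.resolve_right hx₀
    have h4 : χ (Polynomial.aeval a P) = Polynomial.aeval (χ a) P :=
      (Polynomial.aeval_algHom_apply χ.toIntAlgHom a P).symm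
    rw [h4] at h3
    exact h3
  obtain ⟨χ', hχ'⟩ : ∃ χ' : A →+* integralClosure ℤ ℂ, ∀ t, (χ' t : ℂ) = χ t := ⟨
    { toFun := fun t => ⟨χ t, hχint t⟩
      map_one' := Subtype.ext (map_one χ)
      map_mul' := fun s t => Subtype.ext (map_mul χ s t)
      map_zero' := Subtype.ext (map_zero χ)
      map_add' := fun s t => Subtype.ext (map_add χ s t) }, fun t => rfl⟩
  let : Algebra A (integralClosure ℤ ℂ) := χ'.toAlgebra
  have halg : algebraMap A (integralClosure ℤ ℂ) = χ' := rfl
  have : Algebra.IsIntegral A (integralClosure ℤ ℂ) :=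
    ⟨fun x => (isIntegral_integralClosure x).tower_top⟩
  obtain ⟨Q, -, hQp, hQ⟩ := Ideal.exists_ideal_over_prime_of_isIntegral (S := integralClosure ℤ ℂ)
    𝔪 ⊥ (by
      intro t ht
      rw [Ideal.mem_comap, Ideal.mem_bot, halg] at ht
      apply hχ
      rw [← hχ', ht]
      rfl)
  have hQ' : ∀ t : A, t ∈ 𝔪 ↔ χ' t ∈ Q := by
    intro t
    rw [← hQ, Ideal.mem_comap, halg]
  have hpQ : (p : integralClosure ℤ ℂ) ∈ Q := by
    have h1 : ((p : ℕ) : A) ∈ 𝔪 := by
      change ev ((p : ℕ) : A) = 0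
      rw [map_natCast]
      exact ZMod.natCast_self p
    have h2 := (hQ' _).mp h1
    rwa [map_natCast] at h2
  refine ⟨v.1.toAddMonoidHom, fun i => χ' (MvPolynomial.X i), Q, ?_, v.2, ?_, ?_, hpQ, ?_⟩
  · intro h0
    exact hx₀ (DFunLike.congr_fun h0 x₀)
  · intro i z
    have h1 := hvx (MvPolynomial.X i) z
    have h2 : actL (MvPolynomial.X i) = TL i := polyAct_X TL hL i
    rw [h2] at h1
    rw [hχ']
    exact h1
  · have hmax : (Q.comap (algebraMap ℤ (integralClosure ℤ ℂ))).IsMaximal := by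
      have hp' : (Q.comap (algebraMap ℤ (integralClosure ℤ ℂ))).IsPrime := Ideal.comap_isPrime _ _
      apply hp'.isMaximal
      intro hbot
      have h3 : (p : ℤ) ∈ Q.comap (algebraMap ℤ (integralClosure ℤ ℂ)) := by
        rw [Ideal.mem_comap]
        simpa using hpQ
      rw [hbot, Ideal.mem_bot] at h3
      exact hp0 h3
    have : Algebra.IsIntegral ℤ (integralClosure ℤ ℂ) := ⟨isIntegral_integralClosure⟩
    exact Ideal.isMaximal_of_isIntegral_of_isMaximal_comap Q hmax
  · intro i
    have h1 : (MvPolynomial.X i - MvPolynomial.C (lam i) : A) ∈ 𝔪 := by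
      change ev (MvPolynomial.X i - MvPolynomial.C (lam i) : A) = 0
      rw [map_sub, MvPolynomial.aeval_X, MvPolynomial.aeval_C]
      simp
    have h2 := (hQ' _).mp h1
    rw [map_sub] at h2
    have h3 : χ' (MvPolynomial.C (lam i)) = (lam i : integralClosure ℤ ℂ) := by
      have h4 : (MvPolynomial.C (lam i) : A) = ((lam i : ℤ) : A) := by simp
      rw [h4, map_intCast]
    rwa [h3] at h2

end

end Fermat.Agent.LR
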