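import Mathlib

set_option autoImplicit false
set_option linter.unusedSectionVars false

/-!
Reduction of a complex eigenfunctional modulo a maximal ideal.
-/

namespace Fermat.Agent.LR

noncomputable section

local notation "ZZ" => integralClosure ℤ ℂ

theorem exists_functional_aux (K : Type*) [Field K] {Q : Type*} [AddCommGroup Q] [Module K Q]
    {q₀ : Q} (h : q₀ ≠ 0) : ∃ f : Q →ₗ[K] K, f q₀ ≠ 0 := by
  by_contra hcon
  push Not at hcon
  exact h ((Module.forall_dual_apply_eq_zero_iff K q₀).mp hcon)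

theorem exists_functional {Q : Type*} [AddCommGroup Q] {p : ℕ} [Fact p.Prime]
    (hQ : ∀ x : Q, p • x = 0) {q₀ : Q} (h : q₀ ≠ 0) : ∃ f : Q →+ ZMod p, f q₀ ≠ 0 := by
  let : Module (ZMod p) Q := AddCommGroup.zmodModule hQ
  obtain ⟨f, hf⟩ := exists_functional_aux (ZMod p) h
  exact ⟨f.toAddMonoidHom, hf⟩

theorem exists_mod_p {ι L : Type*} [AddCommGroup L] [Module.Finite ℤ L] (T : ι → Module.End ℤ L)
    (φ : L →+ ℂ) (hφ : φ ≠ 0) (a : ι → integralClosure ℤ ℂ)
    (hT : ∀ i x, φ (T i x) = (a i : ℂ) * φ x) (𝔪 : Ideal (integralClosure ℤ ℂ)) (hmax : 𝔪 ≠ ⊤)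
    {p : ℕ} (hp : p.Prime) (hpm : (p : integralClosure ℤ ℂ) ∈ 𝔪) (lam : ι → ℤ)
    (hlam : ∀ i, a i - (lam i : integralClosure ℤ ℂ) ∈ 𝔪) :
    ∃ x : L →+ ZMod p, x ≠ 0 ∧ ∀ i z, x (T i z) = (lam i : ZMod p) * x z := by
  classical
  have : Fact p.Prime := ⟨hp⟩
  have hsmul : ∀ (r : ZZ) (c : ℂ), r • c = (r : ℂ) * c := fun r c => rfl
  let M : Submodule ZZ ℂ := Submodule.span ZZ (Set.range φ)
  have hmem : ∀ x, φ x ∈ M := fun x => Submodule.subset_span ⟨x, rfl⟩
  have hMfg : M.FG := by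
    obtain ⟨s, hs⟩ := (Module.Finite.fg_top (R := ℤ) (M := L))
    refine ⟨s.image φ, ?_⟩
    apply le_antisymm
    · rw [Submodule.span_le]
      intro c hc
      rw [Finset.coe_image] at hc
      obtain ⟨x, -, rfl⟩ := hc
      exact hmem x
    · rw [Submodule.span_le]
      rintro _ ⟨x, rfl⟩
      have hx : x ∈ Submodule.span ℤ (s : Set L) := by rw [hs]; trivial
      refine Submodule.span_induction (p := fun x _ => φ x ∈ Submodule.span ZZ ((s.image φ : Finset ℂ) : Set ℂ))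
        ?_ ?_ ?_ ?_ hx
      · intro x hx
        apply Submodule.subset_span
        rw [Finset.coe_image]
        exact ⟨x, hx, rfl⟩
      · rw [map_zero]; exact zero_mem _
      · intro x y _ _ hx hy
        rw [map_add]; exact add_mem hx hy
      · intro n x _ hx
        rw [map_zsmul]; exact zsmul_mem hx n
  obtain ⟨x₁, hx₁⟩ : ∃ x, φ x ≠ 0 := by
    by_contra hcon
    push Not at hcon
    exact hφ (AddMonoidHom.ext hcon)
  have hnot : ¬ M ≤ 𝔪 • M := by
    intro hle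
    obtain ⟨r, hr1, hr2⟩ := Submodule.exists_sub_one_mem_and_smul_eq_zero_of_fg_of_le_smul 𝔪 M
      hMfg hle
    have h1 := hr2 _ (hmem x₁)
    rw [hsmul, mul_eq_zero] at h1
    have h2 : r = 0 := Subtype.ext (h1.resolve_right hx₁)
    rw [h2, zero_sub] at hr1
    exact hmax ((Ideal.eq_top_iff_one _).mpr (neg_mem_iff.mp hr1))
  let N : Submodule ZZ M := 𝔪 • ⊤
  have hN : N.map M.subtype = 𝔪 • M := by
    change (𝔪 • (⊤ : Submodule ZZ M)).map M.subtype = 𝔪 • M
    rw [Submodule.map_smul'', Submodule.map_subtype_top]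
  let Φ : L →+ M :=
    { toFun := fun x => ⟨φ x, hmem x⟩
      map_zero' := Subtype.ext (map_zero φ)
      map_add' := fun x y => Subtype.ext (map_add φ x y) }
  obtain ⟨x₀, hx₀⟩ : ∃ x, Φ x ∉ N := by
    by_contra hcon
    push Not at hcon
    apply hnot
    rw [Submodule.span_le]
    rintro _ ⟨x, rfl⟩
    rw [← hN]
    exact ⟨Φ x, hcon x, rfl⟩
  have hQ : ∀ x : M ⧸ N, p • x = 0 := by
    intro x
    obtain ⟨m, rfl⟩ := N.mkQ_surjective x
    rw [← map_nsmul, Submodule.mkQ_apply, Submodule.Quotient.mk_eq_zero]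
    have : p • m = (p : ZZ) • m := (Nat.cast_smul_eq_nsmul ZZ p m).symm
    rw [this]
    exact Submodule.smul_mem_smul hpm trivial
  have hq0 : N.mkQ (Φ x₀) ≠ 0 := by
    rw [Submodule.mkQ_apply, Ne, Submodule.Quotient.mk_eq_zero]
    exact hx₀
  obtain ⟨f, hf⟩ := exists_functional hQ hq0
  refine ⟨f.comp ((N.mkQ).toAddMonoidHom.comp Φ), ?_, ?_⟩
  · intro h0
    exact hf (DFunLike.congr_fun h0 x₀)
  · intro i z
    change f (N.mkQ (Φ (T i z))) = (lam i : ZMod p) * f (N.mkQ (Φ z))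
    have h1 : Φ (T i z) = (lam i : ℤ) • Φ z + (a i - (lam i : ZZ)) • Φ z := by
      apply Subtype.ext
      change φ (T i z) = (lam i : ℤ) • φ z + (a i - (lam i : ZZ)) • φ z
      rw [hT, hsmul, zsmul_eq_mul]
      push_cast
      ring
    have h2 : N.mkQ ((a i - (lam i : ZZ)) • Φ z) = 0 := by
      rw [Submodule.mkQ_apply, Submodule.Quotient.mk_eq_zero]
      exact Submodule.smul_mem_smul (hlam i) trivial
    rw [h1, map_add, h2, add_zero, map_zsmul, map_zsmul, zsmul_eq_mul]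

end

end Fermat.Agent.LR
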