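import Fermat.Agent.LevelRaise.LLOps
import Fermat.Agent.LevelRaise.CharZero
import Fermat.Agent.LevelRaise.ModP

set_option autoImplicit false
set_option linter.unusedSectionVars false

/-!
The core of the level raising argument.
-/

namespace Fermat.Agent.LR

open Matrix CongruenceSubgroup
open scoped MatrixGroups
open Fermat.Agent.HeckeHom ModularCurve.Period

noncomputable section

variable {N q : ℕ} (w : ALD N q)

/-- restriction -/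
def resM (N q : ℕ) : MS ℂ (Gamma0 N) →ₗ[ℂ] MS ℂ (Gamma0 (N * q)) where
  toFun φ := ⟨φ.1, MS_anti (Gamma0_mul_le N q) φ.2⟩
  map_add' _ _ := rfl
  map_smul' _ _ := rfl

namespace ALD

/-- Atkin–Lehner on modular symbols -/
def WM : MS ℂ (Gamma0 (N * q)) →ₗ[ℂ] MS ℂ (Gamma0 (N * q)) where
  toFun φ := ⟨slash w.mat φ.1, w.slash_mem φ.2⟩
  map_add' _ _ := Subtype.ext (map_add _ _ _)
  map_smul' _ _ := Subtype.ext (map_smul _ _ _)

/-- trace on modular symbols -/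
def TrM (hq : q.Prime) (hqN : ¬ q ∣ N) : MS ℂ (Gamma0 (N * q)) →ₗ[ℂ] MS ℂ (Gamma0 N) where
  toFun φ := ⟨w.Tr φ.1, w.Tr_mem hq hqN φ.2⟩
  map_add' _ _ := Subtype.ext (map_add (hop w.trR) _ _)
  map_smul' _ _ := Subtype.ext (map_smul (hop w.trR) _ _)

theorem resM_hop (φ : MS ℂ (Gamma0 N)) : (resM N q φ).1 = hop (fun _ : Unit => (1 : IM)) φ.1 := by
  rw [hop_apply, Fintype.sum_unique, slash_one]
  rfl

theorem WM_hop (φ : MS ℂ (Gamma0 (N * q))) : (w.WM φ).1 = hop (fun _ : Unit => w.mat) φ.1 := by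
  rw [hop_apply, Fintype.sum_unique]
  rfl

theorem TrM_hop (hq : q.Prime) (hqN : ¬ q ∣ N) (φ : MS ℂ (Gamma0 (N * q))) :
    (w.TrM hq hqN φ).1 = hop w.trR φ.1 := rfl

/-- pushforward of lattices -/
def rL (N q : ℕ) : LL (Gamma0 (N * q)) →+ LL (Gamma0 N) :=
  LLmap (resM N q) (ev_comp_hop_mem _ _ resM_hop)

/-- Atkin–Lehner on lattices -/
def wL : LL (Gamma0 (N * q)) →+ LL (Gamma0 (N * q)) :=
  LLmap w.WM (ev_comp_hop_mem _ _ w.WM_hop)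

/-- transfer of lattices -/
def tL (hq : q.Prime) (hqN : ¬ q ∣ N) : LL (Gamma0 N) →+ LL (Gamma0 (N * q)) :=
  LLmap (w.TrM hq hqN) (ev_comp_hop_mem _ _ (w.TrM_hop hq hqN))

variable (hq : q.Prime) (hqN : ¬ q ∣ N)

theorem rL_tL (d : LL (Gamma0 N)) : rL N q (w.tL hq hqN d) = ((q : ℤ) + 1) • d := by
  apply Subtype.ext
  refine LinearMap.ext fun φ => ?_
  change d.1 (w.TrM hq hqN (resM N q φ)) = (((q : ℤ) + 1) • d.1) φ
  have h1 : w.TrM hq hqN (resM N q φ) = ((q : ℂ) + 1) • φ := Subtype.ext (w.Tr_old φ.2)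
  rw [h1, map_smul, ← Int.cast_smul_eq_zsmul ℂ, LinearMap.smul_apply]
  push_cast
  rfl

theorem rL_wL_tL (d : LL (Gamma0 N)) : rL N q (w.wL (w.tL hq hqN d)) = TL hq hqN d := by
  apply Subtype.ext
  refine LinearMap.ext fun φ => ?_
  change d.1 (w.TrM hq hqN (w.WM (resM N q φ))) = d.1 (ToM hq hqN φ)
  congr 1
  exact Subtype.ext (w.Tr_slash_old φ.2)

theorem wL_wL (z : LL (Gamma0 (N * q))) : w.wL (w.wL z) = z := by
  apply Subtype.ext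
  refine LinearMap.ext fun φ => ?_
  change z.1 (w.WM (w.WM φ)) = z.1 φ
  congr 1
  exact Subtype.ext (w.slash_slash φ.2)

section Hecke

variable {ℓ : ℕ} (hℓ : ℓ.Prime) (hℓN : ¬ ℓ ∣ N) (hℓN' : ¬ ℓ ∣ N * q)

theorem TL_tL (d : LL (Gamma0 N)) : TL hℓ hℓN' (w.tL hq hqN d) = w.tL hq hqN (TL hℓ hℓN d) := by
  apply Subtype.ext
  refine LinearMap.ext fun φ => ?_
  change d.1 (w.TrM hq hqN (ToM hℓ hℓN' φ)) = d.1 (ToM hℓ hℓN (w.TrM hq hqN φ))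
  congr 1
  exact Subtype.ext (w.Tr_To hℓ hℓN' φ.2)

theorem TL_wL (z : LL (Gamma0 (N * q))) : TL hℓ hℓN' (w.wL z) = w.wL (TL hℓ hℓN' z) := by
  apply Subtype.ext
  refine LinearMap.ext fun φ => ?_
  change z.1 (w.WM (ToM hℓ hℓN' φ)) = z.1 (ToM hℓ hℓN' (w.WM φ))
  congr 1
  exact Subtype.ext (w.To_slash hℓ hℓN' φ.2).symm

theorem TL_rL (z : LL (Gamma0 (N * q))) : TL hℓ hℓN (rL N q z) = rL N q (TL hℓ hℓN' z) := by
  apply Subtype.ext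
  refine LinearMap.ext fun φ => ?_
  rfl

end Hecke

/-! duality relations -/

theorem TrM_PDC (γ : Gamma0 (N * q)) :
    w.TrM hq hqN (PDC (Gamma0 (N * q)) γ.1 γ.2) =
      PDC (Gamma0 N) γ.1 (Gamma0_mul_le N q γ.2) := by
  apply Subtype.ext
  funext u v
  rw [TrM_hop, hop_apply_apply]
  have h := PD_trace (w.isReps_trR hq hqN) γ.1 u v
  have h2 : ((∑ x, PD (Gamma0 (N * q)) γ.1 (w.trR x • u) (w.trR x • v) : ℤ) : ℂ) =
    (PD (Gamma0 N) γ.1 u v : ℂ) := by exact_mod_cast h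
  push_cast at h2
  exact h2

theorem WM_PDC {γ γ' : SL(2, ℤ)} (hγ : γ ∈ Gamma0 (N * q)) (hγ' : γ' ∈ Gamma0 (N * q))
    (h : ofSL γ * w.mat = w.mat * ofSL γ') :
    w.WM (PDC (Gamma0 (N * q)) γ hγ) = PDC (Gamma0 (N * q)) γ' hγ' := by
  apply Subtype.ext
  funext u v
  have h1 := PD_normalize (Γ := Gamma0 (N * q)) (w := w.mat) (by
    rw [w.det_mat]; exact_mod_cast Nat.pos_of_ne_zero w.hq) (fun γ hγ => w.norm1 hγ) (fun γ hγ => w.norm2 hγ) hγ' h u v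
  change ((PD (Gamma0 (N * q)) γ (w.mat • u) (w.mat • v) : ℤ) : ℂ) =
    ((PD (Gamma0 (N * q)) γ' u v : ℤ) : ℂ)
  rw [h1]

theorem pd_tL (γ : Gamma0 (N * q)) (d : LL (Gamma0 N)) :
    pd γ (w.tL hq hqN d) = pd ⟨γ.1, Gamma0_mul_le N q γ.2⟩ d := by
  have h1 := pd_spec γ (w.tL hq hqN d)
  have h2 : (w.tL hq hqN d).1 (PDC (Gamma0 (N * q)) γ.1 γ.2) =
      d.1 (w.TrM hq hqN (PDC (Gamma0 (N * q)) γ.1 γ.2)) := rfl
  rw [h2, w.TrM_PDC hq hqN, pd_spec ⟨γ.1, Gamma0_mul_le N q γ.2⟩ d] at h1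
  exact_mod_cast h1.symm

theorem pd_wL {γ γ' : SL(2, ℤ)} (hγ : γ ∈ Gamma0 (N * q)) (hγ' : γ' ∈ Gamma0 (N * q))
    (h : ofSL γ * w.mat = w.mat * ofSL γ') (z : LL (Gamma0 (N * q))) :
    pd ⟨γ, hγ⟩ (w.wL z) = pd ⟨γ', hγ'⟩ z := by
  have h1 := pd_spec ⟨γ, hγ⟩ (w.wL z)
  have h2 : (w.wL z).1 (PDC (Gamma0 (N * q)) γ hγ) =
      z.1 (w.WM (PDC (Gamma0 (N * q)) γ hγ)) := rfl
  rw [h2, w.WM_PDC hγ hγ' h, pd_spec ⟨γ', hγ'⟩ z] at h1
  exact_mod_cast h1.symm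

end ALD

end

end Fermat.Agent.LR
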