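import Mathlib

set_option autoImplicit false
set_option linter.unusedSectionVars false

/-!
Finite modules and polynomial actions of commuting endomorphisms.
-/

namespace Fermat.Agent.LR

noncomputable section

section FinMod

variable {A Q : Type*} [CommRing A] [AddCommGroup Q] [Module A Q]

/-- A submodule of a finite module without `𝔪`-torsion satisfies `N = 𝔪 N`. -/
theorem le_smul_of_no_eigen [Finite Q] (𝔪 : Ideal A) (N : Submodule A Q)
    (h : ∀ x ∈ N, (∀ a ∈ 𝔪, a • x = 0) → x = 0) : N ≤ 𝔪 • N := by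
  have hpow : ∀ n : ℕ, ∀ x ∈ N, (∀ a ∈ 𝔪 ^ n, a • x = 0) → x = 0 := by
    intro n
    induction n with
    | zero =>
      intro x _ hx
      have := hx 1 (by rw [pow_zero, Ideal.one_eq_top]; trivial)
      rwa [one_smul] at this
    | succ n ih =>
      intro x hxN hx
      apply h x hxN
      intro a ha
      apply ih (a • x) (N.smul_mem a hxN)
      intro c hc
      rw [smul_smul]
      apply hx
      rw [pow_succ]
      exact Ideal.mul_mem_mul hc ha
  -- stabilization
  let f : ℕ →o (Submodule A Q)ᵒᵈ :=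
    { toFun := fun n => OrderDual.toDual (𝔪 ^ n • N)
      monotone' := fun m n hmn => by
        change (𝔪 ^ n • N : Submodule A Q) ≤ 𝔪 ^ m • N
        exact Submodule.smul_mono_left (Ideal.pow_le_pow_right hmn) }
  obtain ⟨n, hn⟩ := IsArtinian.monotone_stabilizes f
  have hn1 : 𝔪 ^ n • N = 𝔪 ^ (n + 1) • N := hn (n + 1) (Nat.le_succ n)
  have hle : 𝔪 ^ n • N ≤ 𝔪 • (𝔪 ^ n • N) := by
    rw [← Submodule.mul_smul, ← pow_succ']
    exact hn1.le
  obtain ⟨r, hr1, hr2⟩ := Submodule.exists_sub_one_mem_and_smul_eq_zero_of_fg_of_le_smul 𝔪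
    (𝔪 ^ n • N) (IsNoetherian.noetherian _) hle
  intro x hx
  have hrx : r • x = 0 := by
    apply hpow n _ (N.smul_mem r hx)
    intro a ha
    rw [smul_comm]
    exact hr2 _ (Submodule.smul_mem_smul ha hx)
  have h1 : x = (-(r - 1)) • x := by
    rw [neg_smul, sub_smul, hrx, one_smul]; simp
  rw [h1]
  exact Submodule.smul_mem_smul (neg_mem hr1) hx

end FinMod

section Poly

variable {ι M : Type*} [AddCommGroup M]

theorem adjoin_comm (T : ι → Module.End ℤ M) (h : ∀ i j, Commute (T i) (T j)) :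
    ∀ a ∈ Set.range T, ∀ b ∈ Set.range T, a * b = b * a := by
  rintro _ ⟨i, rfl⟩ _ ⟨j, rfl⟩
  exact h i j

/-- action of the polynomial ring -/
def polyAct (T : ι → Module.End ℤ M) (h : ∀ i j, Commute (T i) (T j)) :
    MvPolynomial ι ℤ →+* Module.End ℤ M :=
  letI : CommRing (Algebra.adjoin ℤ (Set.range T)) :=
    Algebra.adjoinCommRingOfComm ℤ (adjoin_comm T h)
  (Algebra.adjoin ℤ (Set.range T)).val.toRingHom.comp
    (MvPolynomial.eval₂Hom (algebraMap ℤ (Algebra.adjoin ℤ (Set.range T)))
      (fun i => ⟨T i, Algebra.subset_adjoin ⟨i, rfl⟩⟩))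

theorem polyAct_X (T : ι → Module.End ℤ M) (h : ∀ i j, Commute (T i) (T j)) (i : ι) :
    polyAct T h (MvPolynomial.X i) = T i := by
  letI : CommRing (Algebra.adjoin ℤ (Set.range T)) :=
    Algebra.adjoinCommRingOfComm ℤ (adjoin_comm T h)
  unfold polyAct
  rw [RingHom.comp_apply, MvPolynomial.coe_eval₂Hom, MvPolynomial.eval₂_X]
  rfl

theorem polyAct_C (T : ι → Module.End ℤ M) (h : ∀ i j, Commute (T i) (T j)) (n : ℤ) (x : M) :
    polyAct T h (MvPolynomial.C n) x = n • x := by
  have h1 : (MvPolynomial.C n : MvPolynomial ι ℤ) = (n : MvPolynomial ι ℤ) := by simp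
  rw [h1, map_intCast]
  simp

/-- equivariance -/
theorem polyAct_comm {M' : Type*} [AddCommGroup M'] (T : ι → Module.End ℤ M)
    (h : ∀ i j, Commute (T i) (T j)) (T' : ι → Module.End ℤ M')
    (h' : ∀ i j, Commute (T' i) (T' j)) (b : M →+ M') (hb : ∀ i x, b (T i x) = T' i (b x))
    (a : MvPolynomial ι ℤ) : ∀ x, b (polyAct T h a x) = polyAct T' h' a (b x) := by
  induction a using MvPolynomial.induction_on with
  | C n => intro x; rw [polyAct_C, polyAct_C, map_zsmul]
  | add p q hp hq =>
    intro x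
    rw [map_add, map_add, LinearMap.add_apply, LinearMap.add_apply, map_add, hp, hq]
  | mul_X p i hp =>
    intro x
    rw [map_mul, map_mul, Module.End.mul_apply, Module.End.mul_apply, hp, polyAct_X, polyAct_X, hb]

/-- eigenfunctionals -/
theorem polyAct_eigen {S : Type*} [CommRing S] (T : ι → Module.End ℤ M)
    (h : ∀ i j, Commute (T i) (T j)) (y : M →+ S) (lam : ι → S)
    (hy : ∀ i x, y (T i x) = lam i * y x) (a : MvPolynomial ι ℤ) :
    ∀ x, y (polyAct T h a x) = MvPolynomial.aeval lam a * y x := by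
  induction a using MvPolynomial.induction_on with
  | C n =>
    intro x
    rw [polyAct_C, map_zsmul, MvPolynomial.aeval_C]
    simp
  | add p q hp hq =>
    intro x
    rw [map_add, LinearMap.add_apply, map_add, hp, hq, map_add, add_mul]
  | mul_X p i hp =>
    intro x
    rw [map_mul, Module.End.mul_apply, hp, polyAct_X, hy, map_mul, MvPolynomial.aeval_X, mul_assoc]

/-- eigenvectors modulo `m`. -/
theorem polyAct_eigenvec (T : ι → Module.End ℤ M) (h : ∀ i j, Commute (T i) (T j))
    (lam : ι → ℤ) (m : ℤ) {x : M} (hx : ∀ i, ∃ e, T i x - lam i • x = m • e)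
    (a : MvPolynomial ι ℤ) :
    ∃ e, polyAct T h a x - (MvPolynomial.aeval lam a : ℤ) • x = m • e := by
  induction a using MvPolynomial.induction_on with
  | C n =>
    refine ⟨0, ?_⟩
    rw [polyAct_C, MvPolynomial.aeval_C]
    simp
  | add p q hp hq =>
    obtain ⟨e, he⟩ := hp
    obtain ⟨f, hf⟩ := hq
    refine ⟨e + f, ?_⟩
    rw [map_add, LinearMap.add_apply, map_add, add_smul, smul_add, ← he, ← hf]
    abel
  | mul_X p i hp =>
    obtain ⟨e, he⟩ := hp
    obtain ⟨f, hf⟩ := hx i
    refine ⟨polyAct T h p f + lam i • e, ?_⟩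
    rw [map_mul, Module.End.mul_apply, polyAct_X, map_mul, MvPolynomial.aeval_X]
    have h1 : T i x = lam i • x + m • f := by rw [← hf]; abel
    have h2 : polyAct T h p x = (MvPolynomial.aeval lam p : ℤ) • x + m • e := by rw [← he]; abel
    rw [h1, map_add, map_zsmul, map_zsmul, h2]
    module

end Poly

end

end Fermat.Agent.LR
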