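import Fermat.Agent.LevelRaise.FormSide

set_option autoImplicit false
set_option linter.unusedSectionVars false

/-!
Level raising for eigenforms, given the non-Eisenstein input `G2`.
-/

namespace Fermat.Agent.LR

open Matrix CongruenceSubgroup ModularFormClass CuspForm
open scoped MatrixGroups

noncomputable section

theorem dvd_of_intCast_mem {p : ℕ} (hp : p.Prime) {I : Ideal (integralClosure ℤ ℂ)} (hI : I ≠ ⊤)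
    (hpI : (p : integralClosure ℤ ℂ) ∈ I) {n : ℤ} (hn : (n : integralClosure ℤ ℂ) ∈ I) :
    (p : ℤ) ∣ n := by
  by_contra h
  apply hI
  rw [Ideal.eq_top_iff_one]
  have hcop : IsCoprime (p : ℤ) n := (Prime.coprime_iff_not_dvd (Nat.prime_iff_prime_int.mp hp)).mpr h
  obtain ⟨a, b, hab⟩ := hcop
  have h1 : (1 : integralClosure ℤ ℂ) = (a : integralClosure ℤ ℂ) * p + b * n := by
    have := congrArg (Int.cast : ℤ → integralClosure ℤ ℂ) hab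
    push_cast at this
    exact this.symm
  rw [h1]
  exact I.add_mem (I.mul_mem_left _ hpI) (I.mul_mem_left _ hn)

theorem ne_of_mod {p : ℕ} (hp : p.Prime) {I : Ideal (integralClosure ℤ ℂ)} (hI : I ≠ ⊤)
    (hpI : (p : integralClosure ℤ ℂ) ∈ I) {a : integralClosure ℤ ℂ} {l : ℤ} {ℓ : ℕ}
    (ha : a - (l : integralClosure ℤ ℂ) ∈ I) (hl : (l : ZMod p) ≠ 1 + ℓ) :
    (a : ℂ) ≠ 1 + ℓ := by
  intro h
  apply hl
  have h1 : a = ((1 + ℓ : ℤ) : integralClosure ℤ ℂ) := by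
    apply Subtype.ext
    rw [h]
    push_cast
    rfl
  rw [h1, ← Int.cast_sub] at ha
  have h2 := dvd_of_intCast_mem hp hI hpI ha
  have h3 := (ZMod.intCast_zmod_eq_zero_iff_dvd _ p).mpr h2
  push_cast at h3
  exact (sub_eq_zero.mp h3).symm

/-- **Level raising.** -/
theorem levelRaise {N q p : ℕ} (hN : 0 < N) (hq : q.Prime) (hqN : ¬ q ∣ N) (hp : p.Prime)
    (hp2 : p ≠ 2) (good : ℕ → Prop)
    (hgood : ∀ ℓ, good ℓ → ℓ.Prime ∧ ¬ ℓ ∣ N * q ∧ ℓ ≠ p) (lam : ℕ → ℤ)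
    (G2 : ∀ n m : ℕ, 0 < n → 0 < m → ∃ ℓ : ℕ, ℓ.Prime ∧ good ℓ ∧ n ∣ ℓ - 1 ∧
      p ∣ orderOf ((q : ZMod ℓ) ^ m) ∧ (lam ℓ : ZMod p) ≠ 1 + ℓ)
    (f : CuspForm (Gamma0 N) 2) (hf : f.IsNormalizedEigenform)
    (𝔪 : Ideal (integralClosure ℤ ℂ)) (hmax : 𝔪.IsMaximal) (hpm : (p : integralClosure ℤ ℂ) ∈ 𝔪)
    (hcong : ∀ ℓ, good ℓ → ∃ a : integralClosure ℤ ℂ, (a : ℂ) = qCoeff f ℓ ∧
      a - ((lam ℓ : ℤ) : integralClosure ℤ ℂ) ∈ 𝔪)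
    (hLR : ∃ a : integralClosure ℤ ℂ, (a : ℂ) = qCoeff f q ∧
      a ^ 2 - ((q : integralClosure ℤ ℂ) + 1) ^ 2 ∈ 𝔪) :
    ∃ (g : CuspForm (Gamma0 (N * q)) 2) (Q : Ideal (integralClosure ℤ ℂ)),
      g.IsNormalizedEigenform ∧ Q.IsMaximal ∧ (p : integralClosure ℤ ℂ) ∈ Q ∧
      (∀ ℓ, good ℓ → ∃ a : integralClosure ℤ ℂ, (a : ℂ) = qCoeff g ℓ ∧
        a - ((lam ℓ : ℤ) : integralClosure ℤ ℂ) ∈ Q) ∧ qCoeff g q ^ 2 = 1 := by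
  classical
  have : NeZero N := ⟨hN.ne'⟩
  have hNq : 0 < N * q := Nat.mul_pos hN hq.pos
  have : NeZero (N * q) := ⟨hNq.ne'⟩
  obtain ⟨ℓ₀, hℓ₀, hg₀, hd, -, hlam₀⟩ := G2 (N * q) 1 hNq one_pos
  have hℓ₀N : ¬ ℓ₀ ∣ N := fun h => (hgood ℓ₀ hg₀).2.1 (h.mul_right _)
  have hd1 : ((N * q : ℕ) : ℤ) ∣ (ℓ₀ : ℤ) - 1 := by
    have h1 : ((ℓ₀ - 1 : ℕ) : ℤ) = (ℓ₀ : ℤ) - 1 := by
      rw [Nat.cast_sub hℓ₀.one_le, Nat.cast_one]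
    rw [← h1]
    exact_mod_cast hd
  have hd2 : (N : ℤ) ∣ (ℓ₀ : ℤ) - 1 :=
    (Dvd.intro (q : ℤ) (by push_cast; rfl)).trans hd1
  -- the eigenvalues
  choose! a₀ ha₀ ha₀' using hcong
  obtain ⟨b, hb, hb'⟩ := hLR
  have hngq : ¬ good q := fun h => (hgood q h).2.1 (Dvd.intro_left _ rfl)
  set a : ℕ → integralClosure ℤ ℂ := fun ℓ => if ℓ = q then b else a₀ ℓ with ha
  have haq : a q = b := if_pos rfl
  have haℓ : ∀ ℓ, good ℓ → a ℓ = a₀ ℓ := fun ℓ h => if_neg (fun h' : ℓ = q => hngq (h' ▸ h))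
  -- the symbol
  obtain ⟨φ, hφ0, hφT⟩ := exists_symbol_of_form f hf hℓ₀ hℓ₀N hd2 (by
    rw [← ha₀ ℓ₀ hg₀]
    exact ne_of_mod hp hmax.ne_top hpm (ha₀' ℓ₀ hg₀) hlam₀)
  -- the sign
  obtain ⟨ε, hε, hεq⟩ : ∃ ε : ℤ, ε * ε = 1 ∧
      a q - ((ε * (q + 1) : ℤ) : integralClosure ℤ ℂ) ∈ 𝔪 := by
    have h1 : (b - ((q : integralClosure ℤ ℂ) + 1)) * (b + ((q : integralClosure ℤ ℂ) + 1)) ∈ 𝔪 := by
      have : (b - ((q : integralClosure ℤ ℂ) + 1)) * (b + ((q : integralClosure ℤ ℂ) + 1)) =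
        b ^ 2 - ((q : integralClosure ℤ ℂ) + 1) ^ 2 := by ring
      rw [this]; exact hb'
    rcases hmax.isPrime.mem_or_mem h1 with h2 | h2
    · refine ⟨1, by norm_num, ?_⟩
      rw [haq]
      push_cast
      rw [one_mul]
      exact h2
    · refine ⟨-1, by norm_num, ?_⟩
      rw [haq]
      push_cast
      rw [neg_one_mul, sub_neg_eq_add]
      exact h2
  obtain ⟨κ, χ, Q, hκ0, hκT, hκU, hκUU, hQmax, hpQ, hχQ⟩ := core hN hq hqN hp hp2 good hgood lam G2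
    φ hφ0 a (fun ℓ h => by
      rw [hφT ℓ (hgood ℓ h).1 (fun h' => (hgood ℓ h).2.1 (h'.mul_right _)), haℓ ℓ h, ha₀ ℓ h])
    (by rw [hφT q hq hqN, haq, hb]) 𝔪 hmax.ne_top hpm
    (fun ℓ h => by rw [haℓ ℓ h]; exact ha₀' ℓ h) ε hε hεq
  have hthκ : th κ ≠ 0 := th_ne_zero hNq κ hκ0 hℓ₀ hd1 (hκT ℓ₀ hg₀)
    (ne_of_mod hp hQmax.ne_top hpQ (hχQ ℓ₀ hg₀) hlam₀)
  obtain ⟨g, hg, hgT, hgq⟩ := exists_form_of_symbol hq (Dvd.intro_left _ rfl) good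
    (fun ℓ h => ⟨(hgood ℓ h).1, (hgood ℓ h).2.1⟩) (fun ℓ => (χ ℓ : ℂ)) κ hthκ hκT hκU hκUU
  exact ⟨g, Q, hg, hQmax, hpQ, fun ℓ h => ⟨χ ℓ, (hgT ℓ h).symm, hχQ ℓ h⟩, hgq⟩

end

end Fermat.Agent.LR
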