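import Fermat.Agent.LevelRaise.Main
import Fermat.Agent.HeckeHom.ThetaFull
import Fermat.Agent.HGModule.EigenChar
import Fermat.Agent.DS.Lifting
import Fermat.Agent.S21

set_option autoImplicit false
set_option linter.unusedSectionVars false

/-!
From eigenforms to modular symbols and back.
-/

namespace Fermat.Agent.LR

open Matrix CongruenceSubgroup ModularFormClass CuspForm
open scoped MatrixGroups
open Fermat.Agent.HeckeHom ModularCurve.Period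
open Fermat.Agent.DS (coeffL coeffL_apply)

noncomputable section

theorem exists_fix_of_trace {γ : SL(2, ℤ)} (h : (γ : Matrix (Fin 2) (Fin 2) ℤ).trace ^ 2 = 4) :
    ∃ u : Vec, dt u (γ • u) = 0 := by
  have hdet := γ.2
  rw [Matrix.det_fin_two] at hdet
  rw [Matrix.trace_fin_two] at h
  set a := γ.1 0 0 with ha
  set b := γ.1 0 1 with hb
  set c := γ.1 1 0 with hc
  set d := γ.1 1 1 with hd
  by_cases hc0 : c = 0
  · refine ⟨e1, ?_⟩
    rw [dt, sl_smul_e1, e1_val, det2]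
    simp only
    rw [← hc, hc0]
    ring
  · refine ⟨⟨(a - d, 2 * c), ?_⟩, ?_⟩
    · intro h0
      have h1 := congrArg Prod.snd h0
      simp only [Prod.snd_zero, mul_eq_zero, OfNat.ofNat_ne_zero, false_or] at h1
      exact hc0 h1
    · rw [dt, sl_smul_def, smul_val, ofSL_val, det2, mv]
      simp only
      rw [← ha, ← hb, ← hc, ← hd]
      linear_combination (4 * c) * hdet - c * h

theorem th_mem_parabolicHoms {R : Type*} [CommRing R] {Γ : Subgroup SL(2, ℤ)} (φ : MS R Γ) :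
    th φ ∈ parabolicHoms R Γ R := by
  rw [mem_parabolicHoms_iff]
  intro γ hγ
  obtain ⟨u, hu⟩ := exists_fix_of_trace hγ
  rw [th_apply' φ γ u]
  exact φ.2.1.2 _ _ hu

theorem dataU_α {N q : ℕ} [NeZero q] (hq : q ∣ N) (h : (1 : ℤ) * q ≠ 0) (x : ZMod q) :
    (dataU q hq : HData (Gamma0 N) (Gamma0 N)).α x = toGL (ut 1 (x.val : ℤ) q h) := by
  change uRep q x = _
  ext i j
  rw [toGL_apply, uRep_val, ut_val]
  fin_cases i <;> fin_cases j <;> simp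

theorem sum_range_zmod {A : Type*} [AddCommMonoid A] (q : ℕ) [NeZero q] (g : ℕ → A) :
    ∑ j ∈ Finset.range q, g j = ∑ x : ZMod q, g x.val := by
  refine Finset.sum_nbij' (fun j : ℕ ↦ (j : ZMod q)) (fun x : ZMod q ↦ x.val)
    (fun _ _ ↦ Finset.mem_univ _) (fun x _ ↦ Finset.mem_range.mpr x.val_lt) (fun j hj ↦ ?_)
    (fun x _ ↦ ?_) (fun j hj ↦ ?_)
  · exact ZMod.val_cast_of_lt (Finset.mem_range.mp hj)
  · exact ZMod.natCast_zmod_val x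
  · rw [ZMod.val_cast_of_lt (Finset.mem_range.mp hj)]

theorem Uo_eq_hop {R : Type*} [CommRing R] (q : ℕ) [NeZero q] (h : (1 : ℤ) * q ≠ 0)
    (φ : Vec → Vec → R) :
    hop (fun x : ZMod q => ut 1 (x.val : ℤ) q h) φ = Uo q φ := by
  rw [hop_apply, Uo, sum_range_zmod]
  refine Finset.sum_congr rfl fun x _ => ?_
  rw [ts_eq h]

/-- `U_q` on homomorphisms. -/
theorem hom_th_dataU {R : Type*} [CommRing R] {N q : ℕ} [NeZero q] (hq : q ∣ N)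
    (φ : MS R (Gamma0 N)) (γ : Gamma0 N) :
    (dataU q hq : HData (Gamma0 N) (Gamma0 N)).hom R (th φ) (Additive.ofMul γ) =
      Uo q φ.1 e1 ((γ : SL(2, ℤ)) • e1) := by
  have h : (1 : ℤ) * q ≠ 0 := by rw [one_mul]; exact_mod_cast NeZero.ne q
  have h1 := hom_th (dataU q hq : HData (Gamma0 N) (Gamma0 N))
    (fun x : ZMod q => ut 1 (x.val : ℤ) q h) (dataU_α hq h) φ γ
  rw [h1]
  have h2 := Uo_eq_hop q h φ.1
  exact congrFun (congrFun h2 e1) _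

theorem th_ne_zero {N : ℕ} (hN : 0 < N) (φ : MS ℂ (Gamma0 N)) (hφ : φ ≠ 0) {ℓ : ℕ} (hℓ : ℓ.Prime)
    (h0 : (N : ℤ) ∣ (ℓ : ℤ) - 1) {c : ℂ} (hc : To ℓ φ.1 = c • φ.1) (hc1 : c ≠ 1 + ℓ) :
    th φ ≠ 0 := by
  intro hth
  have h1 := To_of_th_eq_zero hN hth hℓ h0
  rw [hc] at h1
  have h2 : (c - (1 + ℓ)) • φ.1 = 0 := by rw [sub_smul, h1, sub_self]
  rcases smul_eq_zero.mp h2 with h3 | h3
  · exact hc1 (sub_eq_zero.mp h3)
  · exact hφ (Subtype.ext h3)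

/-- **From eigenforms to modular symbols.** -/
theorem exists_symbol_of_form {N : ℕ} [NeZero N] (f : CuspForm (Gamma0 N) 2)
    (hf : f.IsNormalizedEigenform) {ℓ₀ : ℕ} (hℓ₀ : ℓ₀.Prime) (hℓ₀N : ¬ ℓ₀ ∣ N)
    (h0 : (N : ℤ) ∣ (ℓ₀ : ℤ) - 1) (hlam : qCoeff f ℓ₀ ≠ 1 + ℓ₀) :
    ∃ φ : MS ℂ (Gamma0 N), φ ≠ 0 ∧ ∀ (ℓ : ℕ), ℓ.Prime → ¬ ℓ ∣ N →
      To ℓ φ.1 = qCoeff f ℓ • φ.1 := by
  have hN : 0 < N := Nat.pos_of_ne_zero (NeZero.ne N)
  have hES : ES N := Fermat.Agent.S21.result N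
  set D1 : Additive (Gamma0 N) →+ ℂ := ModularCurve.periodHomPair N (f, 0) with hD1
  have heig : ∀ (ℓ : ℕ) (hℓ : ℓ.Prime) (hℓN : ¬ ℓ ∣ N), True →
      (dataT hℓ hℓN).hom ℂ D1 = qCoeff f ℓ • D1 := by
    intro ℓ hℓ hℓN _
    have h1 := (Op.ofT hℓ hℓN).compat (f, (0 : CuspForm (Gamma0 N) 2))
    have h2 : (Op.ofT hℓ hℓN).T f = qCoeff f ℓ • f := Fermat.Agent.HGModule.heckeTLin_eigen hf hℓ hℓN
    change ModularCurve.periodHomPair N ((Op.ofT hℓ hℓN).T f, (Op.ofT hℓ hℓN).T 0) = _ at h1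
    rw [h2, map_zero] at h1
    change _ = (dataT hℓ hℓN).hom ℂ (ModularCurve.periodHomPair N (f, 0)) at h1
    rw [← h1, ← map_smul, Prod.smul_mk, smul_zero]
  have hne : D1 ≠ 0 := by
    intro h
    have h1 : (f, (0 : CuspForm (Gamma0 N) 2)) = 0 := hES.1 (by rw [← hD1, h, map_zero])
    have h2 : f = 0 := congrArg Prod.fst h1
    have h3 := hf.qCoeff_one
    rw [h2] at h3
    have h4 := (coeffL N 2 1).map_zero
    rw [coeffL_apply] at h4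
    rw [h4] at h3
    exact zero_ne_one h3
  have hℓk : (ℓ₀ : ℂ) ≠ 0 := by exact_mod_cast hℓ₀.ne_zero
  have hpar := parabolic_of_eigen (k := ℂ) two_ne_zero hN hℓ₀ hℓ₀N h0 hℓk D1 hlam
    (heig ℓ₀ hℓ₀ hℓ₀N trivial)
  obtain ⟨φ, hφ, hT⟩ := exists_eigen_lift hN (fun _ => True) D1 hpar (fun ℓ => qCoeff f ℓ) heig
    hℓ₀ hℓ₀N trivial h0 hlam
  refine ⟨φ, ?_, fun ℓ hℓ hℓN => hT ℓ hℓ hℓN trivial⟩
  rintro rfl
  apply hne
  rw [← hφ]
  rfl

/-- The simultaneous eigenspace in `S_2`. -/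
def eigSub (N : ℕ) [NeZero N] (q : ℕ) (hqN : q ∣ N) (good : ℕ → Prop)
    (hg : ∀ ℓ, good ℓ → ℓ.Prime ∧ ¬ ℓ ∣ N) (χ : ℕ → ℂ) : Submodule ℂ (CuspForm (Gamma0 N) 2) where
  carrier := {g | (∀ (ℓ : ℕ) (h : good ℓ), heckeTLin 2 (hg ℓ h).1 (hg ℓ h).2 g = χ ℓ • g) ∧
    heckeULin 2 hqN (heckeULin 2 hqN g) = g}
  add_mem' := by
    rintro a b ⟨ha, ha'⟩ ⟨hb, hb'⟩
    refine ⟨fun ℓ h => ?_, ?_⟩
    · rw [map_add, ha ℓ h, hb ℓ h, smul_add]
    · rw [map_add, map_add, ha', hb']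
  zero_mem' := ⟨fun ℓ h => by rw [map_zero, smul_zero], by rw [map_zero, map_zero]⟩
  smul_mem' := by
    rintro c a ⟨ha, ha'⟩
    refine ⟨fun ℓ h => ?_, ?_⟩
    · rw [map_smul, ha ℓ h, smul_comm]
    · rw [map_smul, map_smul, ha']

theorem eigSub_stable {N : ℕ} [NeZero N] {q : ℕ} (hq : q.Prime) (hqN : q ∣ N) {good : ℕ → Prop}
    (hg : ∀ ℓ, good ℓ → ℓ.Prime ∧ ¬ ℓ ∣ N) (χ : ℕ → ℂ) (t : heckeAlgebra N 2 (∅ : Set ℕ))
    {g : CuspForm (Gamma0 N) 2} (h : g ∈ eigSub N q hqN good hg χ) :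
    t.1 g ∈ eigSub N q hqN good hg χ := by
  have hcomm : ∀ s : heckeAlgebra N 2 (∅ : Set ℕ), s.1 * t.1 = t.1 * s.1 := fun s =>
    congrArg Subtype.val (mul_comm s t)
  refine ⟨fun ℓ hl => ?_, ?_⟩
  · have h1 := hcomm (heckeAlgebra.T (hg ℓ hl).1 (hg ℓ hl).2 (Set.notMem_empty ℓ))
    have h2 := LinearMap.congr_fun h1 g
    change heckeTLin 2 (hg ℓ hl).1 (hg ℓ hl).2 (t.1 g) =
      t.1 (heckeTLin 2 (hg ℓ hl).1 (hg ℓ hl).2 g) at h2
    rw [h2, h.1 ℓ hl, map_smul]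
  · have h1 := hcomm (heckeAlgebra.U hq hqN (Set.notMem_empty q))
    have h2 : ∀ x, heckeULin 2 hqN (t.1 x) = t.1 (heckeULin 2 hqN x) := fun x =>
      LinearMap.congr_fun h1 x
    rw [h2, h2, h.2]

/-- **From modular symbols to eigenforms.** -/
theorem exists_form_of_symbol {N : ℕ} [NeZero N] {q : ℕ} (hq : q.Prime) (hqN : q ∣ N)
    (good : ℕ → Prop) (hg : ∀ ℓ, good ℓ → ℓ.Prime ∧ ¬ ℓ ∣ N) (χ : ℕ → ℂ)
    (κ : MS ℂ (Gamma0 N)) (hκ : th κ ≠ 0) (hT : ∀ ℓ, good ℓ → To ℓ κ.1 = χ ℓ • κ.1)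
    (hU : Uo q κ.1 ∈ MS ℂ (Gamma0 N)) (hUU : Uo q (Uo q κ.1) = κ.1) :
    ∃ g : CuspForm (Gamma0 N) 2, g.IsNormalizedEigenform ∧ (∀ ℓ, good ℓ → qCoeff g ℓ = χ ℓ) ∧
      qCoeff g q ^ 2 = 1 := by
  have : NeZero q := ⟨hq.ne_zero⟩
  have hES : ES N := Fermat.Agent.S21.result N
  have h1 : th κ ∈ LinearMap.range (ModularCurve.periodHomPair N) := by
    rw [hES.2]; exact th_mem_parabolicHoms κ
  obtain ⟨⟨g1, g2⟩, h2⟩ := h1
  -- eigen-relations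
  have hTg : ∀ (ℓ : ℕ) (h : good ℓ),
      heckeTLin 2 (hg ℓ h).1 (hg ℓ h).2 g1 = χ ℓ • g1 ∧
      heckeTLin 2 (hg ℓ h).1 (hg ℓ h).2 g2 = χ ℓ • g2 := by
    intro ℓ h
    have h3 := (Op.ofT (hg ℓ h).1 (hg ℓ h).2).compat (g1, g2)
    rw [h2] at h3
    change _ = (dataT (hg ℓ h).1 (hg ℓ h).2).hom ℂ (th κ) at h3
    have h4 : (dataT (hg ℓ h).1 (hg ℓ h).2).hom ℂ (th κ) = χ ℓ • th κ := by
      rw [← thL_apply, hom_thL, ← map_smul]
      congr 1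
      exact Subtype.ext (hT ℓ h)
    rw [h4, ← h2, ← map_smul] at h3
    have h5 := hES.1 h3
    exact ⟨congrArg Prod.fst h5, congrArg Prod.snd h5⟩
  have hUg : heckeULin 2 hqN (heckeULin 2 hqN g1) = g1 ∧
      heckeULin 2 hqN (heckeULin 2 hqN g2) = g2 := by
    have h3 := (Op.ofU hqN).compat (g1, g2)
    have h3' := (Op.ofU hqN).compat ((Op.ofU hqN).T g1, (Op.ofU hqN).T g2)
    rw [h3, h2] at h3'
    change ModularCurve.periodHomPair N (heckeULin 2 hqN (heckeULin 2 hqN g1),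
      heckeULin 2 hqN (heckeULin 2 hqN g2)) = (dataU q hqN).hom ℂ ((dataU q hqN).hom ℂ (th κ)) at h3'
    have h4 : (dataU q hqN).hom ℂ (th κ) = th (⟨Uo q κ.1, hU⟩ : MS ℂ (Gamma0 N)) := by
      refine AddMonoidHom.ext fun γ => ?_
      exact hom_th_dataU hqN κ (Additive.toMul γ)
    have h5 : (dataU q hqN).hom ℂ (th (⟨Uo q κ.1, hU⟩ : MS ℂ (Gamma0 N))) = th κ := by
      refine AddMonoidHom.ext fun γ => ?_
      have h6 := hom_th_dataU hqN (⟨Uo q κ.1, hU⟩ : MS ℂ (Gamma0 N)) (Additive.toMul γ)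
      refine h6.trans ?_
      change Uo q (Uo q κ.1) e1 _ = _
      rw [hUU]
      rfl
    rw [h4, h5, ← h2] at h3'
    have h7 := hES.1 h3'
    exact ⟨congrArg Prod.fst h7, congrArg Prod.snd h7⟩
  -- the eigenspace is nonzero
  set V := eigSub N q hqN good hg χ with hV
  have hVne : ∃ g ∈ V, g ≠ 0 := by
    by_cases hg1 : g1 = 0
    · refine ⟨g2, ⟨fun ℓ h => (hTg ℓ h).2, hUg.2⟩, ?_⟩
      intro hg2
      apply hκ
      rw [← h2, hg1, hg2]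
      exact map_zero _
    · exact ⟨g1, ⟨fun ℓ h => (hTg ℓ h).1, hUg.1⟩, hg1⟩
  obtain ⟨g0, hg0, hg0ne⟩ := hVne
  -- the action
  let ρ : heckeAlgebra N 2 (∅ : Set ℕ) →+* Module.End ℂ V :=
    { toFun := fun t => t.1.restrict (fun x hx => eigSub_stable hq hqN hg χ t hx)
      map_one' := by ext; rfl
      map_mul' := fun _ _ => by ext; rfl
      map_zero' := by ext; rfl
      map_add' := fun _ _ => by ext; rfl }
  have hρ : ∀ t (v : V), ((ρ t v : V) : CuspForm (Gamma0 N) 2) = t.1 v.1 := fun t v => rfl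
  have hker : RingHom.ker ρ ≠ ⊤ := by
    rw [Ne, Ideal.eq_top_iff_one, RingHom.mem_ker]
    intro h
    have h3 := LinearMap.congr_fun h ⟨g0, hg0⟩
    rw [map_one] at h3
    exact hg0ne (congrArg Subtype.val h3)
  obtain ⟨𝔪, h𝔪, hle⟩ := Ideal.exists_le_maximal _ hker
  have hfin : FiniteDimensional ℂ V := inferInstance
  obtain ⟨v, χ', hv0, hv, -⟩ := Fermat.Agent.DS.exists_common_eigenvector ρ 𝔪 h𝔪.isPrime
    (fun t ht => hle ((RingHom.mem_ker).mpr ht))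
  have hv' : ∀ t : heckeAlgebra N 2 (∅ : Set ℕ), t.1 v.1 = χ' t • v.1 := fun t => by
    rw [← hρ, hv]; rfl
  have hTv : ∀ (p : ℕ) (hp : p.Prime) (hpN : ¬ p ∣ N), heckeTLin 2 hp hpN v.1 =
      χ' (heckeAlgebra.T hp hpN (Set.notMem_empty p)) • v.1 := fun p hp hpN =>
    hv' (heckeAlgebra.T hp hpN (Set.notMem_empty p))
  have hUv : ∀ (p : ℕ) (hp : p.Prime) (hpN : p ∣ N), heckeULin 2 hpN v.1 =
      χ' (heckeAlgebra.U hp hpN (Set.notMem_empty p)) • v.1 := fun p hp hpN =>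
    hv' (heckeAlgebra.U hp hpN (Set.notMem_empty p))
  have hv0' : v.1 ≠ 0 := fun h => hv0 (Subtype.ext h)
  have hv1 : qCoeff v.1 1 ≠ 0 := Fermat.Agent.DS.qCoeff_one_ne_zero_of_eigen v.1 hv0'
    (fun p hp hpN => ⟨_, hTv p hp hpN⟩) (fun p hp hpN => ⟨_, hUv p hp hpN⟩)
  obtain ⟨g, hgdef⟩ : ∃ g : CuspForm (Gamma0 N) 2, g = (qCoeff v.1 1)⁻¹ • v.1 := ⟨_, rfl⟩
  have hgg1 : qCoeff (⇑g) 1 = 1 := by
    have := (coeffL N 2 1).map_smul (qCoeff v.1 1)⁻¹ v.1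
    simp only [coeffL_apply, smul_eq_mul] at this
    rw [hgdef, this, inv_mul_cancel₀ hv1]
  have hTg' : ∀ (p : ℕ) (hp : p.Prime) (hpN : ¬ p ∣ N), heckeTLin 2 hp hpN g =
      χ' (heckeAlgebra.T hp hpN (Set.notMem_empty p)) • g := fun p hp hpN => by
    rw [hgdef, map_smul, hTv p hp hpN, smul_comm]
  have hUg' : ∀ (p : ℕ) (hp : p.Prime) (hpN : p ∣ N), heckeULin 2 hpN g =
      χ' (heckeAlgebra.U hp hpN (Set.notMem_empty p)) • g := fun p hp hpN => by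
    rw [hgdef, map_smul, hUv p hp hpN, smul_comm]
  have hgn : g.IsNormalizedEigenform := Fermat.Agent.DS.isNormalizedEigenform_of_eigen g hgg1
    (fun p hp hpN => ⟨_, hTg' p hp hpN⟩) (fun p hp hpN => ⟨_, hUg' p hp hpN⟩)
  have hgV : g ∈ V := by rw [hgdef]; exact V.smul_mem _ v.2
  refine ⟨g, hgn, fun ℓ h => ?_, ?_⟩
  · have h3 := hgV.1 ℓ h
    rw [Fermat.Agent.HGModule.heckeTLin_eigen hgn] at h3
    have h4 := congrArg (coeffL N 2 1) h3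
    rw [map_smul, map_smul, coeffL_apply, hgg1, smul_eq_mul, smul_eq_mul, mul_one, mul_one] at h4
    exact h4
  · have h3 := hgV.2
    have h4 := hUg' q hq hqN
    rw [h4, map_smul, h4, smul_smul] at h3
    have h5 := congrArg (coeffL N 2 1) h3
    rw [map_smul, coeffL_apply, hgg1, smul_eq_mul, mul_one] at h5
    have h6 := congrArg (coeffL N 2 1) h4
    rw [map_smul, coeffL_apply, coeffL_apply, hgg1, smul_eq_mul, mul_one] at h6
    have h7 := Fermat.Agent.DS.qCoeff_heckeULin hq hqN g 1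
    rw [h6, one_mul] at h7
    rw [sq, ← h7]
    exact h5

end

end Fermat.Agent.LR
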