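import Fermat.Agent.LevelRaise.Vec

set_option autoImplicit false
set_option linter.unusedSectionVars false

/-!
Binary quadratic forms: the finiteness statements behind the intersection pairing.
-/

namespace Fermat.Agent.LR

open Matrix
open scoped MatrixGroups

/-- symmetric bilinear form with Gram matrix `(A, B; B, C)` -/
def bf (A B C : ℤ) (u v : ℤ × ℤ) : ℤ :=
  A * u.1 * v.1 + B * (u.1 * v.2 + u.2 * v.1) + C * u.2 * v.2

theorem bf_det (A B C : ℤ) (u v : ℤ × ℤ) :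
    bf A B C u u * bf A B C v v - bf A B C u v ^ 2 = (A * C - B ^ 2) * det2 u v ^ 2 := by
  simp only [bf, det2]; ring

theorem one_le_sq_of_ne_zero {u : ℤ × ℤ} (hu : u ≠ 0) : 1 ≤ u.1 ^ 2 ∨ 1 ≤ u.2 ^ 2 := by
  by_contra h
  push Not at h
  apply hu
  have h1 : u.1 ^ 2 = 0 := le_antisymm (by linarith [h.1]) (sq_nonneg _)
  have h2 : u.2 ^ 2 = 0 := le_antisymm (by linarith [h.2]) (sq_nonneg _)
  exact Prod.ext (by simpa using h1) (by simpa using h2)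

theorem abs_le_of_sq_le {x M : ℤ} (h : x ^ 2 ≤ M) : |x| ≤ M := by
  rw [← sq_abs] at h
  rcases eq_or_ne |x| 0 with h0 | h0
  · rw [h0] at h ⊢; linarith
  · have h1 : 1 ≤ |x| := Int.one_le_abs (by simpa using h0)
    have h2 : |x| * 1 ≤ |x| * |x| := mul_le_mul_of_nonneg_left h1 (abs_nonneg x)
    rw [mul_one, ← sq] at h2
    exact h2.trans h

theorem le_of_mul_sq_le {x y M : ℤ} (h : x ^ 2 * y ^ 2 ≤ M) (hy : 1 ≤ y ^ 2) : x ^ 2 ≤ M := by
  have h1 : x ^ 2 * 1 ≤ x ^ 2 * y ^ 2 := mul_le_mul_of_nonneg_left hy (sq_nonneg x)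
  rw [mul_one] at h1
  exact h1.trans h

theorem le_of_mul_sq_le' {x y M : ℤ} (h : y ^ 2 * x ^ 2 ≤ M) (hy : 1 ≤ y ^ 2) : x ^ 2 ≤ M := by
  rw [mul_comm] at h
  exact le_of_mul_sq_le h hy

theorem abs_comb_le {s t A₁ A₂ : ℤ} (hs0 : 0 ≤ s) (ht0 : 0 ≤ t) :
    |s * A₁ + t * A₂| ≤ (s + t) * (|A₁| + |A₂|) := by
  calc |s * A₁ + t * A₂| ≤ |s * A₁| + |t * A₂| := abs_add_le _ _
    _ = s * |A₁| + t * |A₂| := by rw [abs_mul, abs_mul, abs_of_nonneg hs0, abs_of_nonneg ht0]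
    _ ≤ (s + t) * (|A₁| + |A₂|) := by
        have e1 := mul_nonneg hs0 (abs_nonneg A₂)
        have e2 := mul_nonneg ht0 (abs_nonneg A₁)
        linarith

theorem det_comb_le {s t A₁ A₂ B₁ B₂ C₁ C₂ : ℤ} (hs0 : 0 ≤ s) (ht0 : 0 ≤ t) :
    (s * A₁ + t * A₂) * (s * C₁ + t * C₂) - (s * B₁ + t * B₂) ^ 2 ≤
      (|A₁| + |A₂|) * (|C₁| + |C₂|) * (s + t) ^ 2 := by
  have e4 : (s * A₁ + t * A₂) * (s * C₁ + t * C₂) ≤ |s * A₁ + t * A₂| * |s * C₁ + t * C₂| := by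
    rw [← abs_mul]; exact le_abs_self _
  have e5 : |s * A₁ + t * A₂| * |s * C₁ + t * C₂| ≤
      ((s + t) * (|A₁| + |A₂|)) * ((s + t) * (|C₁| + |C₂|)) :=
    mul_le_mul (abs_comb_le hs0 ht0) (abs_comb_le hs0 ht0) (abs_nonneg _)
      (le_trans (abs_nonneg _) (abs_comb_le hs0 ht0))
  have e6 : ((s + t) * (|A₁| + |A₂|)) * ((s + t) * (|C₁| + |C₂|)) =
      (|A₁| + |A₂|) * (|C₁| + |C₂|) * (s + t) ^ 2 := by ring
  have e7 := sq_nonneg (s * B₁ + t * B₂)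
  linarith

theorem exists_comb_zero {a b : ℤ} (hs : a.sign ≠ b.sign) :
    0 < |b| + |a| ∧ |b| * a + |a| * b = 0 := by
  constructor
  · by_contra hcon
    have hs0 : 0 ≤ |b| := abs_nonneg b
    have ht0 : 0 ≤ |a| := abs_nonneg a
    have e1 : |b| = 0 := by linarith
    have e2 : |a| = 0 := by linarith
    rw [abs_eq_zero] at e1 e2
    exact hs (by rw [e1, e2])
  · rcases lt_trichotomy a 0 with h | h | h
    · rcases lt_trichotomy b 0 with h' | h' | h'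
      · exact absurd (by rw [Int.sign_eq_neg_one_of_neg h, Int.sign_eq_neg_one_of_neg h']) hs
      · rw [h']; simp
      · rw [abs_of_neg h, abs_of_pos h']; ring
    · rw [h]; simp
    · rcases lt_trichotomy b 0 with h' | h' | h'
      · rw [abs_of_pos h, abs_of_neg h']; ring
      · rw [h']; simp
      · exact absurd (by rw [Int.sign_eq_one_of_pos h, Int.sign_eq_one_of_pos h']) hs

/-- two positive definite forms take values of the same sign at all but finitely many pairs of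
integral vectors of given determinant. -/
theorem exists_bound_sign {A₁ B₁ C₁ A₂ B₂ C₂ K : ℤ} (hK : 0 < K)
    (h1 : ∀ u : ℤ × ℤ, u.1 ^ 2 ≤ K * bf A₁ B₁ C₁ u u ∧ u.2 ^ 2 ≤ K * bf A₁ B₁ C₁ u u)
    (h2 : ∀ u : ℤ × ℤ, u.1 ^ 2 ≤ K * bf A₂ B₂ C₂ u u ∧ u.2 ^ 2 ≤ K * bf A₂ B₂ C₂ u u) (D : ℤ) :
    ∃ M : ℤ, ∀ u v : ℤ × ℤ, u ≠ 0 → v ≠ 0 → det2 u v = D →
      (bf A₁ B₁ C₁ u v).sign ≠ (bf A₂ B₂ C₂ u v).sign →
      (|u.1| ≤ M ∧ |u.2| ≤ M) ∧ (|v.1| ≤ M ∧ |v.2| ≤ M) := by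
  refine ⟨K ^ 2 * ((|A₁| + |A₂|) * (|C₁| + |C₂|)) * D ^ 2, fun u v hu hv hD hs => ?_⟩
  obtain ⟨hpos, hzero⟩ := exists_comb_zero hs
  generalize hE : (|A₁| + |A₂|) * (|C₁| + |C₂|) = E
  have hs0 : 0 ≤ |bf A₂ B₂ C₂ u v| := abs_nonneg _
  have ht0 : 0 ≤ |bf A₁ B₁ C₁ u v| := abs_nonneg _
  generalize hs' : |bf A₂ B₂ C₂ u v| = s at *
  generalize ht' : |bf A₁ B₁ C₁ u v| = t at *
  -- the combined form
  have hR : ∀ w z : ℤ × ℤ, bf (s * A₁ + t * A₂) (s * B₁ + t * B₂) (s * C₁ + t * C₂) w z =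
      s * bf A₁ B₁ C₁ w z + t * bf A₂ B₂ C₂ w z := by
    intro w z; simp only [bf]; ring
  have hdet := bf_det (s * A₁ + t * A₂) (s * B₁ + t * B₂) (s * C₁ + t * C₂) u v
  rw [hR u v, hzero, hD] at hdet
  have hlow : ∀ w : ℤ × ℤ,
      (s + t) * w.1 ^ 2 ≤ K * (bf (s * A₁ + t * A₂) (s * B₁ + t * B₂) (s * C₁ + t * C₂) w w) ∧
      (s + t) * w.2 ^ 2 ≤ K * (bf (s * A₁ + t * A₂) (s * B₁ + t * B₂) (s * C₁ + t * C₂) w w) := by
    intro w
    rw [hR]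
    have e1 := h1 w
    have e2 := h2 w
    constructor
    · have e3 := mul_le_mul_of_nonneg_left e1.1 hs0
      have e4 := mul_le_mul_of_nonneg_left e2.1 ht0
      linarith
    · have e3 := mul_le_mul_of_nonneg_left e1.2 hs0
      have e4 := mul_le_mul_of_nonneg_left e2.2 ht0
      linarith
  have hlu := hlow u
  have hlv := hlow v
  generalize bf (s * A₁ + t * A₂) (s * B₁ + t * B₂) (s * C₁ + t * C₂) u u = Ru at *
  generalize bf (s * A₁ + t * A₂) (s * B₁ + t * B₂) (s * C₁ + t * C₂) v v = Rv at *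
  have hup : Ru * Rv ≤ E * (s + t) ^ 2 * D ^ 2 := by
    have e1 : Ru * Rv = ((s * A₁ + t * A₂) * (s * C₁ + t * C₂) - (s * B₁ + t * B₂) ^ 2) * D ^ 2 := by
      linear_combination hdet
    rw [e1, ← hE]
    exact mul_le_mul_of_nonneg_right (det_comb_le hs0 ht0) (sq_nonneg D)
  have hst' : 0 < s + t := hpos
  have hst : 0 < (s + t) ^ 2 := by positivity
  -- key inequality
  have key : ∀ x y : ℤ, (s + t) * x ^ 2 ≤ K * Ru → (s + t) * y ^ 2 ≤ K * Rv →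
      x ^ 2 * y ^ 2 ≤ K ^ 2 * E * D ^ 2 := by
    intro x y hx hy
    have e1 : ((s + t) * x ^ 2) * ((s + t) * y ^ 2) ≤ (K * Ru) * (K * Rv) :=
      mul_le_mul hx hy (mul_nonneg hst'.le (sq_nonneg _))
        (le_trans (mul_nonneg hst'.le (sq_nonneg _)) hx)
    have e2 : (K * Ru) * (K * Rv) ≤ K ^ 2 * (E * (s + t) ^ 2 * D ^ 2) := by
      have : (K * Ru) * (K * Rv) = K ^ 2 * (Ru * Rv) := by ring
      rw [this]
      exact mul_le_mul_of_nonneg_left hup (sq_nonneg K)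
    have e3 : (s + t) ^ 2 * (x ^ 2 * y ^ 2) ≤ (s + t) ^ 2 * (K ^ 2 * E * D ^ 2) := by
      have e4 := e1.trans e2
      have e5 : ((s + t) * x ^ 2) * ((s + t) * y ^ 2) = (s + t) ^ 2 * (x ^ 2 * y ^ 2) := by ring
      have e6 : K ^ 2 * (E * (s + t) ^ 2 * D ^ 2) = (s + t) ^ 2 * (K ^ 2 * E * D ^ 2) := by ring
      rw [e5, e6] at e4
      exact e4
    exact le_of_mul_le_mul_left e3 hst
  have hv' := one_le_sq_of_ne_zero hv
  have hu' := one_le_sq_of_ne_zero hu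
  refine ⟨⟨abs_le_of_sq_le ?_, abs_le_of_sq_le ?_⟩, ⟨abs_le_of_sq_le ?_, abs_le_of_sq_le ?_⟩⟩
  · rcases hv' with h | h
    · exact le_of_mul_sq_le (key _ _ hlu.1 hlv.1) h
    · exact le_of_mul_sq_le (key _ _ hlu.1 hlv.2) h
  · rcases hv' with h | h
    · exact le_of_mul_sq_le (key _ _ hlu.2 hlv.1) h
    · exact le_of_mul_sq_le (key _ _ hlu.2 hlv.2) h
  · rcases hu' with h | h
    · exact le_of_mul_sq_le' (key _ _ hlu.1 hlv.1) h
    · exact le_of_mul_sq_le' (key _ _ hlu.2 hlv.1) h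
  · rcases hu' with h | h
    · exact le_of_mul_sq_le' (key _ _ hlu.1 hlv.2) h
    · exact le_of_mul_sq_le' (key _ _ hlu.2 hlv.2) h

theorem obtuse_aux {x y z T : ℤ} (hx0 : 0 ≤ x) (hy0 : 0 ≤ y) (hz0 : 0 ≤ z) (p3 : 1 ≤ y + z)
    (e4 : x * y + x * z + y * z = T) : x ≤ T := by
  have h1 : x * 1 ≤ x * (y + z) := mul_le_mul_of_nonneg_left p3 hx0
  have h2 := mul_nonneg hy0 hz0
  linarith

/-- finiteness of the number of obtuse superbases of given determinant. -/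
theorem exists_bound_obtuse {A B C K : ℤ} (hK : 0 < K)
    (h1 : ∀ u : ℤ × ℤ, u.1 ^ 2 ≤ K * bf A B C u u ∧ u.2 ^ 2 ≤ K * bf A B C u u) (D : ℤ) :
    ∃ M : ℤ, ∀ u v w : ℤ × ℤ, u ≠ 0 → v ≠ 0 → w ≠ 0 → u + v + w = 0 → det2 u v = D →
      bf A B C u v ≤ 0 → bf A B C v w ≤ 0 → bf A B C w u ≤ 0 →
      (|u.1| ≤ M ∧ |u.2| ≤ M) ∧ (|v.1| ≤ M ∧ |v.2| ≤ M) := by
  refine ⟨K * (2 * ((A * C - B ^ 2) * D ^ 2)), fun u v w hu hv hw huvw hD hxy hyz hzx => ?_⟩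
  have pos : ∀ z : ℤ × ℤ, z ≠ 0 → 1 ≤ bf A B C z z := by
    intro z hz
    have hpos : 0 < K * bf A B C z z := by
      rcases one_le_sq_of_ne_zero hz with h | h
      · have := (h1 z).1; linarith
      · have := (h1 z).2; linarith
    exact (pos_iff_pos_of_mul_pos hpos).mp hK
  have hw1 : w.1 = -u.1 - v.1 := by
    have := congrArg Prod.fst huvw
    simp only [Prod.fst_add, Prod.fst_zero] at this
    linarith
  have hw2 : w.2 = -u.2 - v.2 := by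
    have := congrArg Prod.snd huvw
    simp only [Prod.snd_add, Prod.snd_zero] at this
    linarith
  have hdet := bf_det A B C u v
  rw [hD] at hdet
  have p1 := pos u hu
  have p2 := pos v hv
  have p3 := pos w hw
  have e1 : bf A B C u u = -bf A B C u v + -bf A B C w u := by
    simp only [bf, hw1, hw2]; ring
  have e2 : bf A B C v v = -bf A B C u v + -bf A B C v w := by
    simp only [bf, hw1, hw2]; ring
  have e3 : bf A B C w w = -bf A B C v w + -bf A B C w u := by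
    simp only [bf, hw1, hw2]; ring
  have hu1 := h1 u
  have hv1 := h1 v
  rw [e1] at p1 hdet hu1
  rw [e2] at p2 hdet hv1
  rw [e3] at p3
  have hx0 : 0 ≤ -bf A B C u v := by linarith
  have hy0 : 0 ≤ -bf A B C v w := by linarith
  have hz0 : 0 ≤ -bf A B C w u := by linarith
  have e5 : bf A B C u v = -(-bf A B C u v) := by ring
  generalize -bf A B C u v = x at *
  generalize -bf A B C v w = y at *
  generalize -bf A B C w u = z at *
  rw [e5] at hdet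
  generalize (A * C - B ^ 2) * D ^ 2 = T at *
  have e4 : x * y + x * z + y * z = T := by linear_combination hdet
  have hxT : x ≤ T := obtuse_aux hx0 hy0 hz0 p3 e4
  have hyT : y ≤ T := obtuse_aux hy0 hz0 hx0 (by linarith) (by linear_combination e4)
  have hzT : z ≤ T := obtuse_aux hz0 hx0 hy0 (by linarith) (by linear_combination e4)
  have f1 : K * (x + z) ≤ K * (2 * T) := mul_le_mul_of_nonneg_left (by linarith) hK.le
  have f2 : K * (x + y) ≤ K * (2 * T) := mul_le_mul_of_nonneg_left (by linarith) hK.le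
  exact ⟨⟨abs_le_of_sq_le (hu1.1.trans f1), abs_le_of_sq_le (hu1.2.trans f1)⟩,
    ⟨abs_le_of_sq_le (hv1.1.trans f2), abs_le_of_sq_le (hv1.2.trans f2)⟩⟩

theorem finite_box (M : ℤ) :
    {x : (ℤ × ℤ) × (ℤ × ℤ) | (|x.1.1| ≤ M ∧ |x.1.2| ≤ M) ∧ (|x.2.1| ≤ M ∧ |x.2.2| ≤ M)}.Finite := by
  have h : (Set.Icc ((-M, -M), (-M, -M)) ((M, M), (M, M)) : Set ((ℤ × ℤ) × (ℤ × ℤ))).Finite :=
    Set.finite_Icc _ _
  refine h.subset ?_
  rintro ⟨⟨a, b⟩, ⟨c, d⟩⟩ ⟨⟨h1, h2⟩, h3, h4⟩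
  rw [abs_le] at h1 h2 h3 h4
  exact ⟨⟨⟨h1.1, h2.1⟩, ⟨h3.1, h4.1⟩⟩, ⟨⟨h1.2, h2.2⟩, ⟨h3.2, h4.2⟩⟩⟩

end Fermat.Agent.LR
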