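import Mathlib
import Fermat.Agent.QuadRep.RootsOfUnity
import Fermat.Agent.QuadRep.Cyclo

set_option autoImplicit false
set_option linter.unusedSectionVars false
set_option linter.style.haveILetI false

/-!
Complex conjugation, roots of unity and `q ^ (1 / p)`.
-/

namespace Fermat.Agent.LRGal

local notation "Qb" => AlgebraicClosure ℚ
local notation "GQ" => AlgebraicClosure ℚ ≃ₐ[ℚ] AlgebraicClosure ℚ

noncomputable section

/-- complex conjugation -/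
theorem exists_conj : ∃ c : GQ, c * c = 1 ∧
    ∀ (n : ℕ), 0 < n → ∀ ζ : Qb, ζ ^ n = 1 → c ζ = ζ⁻¹ := by
  let ι : Qb →ₐ[ℚ] ℂ := IsAlgClosed.lift
  letI : Algebra Qb ℂ := ι.toRingHom.toAlgebra
  haveI : IsScalarTower ℚ Qb ℂ := IsScalarTower.of_algebraMap_eq' (RingHom.ext fun x => by simp)
  let c : GQ := (Complex.conjAe.restrictScalars ℚ).restrictNormal Qb
  have hc : ∀ x, ι (c x) = (starRingEnd ℂ) (ι x) := fun x =>
    AlgEquiv.restrictNormal_commutes (Complex.conjAe.restrictScalars ℚ) Qb x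
  refine ⟨c, ?_, ?_⟩
  · refine AlgEquiv.ext fun x => ?_
    apply ι.injective
    change ι (c (c x)) = ι x
    rw [hc, hc, Complex.conj_conj]
  · intro n hn ζ hζ
    apply ι.injective
    change ι (c ζ) = ι ζ⁻¹
    rw [hc, map_inv₀]
    have h1 : ‖ι ζ‖ = 1 := by
      have h3 : (ι ζ) ^ n = 1 := by rw [← map_pow, hζ, map_one]
      exact Complex.norm_eq_one_of_pow_eq_one h3 hn.ne'
    rw [Complex.inv_def, Complex.normSq_eq_norm_sq, h1]
    simp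

/-- the subgroup acting trivially on the `M`-th roots of unity -/
def fixMu (M : ℕ) : Subgroup GQ where
  carrier := {σ | ∀ ζ : Qb, ζ ^ M = 1 → σ ζ = ζ}
  one_mem' := fun _ _ => rfl
  mul_mem' := by
    intro a b ha hb ζ hζ
    change a (b ζ) = ζ
    rw [hb ζ hζ, ha ζ hζ]
  inv_mem' := by
    intro a ha ζ hζ
    change a.symm ζ = ζ
    rw [AlgEquiv.symm_apply_eq]
    exact (ha ζ hζ).symm

theorem mem_fixMu {M : ℕ} {σ : GQ} : σ ∈ fixMu M ↔ ∀ ζ : Qb, ζ ^ M = 1 → σ ζ = ζ := Iff.rfl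

theorem inv_apply_self (σ : GQ) (x : Qb) : σ⁻¹ (σ x) = x := σ.symm_apply_apply x
theorem apply_inv_self (σ : GQ) (x : Qb) : σ (σ⁻¹ x) = x := σ.apply_symm_apply x

theorem conj_mem_fixMu {M : ℕ} {κ : GQ} (h : κ ∈ fixMu M) (σ : GQ) : σ * κ * σ⁻¹ ∈ fixMu M := by
  intro ζ hζ
  change σ (κ (σ⁻¹ ζ)) = ζ
  rw [h (σ⁻¹ ζ) (by rw [← map_pow, hζ, map_one]), apply_inv_self]

theorem comm_mem_fixMu {M : ℕ} (hM : 0 < M) (σ τ : GQ) : (τ * σ)⁻¹ * (σ * τ) ∈ fixMu M := by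
  have : NeZero M := ⟨hM.ne'⟩
  obtain ⟨ζ₀, hζ₀⟩ := HasEnoughRootsOfUnity.exists_primitiveRoot (AlgebraicClosure ℚ) M
  have hpow : ∀ s : GQ, ∃ i : ℕ, s ζ₀ = ζ₀ ^ i := by
    intro s
    obtain ⟨i, -, hi⟩ := hζ₀.eq_pow_of_pow_eq_one
      (show (s ζ₀) ^ M = 1 by rw [← map_pow, hζ₀.pow_eq_one, map_one])
    exact ⟨i, hi.symm⟩
  obtain ⟨i, hi⟩ := hpow σ
  obtain ⟨j, hj⟩ := hpow τ
  have h1 : σ (τ ζ₀) = τ (σ ζ₀) := by
    rw [hi, hj, map_pow, map_pow, hi, hj, ← pow_mul, ← pow_mul, mul_comm]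
  intro ζ hζ
  obtain ⟨k, -, hk⟩ := hζ₀.eq_pow_of_pow_eq_one hζ
  rw [← hk, map_pow]
  congr 1
  change (τ * σ)⁻¹ (σ (τ ζ₀)) = ζ₀
  rw [h1]
  exact inv_apply_self (τ * σ) ζ₀

theorem not_all_fixed_rat {p q : ℕ} (hp : p.Prime) (hq : q.Prime) {α : Qb} (hα : α ^ p = q) :
    ∃ τ : GQ, τ α ≠ α := by
  by_contra hcon
  push Not at hcon
  have h1 : α ∈ (⊥ : IntermediateField ℚ Qb) := by
    rw [InfiniteGalois.mem_bot_iff_fixed]
    exact hcon
  obtain ⟨a, ha⟩ := IntermediateField.mem_bot.mp h1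
  have h2 : a ^ p = (q : ℚ) := by
    have h3 : algebraMap ℚ Qb (a ^ p) = algebraMap ℚ Qb (q : ℚ) := by
      rw [map_pow, ha, hα, map_natCast]
    exact (algebraMap ℚ Qb).injective h3
  have : Fact q.Prime := ⟨hq⟩
  have h4 : (p : ℤ) * padicValRat q a = 1 := by
    have h5 : padicValRat q (a ^ p) = p * padicValRat q a := padicValRat.pow a
    rw [← h5, h2, padicValRat.of_nat, padicValNat_self]
    rfl
  have h6 : (p : ℤ) ∣ 1 := ⟨_, h4.symm⟩
  exact hp.one_lt.ne' (Nat.dvd_one.mp (by exact_mod_cast h6))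

/-- a `p`-th root of `q` fixed by complex conjugation -/
theorem exists_alpha {p q : ℕ} (hp : p.Prime) (hp2 : p ≠ 2) (hq : q.Prime) {c : GQ}
    (hc : ∀ (n : ℕ), 0 < n → ∀ ζ : Qb, ζ ^ n = 1 → c ζ = ζ⁻¹) :
    ∃ α : Qb, α ^ p = q ∧ c α = α := by
  obtain ⟨β, hβ⟩ := IsAlgClosed.exists_pow_nat_eq (q : Qb) hp.pos
  have hβ0 : β ≠ 0 := by
    rintro rfl
    rw [zero_pow hp.ne_zero] at hβ
    exact hq.ne_zero (by exact_mod_cast hβ.symm)
  set η := c β / β with hη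
  have hη1 : η ^ p = 1 := by
    rw [hη, div_pow, ← map_pow, hβ, map_natCast, div_self]
    exact_mod_cast hq.ne_zero
  have hcβ : c β = η * β := by rw [hη, div_mul_cancel₀ _ hβ0]
  obtain ⟨m, hm⟩ : ∃ m, p + 1 = 2 * m := by
    have := (hp.odd_of_ne_two hp2).add_one
    obtain ⟨m, hm⟩ := this
    exact ⟨m, by omega⟩
  have hη0 : η ≠ 0 := by
    intro h
    rw [h, zero_pow hp.ne_zero] at hη1
    exact zero_ne_one hη1
  refine ⟨η ^ m * β, ?_, ?_⟩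
  · rw [mul_pow, ← pow_mul, mul_comm m p, pow_mul, hη1, one_pow, one_mul, hβ]
  · rw [map_mul, map_pow, hc p hp.pos η hη1, hcβ, ← mul_assoc]
    congr 1
    have h1 : η ^ m * η ^ m = η := by
      rw [← pow_add, ← two_mul, ← hm, pow_succ, hη1, one_mul]
    have h2 : η⁻¹ ^ m * η = η⁻¹ ^ m * (η ^ m * η ^ m) := by rw [h1]
    rw [h2, ← mul_assoc, ← mul_pow, inv_mul_cancel₀ hη0, one_pow, one_mul]

/-- `q ^ (1 / p)` is not cyclotomic -/
theorem exists_tau {p q M : ℕ} (hp : p.Prime) (hp2 : p ≠ 2) (hq : q.Prime) (hM : 0 < M)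
    {c : GQ} (hc : ∀ (n : ℕ), 0 < n → ∀ ζ : Qb, ζ ^ n = 1 → c ζ = ζ⁻¹)
    {α : Qb} (hα : α ^ p = q) (hcα : c α = α) : ∃ τ ∈ fixMu M, τ α ≠ α := by
  by_contra hcon
  push Not at hcon
  obtain ⟨τ, hτ⟩ := not_all_fixed_rat hp hq hα
  have hα0 : α ≠ 0 := by
    rintro rfl
    rw [zero_pow hp.ne_zero] at hα
    exact hq.ne_zero (by exact_mod_cast hα.symm)
  set η := τ α / α with hη
  have hη1 : η ^ p = 1 := by
    rw [hη, div_pow, ← map_pow, hα, map_natCast, div_self]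
    exact_mod_cast hq.ne_zero
  have hτα : τ α = η * α := by rw [hη, div_mul_cancel₀ _ hα0]
  have hη0 : η ≠ 0 := by
    intro h
    rw [h, zero_pow hp.ne_zero] at hη1
    exact zero_ne_one hη1
  have h1 := hcon _ (comm_mem_fixMu hM c τ)
  have h2 : c (τ α) = τ (c α) := by
    have h3 : (τ * c) (((τ * c)⁻¹ * (c * τ)) α) = (τ * c) α := by rw [h1]
    have h4 : (τ * c) (((τ * c)⁻¹ * (c * τ)) α) = c (τ α) := apply_inv_self (τ * c) _
    rw [h4] at h3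
    exact h3
  rw [hcα, hτα, map_mul, hcα, hc p hp.pos η hη1] at h2
  have h3 : η⁻¹ = η := mul_right_cancel₀ hα0 h2
  have h4 : η ^ 2 = 1 := by
    rw [sq]
    nth_rewrite 1 [← h3]
    exact inv_mul_cancel₀ hη0
  have h5 : η = 1 := by
    obtain ⟨k, hk⟩ := hp.odd_of_ne_two hp2
    rw [hk, pow_succ, pow_mul, h4, one_pow, one_mul] at hη1
    exact hη1
  apply hτ
  rw [hτα, h5, one_mul]

theorem eta_spec {p q : ℕ} (hp : p.Prime) (hq : q.Prime) {α : Qb} (hα : α ^ p = q) (σ : GQ) :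
    ∃ η : Qb, η ^ p = 1 ∧ σ α = η * α := by
  have hα0 : α ≠ 0 := by
    rintro rfl
    rw [zero_pow hp.ne_zero] at hα
    exact hq.ne_zero (by exact_mod_cast hα.symm)
  refine ⟨σ α / α, ?_, by rw [div_mul_cancel₀ _ hα0]⟩
  rw [div_pow, ← map_pow, hα, map_natCast, div_self]
  exact_mod_cast hq.ne_zero

/-- elements of `fixMu M` moving `α` -/
theorem moves {p q M : ℕ} (hp : p.Prime) (hp2 : p ≠ 2) (hq : q.Prime) (hpM : p ∣ M) {α : Qb}
    (hα : α ^ p = q) {σ τ : GQ} (hσ : σ ∈ fixMu M) (hτ : τ ∈ fixMu M) (hσα : σ α = α)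
    (hτα : τ α ≠ α) : (σ * τ) α ≠ α ∧ (σ * τ * τ) α ≠ α := by
  have hα0 : α ≠ 0 := by
    rintro rfl
    rw [zero_pow hp.ne_zero] at hα
    exact hq.ne_zero (by exact_mod_cast hα.symm)
  obtain ⟨η, hη1, hη⟩ := eta_spec hp hq hα τ
  have hηM : η ^ M = 1 := by
    obtain ⟨k, rfl⟩ := hpM
    rw [pow_mul, hη1, one_pow]
  have e1 : (σ * τ) α = η * α := by
    change σ (τ α) = _
    rw [hη, map_mul, hσα, hσ η hηM]
  have e2 : (σ * τ * τ) α = η * η * α := by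
    change σ (τ (τ α)) = _
    rw [hη, map_mul, hτ η hηM, hη, map_mul, map_mul, hσα, hσ η hηM, mul_assoc]
  refine ⟨?_, ?_⟩
  · rw [e1, ← hη]; exact hτα
  · rw [e2]
    intro h
    have h3 : η * η = 1 := mul_right_cancel₀ hα0 (by rw [h, one_mul])
    apply hτα
    have h5 : η = 1 := by
      obtain ⟨k, hk⟩ := hp.odd_of_ne_two hp2
      rw [hk, pow_succ, pow_mul, sq, h3, one_pow, one_mul] at hη1
      exact hη1
    rw [hη, h5, one_mul]

end

end Fermat.Agent.LRGal
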