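import Fermat.Agent.LevelRaise.GalKummer
import Fermat.Agent.ERep.Trace

set_option autoImplicit false
set_option linter.unusedSectionVars false
set_option linter.style.haveILetI false

/-!
The mod `p` representation of an elliptic curve is not unipotent on the Galois group of a
cyclotomic field.
-/

namespace Fermat.Agent.LRGal

noncomputable section

section Abstract

variable {G V : Type*} [Group G] [AddCommGroup V] [DistribMulAction G V]

theorem trivial_of_unipotent [Finite V] [Nontrivial V] {p : ℕ} [hp : Fact p.Prime]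
    (hpV : ∀ x : V, p • x = 0) (H : Subgroup G) (hH : ∀ κ ∈ H, ∀ σ, σ⁻¹ * κ * σ ∈ H)
    (hirr : ∀ N : AddSubgroup V, (∀ (σ : G), ∀ x ∈ N, σ • x ∈ N) → N = ⊥ ∨ N = ⊤)
    (hu : ∀ σ ∈ H, ∀ x : V, σ • σ • x - (2 : ℤ) • σ • x + x = 0) :
    ∀ σ ∈ H, ∀ x : V, σ • x = x := by
  -- powers
  have hpow : ∀ σ ∈ H, ∀ (k : ℕ) (x : V), σ ^ k • x = x + k • (σ • x - x) := by
    intro σ hσ k
    induction k with
    | zero => intro x; simp
    | succ k ih =>
      intro x
      rw [pow_succ, mul_smul, ih]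
      have h1 : σ • σ • x - σ • x = σ • x - x := by
        have h2 := hu σ hσ x
        rw [two_smul] at h2
        rw [← sub_eq_zero, ← h2]
        abel
      rw [h1, succ_nsmul]
      abel
  have hpp : ∀ σ ∈ H, ∀ x : V, σ ^ p • x = x := by
    intro σ hσ x
    rw [hpow σ hσ, hpV, add_zero]
  -- the image
  set P : Subgroup (Equiv.Perm V) := H.map (MulAction.toPermHom G V) with hP
  have hPG : IsPGroup p P := by
    rintro ⟨g, σ, hσ, rfl⟩
    refine ⟨1, Subtype.ext ?_⟩
    rw [pow_one]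
    change (MulAction.toPermHom G V σ) ^ p = 1
    rw [← map_pow]
    ext x
    exact hpp σ hσ x
  have hcard := hPG.card_modEq_card_fixedPoints V
  -- `p` divides the order of `V`
  have hpdvd : p ∣ Nat.card V := by
    obtain ⟨x, hx⟩ := exists_ne (0 : V)
    have h1 : addOrderOf x = p := addOrderOf_eq_prime (hpV x) hx
    rw [← h1]
    exact addOrderOf_dvd_natCard x
  have hpdvd' : p ∣ Nat.card (MulAction.fixedPoints P V) :=
    (Nat.modEq_zero_iff_dvd.mp (hcard.symm.trans (Nat.modEq_zero_iff_dvd.mpr hpdvd)))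
  have hfix : ∀ x : V, x ∈ MulAction.fixedPoints P V ↔ ∀ σ ∈ H, σ • x = x := by
    intro x
    constructor
    · intro h σ hσ
      exact h ⟨MulAction.toPermHom G V σ, σ, hσ, rfl⟩
    · rintro h ⟨g, σ, hσ, rfl⟩
      exact h σ hσ
  have h0 : (0 : V) ∈ MulAction.fixedPoints P V := (hfix 0).mpr fun σ _ => smul_zero σ
  have hex : ∃ x : V, x ≠ 0 ∧ ∀ σ ∈ H, σ • x = x := by
    by_contra hcon
    push Not at hcon
    have h1 : Nat.card (MulAction.fixedPoints P V) = 1 := by
      rw [Nat.card_eq_one_iff_unique]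
      refine ⟨⟨?_⟩, ⟨⟨0, h0⟩⟩⟩
      have : ∀ y : MulAction.fixedPoints P V, (y : V) = 0 := by
        rintro ⟨y, hy⟩
        by_contra hne
        obtain ⟨σ, hσ, h2⟩ := hcon y hne
        exact h2 ((hfix y).mp hy σ hσ)
      intro a b
      exact Subtype.ext ((this a).trans (this b).symm)
    rw [h1] at hpdvd'
    exact hp.out.one_lt.ne' (Nat.dvd_one.mp hpdvd')
  let N : AddSubgroup V :=
    { carrier := {x | ∀ σ ∈ H, σ • x = x}
      zero_mem' := fun σ _ => smul_zero σ
      add_mem' := fun {a b} ha hb σ hσ => by rw [smul_add, ha σ hσ, hb σ hσ]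
      neg_mem' := fun {a} ha σ hσ => by rw [smul_neg, ha σ hσ] }
  have hN : ∀ x, x ∈ N ↔ ∀ σ ∈ H, σ • x = x := fun x => Iff.rfl
  rcases hirr N (fun σ x hx κ hκ => by
    have h1 : κ • σ • x = σ • (σ⁻¹ * κ * σ) • x := by
      rw [smul_smul, smul_smul]
      congr 1
      group
    rw [h1, hx _ (hH κ hκ σ)]) with h | h
  · obtain ⟨x, hx0, hx⟩ := hex
    have : x ∈ N := hx
    rw [h] at this
    exact absurd (AddSubgroup.mem_bot.mp this) hx0
  · intro σ hσ x
    have : x ∈ N := by rw [h]; trivial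
    exact this σ hσ

theorem scalar_of_comm (c : G) (hc : c * c = 1)
    (hirr : ∀ N : AddSubgroup V, (∀ (σ : G), ∀ x ∈ N, σ • x ∈ N) → N = ⊥ ∨ N = ⊤)
    (hcomm : ∀ (σ : G) (x : V), c • σ • x = σ • c • x) :
    (∀ x : V, c • x = x) ∨ ∀ x : V, c • x = - x := by
  let N : AddSubgroup V :=
    { carrier := {x | c • x = x}
      zero_mem' := smul_zero c
      add_mem' := fun {a b} (ha : c • a = a) (hb : c • b = b) => by
        change c • (a + b) = a + b
        rw [smul_add, ha, hb]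
      neg_mem' := fun {a} (ha : c • a = a) => by
        change c • (-a) = -a
        rw [smul_neg, ha] }
  rcases hirr N (fun σ x (hx : c • x = x) => by
    change c • σ • x = σ • x
    rw [hcomm, hx]) with h | h
  · right
    intro x
    have h1 : x + c • x ∈ N := by
      change c • (x + c • x) = x + c • x
      rw [smul_add, smul_smul, hc, one_smul, add_comm]
    rw [h, AddSubgroup.mem_bot] at h1
    rw [eq_neg_iff_add_eq_zero, add_comm]
    exact h1
  · left
    intro x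
    have : x ∈ N := by rw [h]; trivial
    exact this

end Abstract

open WeierstrassCurve WeierstrassCurve.Affine WeierstrassCurve.Affine.Point
open Fermat.Agent.Tate Fermat.Agent.QuadRep Fermat.Agent.ERep

local notation "Qb" => AlgebraicClosure ℚ
local notation "GQ" => AlgebraicClosure ℚ ≃ₐ[ℚ] AlgebraicClosure ℚ

section Curve

variable (E : WeierstrassCurve ℚ) [E.IsElliptic] (p : ℕ) [hp : Fact p.Prime]

/-- the trace mod `p` -/
def tbar (σ : GQ) : ZMod p := PadicInt.toZMod (trE E p σ)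

/-- the cyclotomic character mod `p` -/
def cbar (σ : GQ) : ZMod p := PadicInt.toZMod (cycE p σ)

theorem toZMod_eq_zero_iff (x : ℤ_[p]) :
    PadicInt.toZMod x = 0 ↔ ∃ y, x = p * y := by
  rw [← RingHom.mem_ker, PadicInt.ker_toZMod, PadicInt.maximalIdeal_eq_span_p,
    Ideal.mem_span_singleton]
  exact Iff.rfl

theorem cbar_of {a : ℕ} {σ : GQ} (h : ∀ μ : Qb, μ ^ p = 1 → σ μ = μ ^ a) : cbar p σ = a := by
  have h1 := cyc_sub_mem (O := ℤ_[p]) (p_mem p) 1 a σ (by rw [pow_one]; exact h)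
  rw [pow_one, ← PadicInt.ker_toZMod, RingHom.mem_ker, map_sub, map_natCast, sub_eq_zero] at h1
  exact h1

theorem cbar_fixMu {M : ℕ} (hpM : p ∣ M) {σ : GQ} (hσ : σ ∈ fixMu M) : cbar p σ = 1 := by
  rw [cbar_of p (a := 1) (σ := σ), Nat.cast_one]
  intro μ hμ
  rw [pow_one]
  obtain ⟨k, rfl⟩ := hpM
  exact hσ μ (by rw [pow_mul, hμ, one_pow])

theorem cbar_conj {c : GQ} (hc : ∀ (n : ℕ), 0 < n → ∀ ζ : Qb, ζ ^ n = 1 → c ζ = ζ⁻¹) :
    cbar p c = -1 := by
  have hpos := hp.out.pos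
  rw [cbar_of p (a := p - 1) (σ := c), Nat.cast_sub hp.out.one_le, Nat.cast_one,
    ZMod.natCast_self, zero_sub]
  intro μ hμ
  rw [hc p hpos μ hμ]
  apply inv_eq_of_mul_eq_one_right
  rw [← pow_succ', Nat.sub_add_cancel hp.out.one_le]
  exact hμ

variable {W : WeierstrassCurve ℤ} (hWE : W.IsIntegralModelOf E) (hns : NonScalar E p)

include hWE hns in
theorem trE_mul (σ τ : GQ) :
    trE E p (σ * τ * τ) = trE E p τ * trE E p (σ * τ) - cycE p τ * trE E p σ := by
  have h1 := (relE E p hWE hns τ).1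
  have h2 : repE E p (σ * τ * τ) =
      trE E p τ • repE E p (σ * τ) - cycE p τ • repE E p σ := by
    have h3 : repE E p σ * (repE E p τ * repE E p τ - trE E p τ • repE E p τ +
      cycE p τ • (1 : Module.End ℤ_[p] (Fin 2 → ℤ_[p]))) = 0 := by rw [h1, mul_zero]
    rw [mul_add, mul_sub, mul_smul_comm, mul_smul_comm, mul_one, ← mul_assoc, ← map_mul, ← map_mul]
      at h3
    rw [← sub_eq_zero, ← h3]
    abel
  rw [trE, h2, map_sub, map_smul, map_smul]
  rfl

include hWE hns in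
theorem tbar_mul (σ τ : GQ) :
    tbar E p (σ * τ * τ) = tbar E p τ * tbar E p (σ * τ) - cbar p τ * tbar E p σ := by
  rw [tbar, trE_mul E p hWE hns, map_sub, map_mul, map_mul]
  rfl

/-- elements of `E[p]` -/
theorem exists_pr (x : Submodule.torsionBy ℤ (E⁄Qb).Point (p : ℤ)) :
    ∃ v : Fin 2 → ℤ_[p], ((tb E p).pr 1 v : (E⁄Qb).Point) = x := by
  obtain ⟨v, hv⟩ := (tb E p).pr_surjective 1 ⟨x, (tor_one_iff E p).mp x.2⟩
  exact ⟨v, congrArg Subtype.val hv⟩

include hWE hns in
theorem unip_rel {σ : GQ} (h1 : cbar p σ = 1) (h2 : tbar E p σ = 2)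
    (x : Submodule.torsionBy ℤ (E⁄Qb).Point (p : ℤ)) :
    σ • σ • x - (2 : ℤ) • σ • x + x = 0 := by
  obtain ⟨v, hv⟩ := exists_pr E p x
  have h3 := (relE E p hWE hns σ).1
  obtain ⟨a, ha⟩ := (toZMod_eq_zero_iff p (cycE p σ - 1)).mp (by
    rw [map_sub, map_one]; exact sub_eq_zero.mpr h1)
  obtain ⟨b, hb⟩ := (toZMod_eq_zero_iff p (trE E p σ - 2)).mp (by
    rw [map_sub, map_ofNat]; exact sub_eq_zero.mpr h2)
  have h4 : repE E p σ (repE E p σ v) - (2 : ℤ) • repE E p σ v + v =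
      ((p : ℤ_[p]) ^ 1) • (b • repE E p σ v - a • v) := by
    have h5 := LinearMap.congr_fun h3 v
    simp only [LinearMap.add_apply, LinearMap.sub_apply, Module.End.mul_apply,
      LinearMap.smul_apply, Module.End.one_apply, LinearMap.zero_apply] at h5
    have e1 : trE E p σ = 2 + p * b := by rw [← hb]; ring
    have e2 : cycE p σ = 1 + p * a := by rw [← ha]; ring
    rw [e1, e2] at h5
    have e3 : (2 : ℤ) • repE E p σ v = (2 : ℤ_[p]) • repE E p σ v := by
      rw [two_smul, two_smul]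
    rw [← sub_eq_zero, ← h5, e3, pow_one, smul_sub, smul_smul, smul_smul, add_smul, add_smul,
      one_smul]
    abel
  have h5 := ((tb E p).pr_eq_zero_iff 1 _).mpr ⟨_, h4⟩
  apply Subtype.ext
  have h6 : ((tb E p).pr 1 (repE E p σ (repE E p σ v) - (2 : ℤ) • repE E p σ v + v) :
      (E⁄Qb).Point) = σ • σ • (x : (E⁄Qb).Point) - (2 : ℤ) • σ • (x : (E⁄Qb).Point) + x := by
    rw [map_add, map_sub, map_zsmul, AddSubgroup.coe_add, AddSubgroup.coe_sub,
      AddSubgroup.coe_zsmul, pr_repE, pr_repE, hv]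
  rw [h5] at h6
  exact h6.symm

/-- `σ` acts as the integer `s` on `E[p]`, then the determinant is `s ^ 2` mod `p`. -/
theorem cbar_of_scalar {σ : GQ} (hdet : LinearMap.det (repE E p σ) = cycE p σ) (s : ℤ)
    (h : ∀ x : Submodule.torsionBy ℤ (E⁄Qb).Point (p : ℤ), σ • x = s • x) :
    cbar p σ = (s : ZMod p) ^ 2 := by
  have h1 : ∀ v : Fin 2 → ℤ_[p], ∃ w, repE E p σ v = (s : ℤ_[p]) • v + (p : ℤ_[p]) • w := by
    intro v
    have h2 : (tb E p).pr 1 (repE E p σ v - s • v) = 0 := by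
      apply Subtype.ext
      have h3 := congrArg Subtype.val
        (h ⟨(tb E p).pr 1 v, (tor_one_iff E p).mpr ((tb E p).pr 1 v).2⟩)
      change σ • ((tb E p).pr 1 v : (E⁄Qb).Point) = s • ((tb E p).pr 1 v : (E⁄Qb).Point) at h3
      rw [map_sub, map_zsmul, AddSubgroup.coe_sub, AddSubgroup.coe_zsmul, pr_repE, h3, sub_self]
      rfl
    obtain ⟨w, hw⟩ := ((tb E p).pr_eq_zero_iff 1 _).mp h2
    refine ⟨w, ?_⟩
    rw [pow_one] at hw
    rw [← hw, Int.cast_smul_eq_zsmul]
    abel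
  obtain ⟨w0, hw0⟩ := h1 (Pi.single 0 1)
  obtain ⟨w1, hw1⟩ := h1 (Pi.single 1 1)
  have hp0 : PadicInt.toZMod (p : ℤ_[p]) = 0 := by rw [map_natCast, ZMod.natCast_self]
  rw [cbar, ← hdet, ← LinearMap.det_toMatrix', Matrix.det_fin_two]
  simp only [LinearMap.toMatrix'_apply]
  simp only [hw0, hw1, Pi.add_apply, Pi.smul_apply, smul_eq_mul, map_sub, map_mul, map_add, hp0,
    zero_mul, add_zero, Pi.single_eq_same, mul_one, map_intCast]
  rw [Pi.single_eq_of_ne (by decide), Pi.single_eq_of_ne (by decide), _root_.map_zero, mul_zero,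
    mul_zero, sub_zero, sq]

end Curve

end

end Fermat.Agent.LRGal
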