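import Fermat.Agent.LevelRaise.PDHecke

set_option autoImplicit false
set_option linter.unusedSectionVars false

/-!
Hecke operators on modular symbols.
-/

namespace Fermat.Agent.LR

open Matrix CongruenceSubgroup
open scoped MatrixGroups

noncomputable section

/-- upper triangular matrices -/
def ut (a b d : ℤ) (h : a * d ≠ 0) : IM := ⟨!![a, b; 0, d], by
  change (!![a, b; 0, d] : M2).det ≠ 0
  rw [Matrix.det_fin_two_of, mul_zero, sub_zero]; exact h⟩

theorem ut_val (a b d : ℤ) (h : a * d ≠ 0) : (ut a b d h).1 = !![a, b; 0, d] := rfl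

theorem ut_det (a b d : ℤ) (h : a * d ≠ 0) : (ut a b d h).1.det = a * d := by
  rw [ut_val, Matrix.det_fin_two_of, mul_zero, sub_zero]

theorem ut_mul (a b d a' b' d' : ℤ) (h : a * d ≠ 0) (h' : a' * d' ≠ 0) (h'' : a * a' * (d * d') ≠ 0) :
    ut a b d h * ut a' b' d' h' = ut (a * a') (a * b' + b * d') (d * d') h'' := by
  apply Subtype.ext
  change (!![a, b; 0, d] : M2) * !![a', b'; 0, d'] = !![a * a', a * b' + b * d'; 0, d * d']
  rw [Matrix.mul_fin_two]
  simp

theorem ut_congr {a b d a' b' d' : ℤ} (h : a * d ≠ 0) (h' : a' * d' ≠ 0) (e1 : a = a') (e2 : b = b')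
    (e3 : d = d') : ut a b d h = ut a' b' d' h' := by subst e1; subst e2; subst e3; rfl

theorem IM_ext {A B : IM} (h00 : A.1 0 0 = B.1 0 0) (h01 : A.1 0 1 = B.1 0 1)
    (h10 : A.1 1 0 = B.1 1 0) (h11 : A.1 1 1 = B.1 1 1) : A = B := by
  apply Subtype.ext
  ext i j
  fin_cases i <;> fin_cases j
  · exact h00
  · exact h01
  · exact h10
  · exact h11

theorem IM_mul_apply (A B : IM) (i j : Fin 2) :
    (A * B).1 i j = A.1 i 0 * B.1 0 j + A.1 i 1 * B.1 1 j := by
  change (A.1 * B.1) i j = _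
  rw [Matrix.mul_apply, Fin.sum_univ_two]

theorem IM_det_eq (A : IM) : A.1.det = A.1 0 0 * A.1 1 1 - A.1 0 1 * A.1 1 0 :=
  Matrix.det_fin_two _

theorem sl_det_eq (g : SL(2, ℤ)) : g.1 0 0 * g.1 1 1 - g.1 0 1 * g.1 1 0 = 1 := by
  have := g.2
  rwa [Matrix.det_fin_two] at this

theorem mem_Gamma0 {N : ℕ} {g : SL(2, ℤ)} : g ∈ Gamma0 N ↔ (N : ℤ) ∣ g.1 1 0 := by
  rw [CongruenceSubgroup.Gamma0_mem]
  exact ZMod.intCast_zmod_eq_zero_iff_dvd _ _

theorem ofSL_mkSL_ut (t : ℤ) (h : (1 : ℤ) * 1 ≠ 0) :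
    ofSL (mkSL 1 t 0 1 (by ring)) = ut 1 t 1 h := rfl

/-- matrices of determinant `ℓ` and level `N`. -/
def DD (N ℓ : ℕ) : Set IM := {α | α.1.det = ℓ ∧ (N : ℤ) ∣ α.1 1 0}

theorem adj_apply (A : IM) : (adj A).1 = !![A.1 1 1, -A.1 0 1; -A.1 1 0, A.1 0 0] :=
  Matrix.adjugate_fin_two _

theorem adj_mem_DD {N ℓ : ℕ} {α : IM} (h : α ∈ DD N ℓ) : adj α ∈ DD N ℓ := by
  refine ⟨by rw [adj_det]; exact h.1, ?_⟩
  rw [adj_apply]
  exact (dvd_neg.mpr h.2)

theorem DD_mul_right {N ℓ : ℕ} {γ : SL(2, ℤ)} (hγ : γ ∈ Gamma0 N) {α : IM} (h : α ∈ DD N ℓ) :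
    α * ofSL γ ∈ DD N ℓ := by
  refine ⟨by rw [mul_det, ofSL_det, mul_one]; exact h.1, ?_⟩
  rw [IM_mul_apply]
  exact dvd_add (Dvd.dvd.mul_right h.2 _) (Dvd.dvd.mul_left (mem_Gamma0.mp hγ) _)

theorem DD_mul_left {N ℓ : ℕ} {γ : SL(2, ℤ)} (hγ : γ ∈ Gamma0 N) {α : IM} (h : α ∈ DD N ℓ) :
    ofSL γ * α ∈ DD N ℓ := by
  refine ⟨by rw [mul_det, ofSL_det, one_mul]; exact h.1, ?_⟩
  rw [IM_mul_apply]
  exact dvd_add (Dvd.dvd.mul_right (mem_Gamma0.mp hγ) _) (Dvd.dvd.mul_left h.2 _)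

/-- the standard representatives -/
def tr (ℓ : ℕ) [NeZero ℓ] (x : OnePoint (ZMod ℓ)) : IM :=
  x.elim (ut ℓ 0 1 (by rw [mul_one]; exact_mod_cast NeZero.ne ℓ))
    (fun j => ut 1 (j.val : ℤ) ℓ (by rw [one_mul]; exact_mod_cast NeZero.ne ℓ))

theorem tr_infty (ℓ : ℕ) [NeZero ℓ] : (tr ℓ OnePoint.infty).1 = !![(ℓ : ℤ), 0; 0, 1] := rfl

theorem tr_coe (ℓ : ℕ) [NeZero ℓ] (j : ZMod ℓ) :
    (tr ℓ (j : OnePoint (ZMod ℓ))).1 = !![(1 : ℤ), (j.val : ℤ); 0, (ℓ : ℤ)] := rfl

theorem tr_mem_DD (N ℓ : ℕ) [NeZero ℓ] (x : OnePoint (ZMod ℓ)) : tr ℓ x ∈ DD N ℓ := by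
  induction x using OnePoint.rec with
  | infty =>
    refine ⟨?_, ?_⟩
    · rw [tr_infty, Matrix.det_fin_two_of]; ring
    · rw [tr_infty]; exact dvd_zero _
  | coe j =>
    refine ⟨?_, ?_⟩
    · rw [tr_coe, Matrix.det_fin_two_of]; ring
    · rw [tr_coe]; exact dvd_zero _

theorem isReps_tr {N ℓ : ℕ} [hℓ : Fact ℓ.Prime] (hℓN : ¬ ℓ ∣ N) :
    IsReps (Gamma0 N) (DD N ℓ) (tr ℓ) where
  mem γ hγ x := DD_mul_left hγ (tr_mem_DD N ℓ x)
  ex := by
    rintro α ⟨hdet, hN⟩
    rw [IM_det_eq] at hdet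
    obtain ⟨c, hc⟩ := hN
    have hℓ0 : (ℓ : ℤ) ≠ 0 := by exact_mod_cast hℓ.out.ne_zero
    have hcop : IsCoprime (ℓ : ℤ) (N : ℤ) :=
      Nat.isCoprime_iff_coprime.mpr ((Nat.Prime.coprime_iff_not_dvd hℓ.out).mpr hℓN)
    set a := α.1 0 0 with ha
    set b := α.1 0 1 with hb
    set d := α.1 1 1 with hd
    rw [hc] at hdet
    have hcopa : IsCoprime a (N : ℤ) := by
      obtain ⟨s, t, hst⟩ := hcop
      refine ⟨s * d, t - s * b * c, ?_⟩
      linear_combination hst + s * hdet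
    have hg0 : (Int.gcd a c : ℤ) ≠ 0 := by
      rw [Ne, Int.natCast_eq_zero, Int.gcd_eq_zero_iff]
      rintro ⟨h1, h2⟩
      rw [h1, h2] at hdet
      apply hℓ0
      linear_combination -hdet
    have hgpos : 0 < (Int.gcd a c : ℤ) := lt_of_le_of_ne (Int.natCast_nonneg _) (Ne.symm hg0)
    obtain ⟨w, hw⟩ := Int.gcd_dvd_left a c
    obtain ⟨z, hz⟩ := Int.gcd_dvd_right a c
    set g : ℤ := (Int.gcd a c : ℤ) with hg
    -- Bezout
    have hwz : IsCoprime w z := by
      refine ⟨Int.gcdA a c, Int.gcdB a c, ?_⟩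
      have h1 := Int.gcd_eq_gcd_ab a c
      apply mul_left_cancel₀ hg0
      rw [mul_one]
      conv_rhs => rw [hg, h1]
      rw [show g * (Int.gcdA a c * w + Int.gcdB a c * z) =
        (g * w) * Int.gcdA a c + (g * z) * Int.gcdB a c by ring, ← hw, ← hz]
    have hwN : IsCoprime w (N : ℤ) := by
      apply IsCoprime.of_mul_left_right (x := g)
      rw [← hw]; exact hcopa
    have hwNz : IsCoprime w ((N : ℤ) * z) := hwN.mul_right hwz
    obtain ⟨x, y, hxy⟩ := hwNz
    -- γ' = (x, y; -N z, w), γ' α = (g, x b + y d; 0, -N z b + w d)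
    set γ' : SL(2, ℤ) := mkSL x y (-(N : ℤ) * z) w (by linear_combination hxy) with hγ'
    have hγ'mem : γ' ∈ Gamma0 N := by
      rw [mem_Gamma0, hγ', mkSL_10]
      exact ⟨-z, by ring⟩
    set b' := x * b + y * d with hb'
    set d' := -(N : ℤ) * z * b + w * d with hd'
    have hgd : g * d' = ℓ := by
      rw [hd']
      linear_combination hdet + N * b * hz - d * hw
    have hprod : (ofSL γ' * α).1 = !![g, b'; 0, d'] := by
      ext i j
      fin_cases i <;> fin_cases j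
      · change (ofSL γ' * α).1 0 0 = g
        rw [IM_mul_apply, ofSL_val, hγ', mkSL_00, mkSL_01, ← ha, hc]
        linear_combination x * hw + y * N * hz + g * hxy
      · change (ofSL γ' * α).1 0 1 = b'
        rw [IM_mul_apply, ofSL_val, hγ', mkSL_00, mkSL_01]
      · change (ofSL γ' * α).1 1 0 = 0
        rw [IM_mul_apply, ofSL_val, hγ', mkSL_10, mkSL_11, ← ha, hc]
        linear_combination (-(N : ℤ) * z) * hw + w * N * hz
      · change (ofSL γ' * α).1 1 1 = d'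
        rw [IM_mul_apply, ofSL_val, hγ', mkSL_10, mkSL_11]
    have hd'pos : 0 < d' := by
      have : 0 < g * d' := by rw [hgd]; exact_mod_cast hℓ.out.pos
      exact (mul_pos_iff_of_pos_left hgpos).mp this
    -- primality
    have hcase : (g = 1 ∧ d' = ℓ) ∨ (g = ℓ ∧ d' = 1) := by
      have h1 : g.natAbs ∣ ℓ := by
        have : (g.natAbs : ℤ) ∣ ℓ := by rw [Int.natAbs_dvd]; exact ⟨d', hgd.symm⟩
        exact_mod_cast this
      rcases (Nat.dvd_prime hℓ.out).mp h1 with h2 | h2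
      · left
        have h3 : g = 1 := by omega
        refine ⟨h3, ?_⟩
        rw [h3, one_mul] at hgd; exact hgd
      · right
        have h3 : g = ℓ := by omega
        refine ⟨h3, ?_⟩
        rw [h3] at hgd
        exact mul_left_cancel₀ hℓ0 (by rw [hgd, mul_one])
    have hfin : ∀ (δ : SL(2, ℤ)), δ ∈ Gamma0 N → ∀ x, (ofSL γ' * α) = ofSL δ * tr ℓ x →
        ∃ x, ∃ γ ∈ Gamma0 N, α = ofSL γ * tr ℓ x := by
      intro δ hδ x h
      refine ⟨x, γ'⁻¹ * δ, (Gamma0 N).mul_mem ((Gamma0 N).inv_mem hγ'mem) hδ, ?_⟩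
      rw [map_mul, mul_assoc, ← h, ← mul_assoc, ← map_mul, inv_mul_cancel, map_one, one_mul]
    rcases hcase with ⟨h1, h2⟩ | ⟨h1, h2⟩
    · refine hfin (mkSL 1 (b' / ℓ) 0 1 (by ring)) (by rw [mem_Gamma0, mkSL_10]; exact dvd_zero _)
        (((b' : ZMod ℓ) : ZMod ℓ) : OnePoint (ZMod ℓ)) ?_
      have h3 : (((b' : ZMod ℓ)).val : ℤ) = b' % ℓ := ZMod.val_intCast _
      have h4 := Int.mul_ediv_add_emod b' ℓ
      apply IM_ext
      · rw [hprod, IM_mul_apply, ofSL_val, tr_coe]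
        simp [h1]
      · rw [hprod, IM_mul_apply, ofSL_val, tr_coe, h3]
        simp
        linear_combination -h4
      · rw [hprod, IM_mul_apply, ofSL_val, tr_coe]
        simp
      · rw [hprod, IM_mul_apply, ofSL_val, tr_coe]
        simp [h2]
    · refine hfin (mkSL 1 b' 0 1 (by ring)) (by rw [mem_Gamma0, mkSL_10]; exact dvd_zero _)
        OnePoint.infty ?_
      apply IM_ext
      · rw [hprod, IM_mul_apply, ofSL_val, tr_infty]
        simp [h1]
      · rw [hprod, IM_mul_apply, ofSL_val, tr_infty]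
        simp
      · rw [hprod, IM_mul_apply, ofSL_val, tr_infty]
        simp
      · rw [hprod, IM_mul_apply, ofSL_val, tr_infty]
        simp [h2]
  uniq := by
    have hℓ1 : (1 : ℤ) < ℓ := by exact_mod_cast hℓ.out.one_lt
    have hℓ0 : (ℓ : ℤ) ≠ 0 := by linarith
    have hunit : ∀ a : ℤ, a * ℓ ≠ 1 := by
      intro a h
      rcases le_or_gt a 0 with h1 | h1
      · nlinarith
      · nlinarith
    intro x y γ _ h
    have h00 := congrArg (fun A : IM => A.1 0 0) h
    have h01 := congrArg (fun A : IM => A.1 0 1) h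
    have h10 := congrArg (fun A : IM => A.1 1 0) h
    have h11 := congrArg (fun A : IM => A.1 1 1) h
    simp only [IM_mul_apply, ofSL_val] at h00 h01 h10 h11
    induction x using OnePoint.rec with
    | infty =>
      induction y using OnePoint.rec with
      | infty => rfl
      | coe j =>
        rw [tr_infty, tr_coe] at h00 h01 h10 h11
        simp [-ZMod.natCast_val] at h00 h01 h10 h11
        rw [← h10] at h11
        exact absurd (by linarith : γ.1 1 1 * ℓ = 1) (hunit _)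
    | coe i =>
      induction y using OnePoint.rec with
      | infty =>
        rw [tr_infty, tr_coe] at h00 h01 h10 h11
        simp [-ZMod.natCast_val] at h00 h01 h10 h11
        exact absurd h00.symm (hunit _)
      | coe j =>
        rw [tr_coe, tr_coe] at h00 h01 h10 h11
        simp [-ZMod.natCast_val] at h00 h01 h10 h11
        rw [← h00, one_mul] at h01
        congr 1
        apply ZMod.val_injective
        have h1 := ZMod.val_lt i
        have h2 := ZMod.val_lt j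
        have h3 : γ.1 0 1 = 0 := by
          by_contra hne
          rcases lt_or_gt_of_ne hne with h4 | h4
          · have : γ.1 0 1 * ℓ ≤ -ℓ := by nlinarith
            omega
          · have : (ℓ : ℤ) ≤ γ.1 0 1 * ℓ := by nlinarith
            omega
        rw [h3] at h01
        omega

end

end Fermat.Agent.LR
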