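import Fermat.Agent.LevelRaise.Trace

set_option autoImplicit false
set_option linter.unusedSectionVars false

/-!
Ihara's lemma for modular symbols.
-/

namespace Fermat.Agent.LR

open Matrix CongruenceSubgroup
open scoped MatrixGroups

noncomputable section

/-- the cusp `x` -/
def cu (x : ℚ) : Vec := ⟨(x.num, x.den), by
  intro h
  have := congrArg Prod.snd h
  simp at this⟩

theorem cu_val (x : ℚ) : (cu x).1 = (x.num, (x.den : ℤ)) := rfl

section

variable {R : Type*} [CommRing R]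

/-- restriction of a symbol to paths from `∞` -/
def Fx (φ : Vec → Vec → R) (x : ℚ) : R := φ e1 (cu x)

theorem Fx_eq {φ : Vec → Vec → R} (hφ : φ ∈ Coc R) {u v : Vec} (hu : u.1.2 = 0) (hv : v.1.2 ≠ 0)
    {x : ℚ} (hx : x = (v.1.1 : ℚ) / v.1.2) : φ u v = Fx φ x := by
  refine Coc.congr hφ ?_ ?_
  · simp only [dt, det2, e1_val, hu]; ring
  · simp only [dt, det2, cu_val]
    have h1 : (x.num : ℚ) / x.den = x := Rat.num_div_den x
    have h2 : (x.den : ℚ) ≠ 0 := by exact_mod_cast x.den_ne_zero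
    have h3 : (v.1.2 : ℚ) ≠ 0 := by exact_mod_cast hv
    rw [hx, div_eq_div_iff (by rw [← hx]; exact h2) h3] at h1
    rw [← hx] at h1
    have h4 : ((v.1.1 * x.den - v.1.2 * x.num : ℤ) : ℚ) = 0 := by
      push_cast
      linear_combination -h1
    exact_mod_cast h4

theorem Fx_ts {φ : Vec → Vec → R} (hφ : φ ∈ Coc R) {a b d : ℤ} (h : a * d ≠ 0) (x : ℚ) :
    Fx (ts a b d φ) x = Fx φ ((a * x + b) / d) := by
  have hd : d ≠ 0 := right_ne_zero_of_mul h
  rw [ts_eq h]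
  change φ (ut a b d h • e1) (ut a b d h • cu x) = _
  have hx2 : (x.den : ℤ) ≠ 0 := by exact_mod_cast x.den_ne_zero
  refine Fx_eq hφ ?_ ?_ ?_
  · rw [smul_val, ut_val, mv, e1_val]; simp
  · rw [smul_val, ut_val, mv, cu_val]
    simp [hd]
  · rw [smul_val, ut_val, mv, cu_val]
    have h1 : (x.num : ℚ) / x.den = x := Rat.num_div_den x
    have h2 : (x.den : ℚ) ≠ 0 := by exact_mod_cast x.den_ne_zero
    have h3 : (d : ℚ) ≠ 0 := by exact_mod_cast hd
    simp
    rw [div_eq_div_iff h3 (mul_ne_zero h3 h2)]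
    have h4 : x * x.den = x.num := Rat.mul_den_eq_num x
    linear_combination (a * d : ℚ) * h4

theorem eq_zero_of_Fx {φ : Vec → Vec → R} (hφ : φ ∈ Coc R) (h : ∀ x, Fx φ x = 0) : φ = 0 := by
  have h1 : ∀ v, φ e1 v = 0 := by
    intro v
    by_cases hv : v.1.2 = 0
    · apply Coc.par hφ
      simp only [dt, det2, e1_val, hv]; ring
    · rw [Fx_eq hφ (by rw [e1_val]) hv rfl, h]
  funext u v
  rw [← Coc.add hφ u e1 v, Coc.swap hφ e1 u, h1, h1]
  simp

end

/-- sums over finite groups of functions invariant under an element of order divisible by `p`. -/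
theorem sum_group_eq_zero {k : Type*} [CommRing k] {p : ℕ} (hk : (p : k) = 0) {U : Type*}
    [CommGroup U] [Fintype U] {s : U} (hs : p ∣ orderOf s) {f : U → k} (hf : ∀ u, f (s * u) = f u) :
    ∑ u, f u = 0 := by
  classical
  set H := Subgroup.zpowers s with hH
  have hf' : ∀ n : ℕ, ∀ u, f (s ^ n * u) = f u := by
    intro n
    induction n with
    | zero => intro u; simp
    | succ n ih => intro u; rw [pow_succ', mul_assoc, hf, ih]
  have hf2 : ∀ h ∈ H, ∀ u, f (h * u) = f u := by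
    intro h hh u
    have hh2 := (isOfFinOrder_of_finite s).mem_zpowers_iff_mem_range_orderOf.mp hh
    rw [Finset.mem_image] at hh2
    obtain ⟨a, _, ha⟩ := hh2
    rw [← ha]
    exact hf' _ _
  rw [← Finset.sum_fiberwise Finset.univ (fun u : U => (QuotientGroup.mk u : U ⧸ H)) f]
  refine Finset.sum_eq_zero fun c _ => ?_
  have h1 : ∀ u ∈ Finset.univ.filter (fun u : U => (QuotientGroup.mk u : U ⧸ H) = c), f u = f c.out := by
    intro u hu
    rw [Finset.mem_filter] at hu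
    have h3 : (QuotientGroup.mk u : U ⧸ H) = QuotientGroup.mk c.out := by
      rw [hu.2, QuotientGroup.out_eq']
    rw [QuotientGroup.eq] at h3
    have h4 := hf2 _ h3 u
    rw [← h4]
    congr 1
    rw [mul_comm u⁻¹, mul_assoc, inv_mul_cancel, mul_one]
  rw [Finset.sum_congr rfl h1, Finset.sum_const, nsmul_eq_mul]
  have h2 : (Finset.univ.filter (fun u : U => (QuotientGroup.mk u : U ⧸ H) = c)).card = orderOf s := by
    have h5 := QuotientGroup.card_preimage_mk H {c}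
    have h6 : Nat.card H = orderOf s := Nat.card_zpowers s
    have h7 : Nat.card ({c} : Set (U ⧸ H)) = 1 := by simp
    rw [h6, h7, mul_one] at h5
    rw [← h5]
    symm
    apply Nat.subtype_card
    intro u
    simp
  obtain ⟨t, ht⟩ := hs
  rw [h2, ht, Nat.cast_mul, hk, zero_mul, zero_mul]

section

variable {R : Type*} [CommRing R] {N q : ℕ}

theorem ts_qq (hq : q.Prime) (hqN : ¬ q ∣ N) {φ₁ φ₂ : Vec → Vec → R}
    (h1 : φ₁ ∈ MS R (Gamma0 N)) (h2 : φ₂ ∈ MS R (Gamma0 N)) (h : φ₁ = - Vo q φ₂) :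
    ts 1 0 (q ^ 2) φ₁ = φ₁ := by
  have hq0 : (q : ℤ) ≠ 0 := by exact_mod_cast hq.ne_zero
  have hD : (1 : ℤ) * q ^ 2 ≠ 0 := by positivity
  have hA : (q : ℤ) * 1 ≠ 0 := by rw [mul_one]; exact hq0
  obtain ⟨w, y, hwy⟩ : IsCoprime (q : ℤ) (N : ℤ) :=
    Nat.isCoprime_iff_coprime.mpr ((Nat.Prime.coprime_iff_not_dvd hq).mpr hqN)
  set κ : SL(2, ℤ) := mkSL q (-y) N w (by linear_combination hwy) with hκ
  have hκm : κ ∈ Gamma0 N := by rw [mem_Gamma0, hκ, mkSL_10]
  set γ : SL(2, ℤ) := mkSL 1 (-y) N (q * w) (by linear_combination hwy) with hγ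
  have hγm : γ ∈ Gamma0 N := by rw [mem_Gamma0, hγ, mkSL_10]
  rw [Vo, ts_eq hA] at h
  have e1 : ut q 0 1 hA * (ut 1 0 (q ^ 2) hD * ofSL κ) = scal q hq0 * (ofSL γ * ut q 0 1 hA) := by
    apply Subtype.ext
    change (!![(q : ℤ), 0; 0, 1] : M2) * (!![1, 0; 0, (q : ℤ) ^ 2] * !![(q : ℤ), -y; (N : ℤ), w]) =
      ((q : ℤ) • (1 : M2)) * (!![1, -y; (N : ℤ), q * w] * !![(q : ℤ), 0; 0, 1])
    rw [smul_mul_assoc, one_mul, Matrix.mul_fin_two, Matrix.mul_fin_two, Matrix.mul_fin_two,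
      Matrix.smul_of]
    ext i j
    fin_cases i <;> fin_cases j <;> simp <;> ring
  have e2 : slash (ut 1 0 (q ^ 2) hD * ofSL κ) φ₁ = φ₁ := by
    conv_lhs => rw [h]
    rw [map_neg, ← slash_mul, e1, ALD.slash_scal h2.1, slash_mul, slash_ofSL h2 hγm]
    exact h.symm
  rw [slash_mul] at e2
  rw [ts_eq hD]
  have e3 : slash (ofSL κ⁻¹) (slash (ofSL κ) (slash (ut 1 0 (q ^ 2) hD) φ₁)) =
      slash (ofSL κ⁻¹) φ₁ := by rw [e2]
  rw [← slash_mul, ← map_mul, mul_inv_cancel, map_one, slash_one,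
    slash_ofSL h1 ((Gamma0 N).inv_mem hκm)] at e3
  exact e3

/-- **Ihara's lemma** for modular symbols. -/
theorem ihara {k : Type*} [Field k] {p : ℕ} (hk : (p : k) = 0) (hq : q.Prime) (hqN : ¬ q ∣ N)
    {φ₁ φ₂ : Vec → Vec → k} (h1 : φ₁ ∈ MS k (Gamma0 N)) (h2 : φ₂ ∈ MS k (Gamma0 N))
    (h : φ₁ = - Vo q φ₂) (lam : ℕ → k) (good : ℕ → Prop) (hgood : ∀ ℓ, good ℓ → ℓ ≠ q)
    (heig : ∀ ℓ, ℓ.Prime → good ℓ → To ℓ φ₁ = lam ℓ • φ₁)
    (G2 : ∀ n m : ℕ, 0 < n → 0 < m → ∃ ℓ : ℕ, ℓ.Prime ∧ good ℓ ∧ n ∣ ℓ - 1 ∧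
      p ∣ orderOf ((q : ZMod ℓ) ^ m) ∧ lam ℓ ≠ 1 + ℓ) :
    φ₁ = 0 := by
  have hq0 : (q : ℚ) ≠ 0 := by exact_mod_cast hq.ne_zero
  have hqZ : (q : ℤ) ≠ 0 := by exact_mod_cast hq.ne_zero
  -- periodicity
  have hper : ∀ (x : ℚ) (t : ℤ), Fx φ₁ (x + t) = Fx φ₁ x := by
    intro x t
    conv_rhs => rw [← MS.TI h1 t]
    rw [Fx_ts h1.1 (by norm_num)]
    congr 1
    push_cast
    ring
  have hq2 : ∀ (x : ℚ), Fx φ₁ (q ^ 2 * x) = Fx φ₁ x := by
    intro x
    conv_lhs => rw [← ts_qq hq hqN h1 h2 h]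
    rw [Fx_ts h1.1 (by positivity)]
    congr 1
    push_cast
    field_simp
    ring
  have hqm : ∀ (m : ℕ) (x : ℚ), Fx φ₁ ((q ^ 2) ^ m * x) = Fx φ₁ x := by
    intro m
    induction m with
    | zero => intro x; simp
    | succ m ih => intro x; rw [pow_succ, mul_assoc, ih, hq2]
  -- the key vanishing
  have key : ∀ (n : ℕ) (y : ℚ) (c : ℤ), 0 < n → q.Coprime n → (n : ℚ) * y = c → Fx φ₁ y = 0 := by
    intro n y c hn hqn hc
    obtain ⟨ℓ, hℓ, hgℓ, hnℓ, hord, hlam⟩ := G2 n (2 * n.totient) hn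
      (by have := Nat.totient_pos.mpr hn; omega)
    have hℓf : Fact ℓ.Prime := ⟨hℓ⟩
    have hℓne : NeZero ℓ := ⟨hℓ.ne_zero⟩
    have hℓ0 : (ℓ : ℚ) ≠ 0 := by exact_mod_cast hℓ.ne_zero
    have hℓq : (ℓ : ℕ).Coprime q := by
      rw [Nat.Prime.coprime_iff_not_dvd hℓ, Nat.dvd_prime hq]
      push Not
      exact ⟨hℓ.ne_one, hgood ℓ hgℓ⟩
    -- s = q^(2φ(n))
    obtain ⟨K, hK⟩ : (n : ℤ) ∣ ((q ^ (2 * n.totient) : ℕ) : ℤ) - 1 := by
      have h3 : q ^ (2 * n.totient) ≡ 1 [MOD n] := by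
        have := Nat.ModEq.pow_totient hqn
        have h4 := this.pow 2
        rwa [one_pow, ← pow_mul, mul_comm] at h4
      exact (Nat.modEq_iff_dvd.mp h3.symm).trans (by simp)
    set s := q ^ (2 * n.totient) with hs
    have hsF : ∀ x : ℚ, Fx φ₁ (s * x) = Fx φ₁ x := by
      intro x
      rw [hs, pow_mul]
      push_cast
      exact hqm _ x
    -- the function on ZMod ℓ
    set G : ZMod ℓ → k := fun i => Fx φ₁ (y + (i.val : ℚ) / ℓ) with hG
    have hGa : ∀ a : ℤ, Fx φ₁ (y + (a : ℚ) / ℓ) = G (a : ZMod ℓ) := by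
      intro a
      rw [hG]
      simp only
      have h3 : (((a : ZMod ℓ)).val : ℤ) = a % ℓ := ZMod.val_intCast _
      have h4 := Int.emod_add_mul_ediv a ℓ
      rw [← h3] at h4
      have h5 : (a : ℚ) = ((a : ZMod ℓ)).val + (ℓ : ℚ) * ((a / ℓ : ℤ) : ℚ) := by
        exact_mod_cast h4.symm
      rw [← hper (y + (((a : ZMod ℓ)).val : ℚ) / ℓ) (a / ℓ)]
      congr 1
      rw [h5]
      field_simp
      ring
    have hGs : ∀ i : ZMod ℓ, G ((s : ZMod ℓ) * i) = G i := by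
      intro i
      have h3 : (s : ZMod ℓ) * i = (((s * i.val : ℕ) : ℤ) : ZMod ℓ) := by
        push_cast
        rw [ZMod.natCast_zmod_val]
      rw [h3, ← hGa]
      have h4 : G i = Fx φ₁ (s * (y + (i.val : ℚ) / ℓ)) := by rw [hsF]
      rw [h4]
      have h5 : (s : ℚ) = 1 + n * K := by
        have : (s : ℤ) = 1 + n * K := by linear_combination hK
        exact_mod_cast this
      rw [← hper _ (K * c)]
      congr 1
      push_cast
      rw [← hc]
      have h6 : (s : ℚ) * (y + (i.val : ℚ) / ℓ) = y + n * K * y + (s : ℚ) * ((i.val : ℚ) / ℓ) := by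
        rw [mul_add]
        congr 1
        rw [h5]; ring
      rw [h6]
      ring
    -- the Hecke relation
    have hT : lam ℓ * Fx φ₁ y = Fx φ₁ (ℓ * y) + ∑ j ∈ Finset.range ℓ, Fx φ₁ ((y + j) / ℓ) := by
      have h3 := congrArg (fun φ => Fx φ y) (heig ℓ hℓ hgℓ)
      have h4 : Fx (lam ℓ • φ₁) y = lam ℓ * Fx φ₁ y := rfl
      have h5 : Fx (To ℓ φ₁) y = Fx (Vo ℓ φ₁) y + Fx (Uo ℓ φ₁) y := rfl
      rw [h4, h5] at h3
      rw [← h3]
      congr 1
      · rw [Vo, Fx_ts h1.1 (by rw [mul_one]; exact_mod_cast hℓ.ne_zero)]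
        congr 1
        push_cast
        ring
      · rw [Uo]
        have h6 : Fx (∑ j ∈ Finset.range ℓ, ts 1 (j : ℤ) ℓ φ₁) y =
            ∑ j ∈ Finset.range ℓ, Fx (ts 1 (j : ℤ) ℓ φ₁) y := by
          unfold Fx
          rw [Finset.sum_apply, Finset.sum_apply]
        rw [h6]
        refine Finset.sum_congr rfl fun j _ => ?_
        rw [Fx_ts h1.1 (by rw [one_mul]; exact_mod_cast hℓ.ne_zero)]
        congr 1
        push_cast
        ring
    obtain ⟨r, hr⟩ := hnℓ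
    have hℓr : (ℓ : ℚ) = 1 + n * r := by
      have : ℓ = 1 + n * r := by have := hℓ.pos; omega
      exact_mod_cast this
    have hFℓ : Fx φ₁ (ℓ * y) = Fx φ₁ y := by
      rw [← hper y (r * c)]
      congr 1
      push_cast
      rw [← hc]
      rw [hℓr]
      ring
    have hsum : ∑ j ∈ Finset.range ℓ, Fx φ₁ ((y + j) / ℓ) = ∑ i : ZMod ℓ, G i := by
      have h3 : ∀ j ∈ Finset.range ℓ, Fx φ₁ ((y + j) / ℓ) = G ((j : ZMod ℓ) - ((r * c : ℤ) : ZMod ℓ)) := by
        intro j _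
        have h4 : (j : ZMod ℓ) - ((r * c : ℤ) : ZMod ℓ) = (((j : ℤ) - r * c : ℤ) : ZMod ℓ) := by
          push_cast
          ring
        rw [h4, ← hGa]
        congr 1
        push_cast
        rw [← hc]
        field_simp
        rw [hℓr]
        ring
      rw [Finset.sum_congr rfl h3]
      rw [← Equiv.sum_comp (Equiv.subRight ((r * c : ℤ) : ZMod ℓ)) G]
      refine Finset.sum_nbij' (fun j : ℕ ↦ (j : ZMod ℓ)) (fun x : ZMod ℓ ↦ x.val)
        (fun _ _ ↦ Finset.mem_univ _) (fun x _ ↦ Finset.mem_range.mpr x.val_lt) (fun j hj ↦ ?_)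
        (fun x _ ↦ ?_) (fun j hj ↦ ?_)
      · exact ZMod.val_cast_of_lt (Finset.mem_range.mp hj)
      · exact ZMod.natCast_zmod_val x
      · rfl
    have hunits : ∑ i : ZMod ℓ, G i = G 0 + ∑ u : (ZMod ℓ)ˣ, G u := by
      rw [Fintype.sum_eq_add_sum_subtype_ne G 0]
      congr 1
      exact (Fintype.sum_equiv unitsEquivNeZero (fun u : (ZMod ℓ)ˣ => G u)
        (fun i : {i : ZMod ℓ // i ≠ 0} => G i) (fun u => rfl)).symm
    have hzero : ∑ u : (ZMod ℓ)ˣ, G u = 0 := by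
      have hcop : s.Coprime ℓ := by
        rw [hs]
        exact Nat.Coprime.pow_left _ hℓq.symm
      refine sum_group_eq_zero hk (s := ZMod.unitOfCoprime s hcop) ?_ ?_
      · rw [← orderOf_units, ZMod.coe_unitOfCoprime, hs]
        push_cast
        exact hord
      · intro u
        rw [Units.val_mul, ZMod.coe_unitOfCoprime]
        exact hGs _
    have hG0 : G 0 = Fx φ₁ y := by
      rw [hG]
      simp
    have hpl : ((ℓ : ℕ) : k) = 1 := by
      have hne : (q : ZMod ℓ) ≠ 0 := by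
        intro h0
        rw [ZMod.natCast_eq_zero_iff] at h0
        exact (Nat.Prime.coprime_iff_not_dvd hℓ).mp hℓq h0
      have h4 : (q : ZMod ℓ) ^ (2 * n.totient) ≠ 0 := pow_ne_zero _ hne
      have h5 : ((q : ZMod ℓ) ^ (2 * n.totient)) ^ (ℓ - 1) = 1 := ZMod.pow_card_sub_one_eq_one h4
      obtain ⟨t, ht⟩ := hord.trans (orderOf_dvd_of_pow_eq_one h5)
      have h6 : ℓ = 1 + p * t := by have := hℓ.pos; omega
      rw [h6]
      push_cast
      rw [hk, zero_mul, add_zero]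
    rw [hFℓ, hsum, hunits, hzero, hG0, add_zero] at hT
    rw [hpl] at hlam
    have h7 : (lam ℓ - (1 + 1)) * Fx φ₁ y = 0 := by linear_combination hT
    exact (mul_eq_zero.mp h7).resolve_left (sub_ne_zero.mpr hlam)
  apply eq_zero_of_Fx h1.1
  intro x
  obtain ⟨e, n', hn', hden⟩ := Nat.exists_eq_pow_mul_and_not_dvd x.den_ne_zero q hq.ne_one
  rw [← hqm e x]
  refine key n' _ (q ^ e * x.num) ?_ ?_ ?_
  · rcases Nat.eq_zero_or_pos n' with h0 | h0
    · rw [h0, mul_zero] at hden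
      exact absurd hden x.den_ne_zero
    · exact h0
  · exact (Nat.Prime.coprime_iff_not_dvd hq).mpr hn'
  · have h4 : x * x.den = x.num := Rat.mul_den_eq_num x
    rw [hden] at h4
    push_cast at h4 ⊢
    rw [← h4]
    ring

end

end

end Fermat.Agent.LR
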