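import Fermat.Agent.LevelRaise.Parabolic

set_option autoImplicit false
set_option linter.unusedSectionVars false

/-!
Eigenvector lifts and Ihara's lemma for `Hom(Γ₀(N), k)`.
-/

namespace Fermat.Agent.LR

open Matrix CongruenceSubgroup
open scoped MatrixGroups
open Fermat.Agent.HeckeHom ModularCurve.Period

noncomputable section

variable {R : Type*} [CommRing R]

/-- `T_ℓ` on modular symbols -/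
def ToM {N ℓ : ℕ} (hℓ : ℓ.Prime) (hℓN : ¬ ℓ ∣ N) : MS R (Gamma0 N) →ₗ[R] MS R (Gamma0 N) where
  toFun φ := ⟨To ℓ φ.1, To_mem_MS hℓ hℓN φ.2⟩
  map_add' φ ψ := Subtype.ext (To_add ℓ φ.1 ψ.1)
  map_smul' c φ := Subtype.ext (To_smul ℓ c φ.1)

theorem ToM_val {N ℓ : ℕ} (hℓ : ℓ.Prime) (hℓN : ¬ ℓ ∣ N) (φ : MS R (Gamma0 N)) :
    (ToM hℓ hℓN φ).1 = To ℓ φ.1 := rfl

/-- `th` as a linear map -/
def thL (Γ : Subgroup SL(2, ℤ)) : MS R Γ →ₗ[R] (Additive Γ →+ R) where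
  toFun := th
  map_add' _ _ := rfl
  map_smul' _ _ := rfl

theorem thL_apply {Γ : Subgroup SL(2, ℤ)} (φ : MS R Γ) : thL Γ φ = th φ := rfl

theorem hom_thL {N ℓ : ℕ} (hℓ : ℓ.Prime) (hℓN : ¬ ℓ ∣ N) (φ : MS R (Gamma0 N)) :
    (dataT hℓ hℓN).hom R (thL _ φ) = thL _ (ToM hℓ hℓN φ) := by
  have : NeZero ℓ := ⟨hℓ.ne_zero⟩
  refine AddMonoidHom.ext fun γ => ?_
  have h1 := hom_th (dataT hℓ hℓN) (tr ℓ) (dataT_α hℓ hℓN) φ (Additive.toMul γ)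
  have h2 : hop (R := R) (tr ℓ) φ.1 = To ℓ φ.1 := To_eq_hop ℓ φ.1
  change (dataT hℓ hℓN).hom R (th φ) (Additive.ofMul (Additive.toMul γ)) = _
  rw [h1]
  exact congrFun (congrFun h2 e1) _

/-- **Eigenvectors lift to eigenvectors.** -/
theorem exists_eigen_lift {k : Type*} [Field k] {N : ℕ} (hN : 0 < N) (P : ℕ → Prop)
    (D1 : Additive (Gamma0 N) →+ k)
    (hpar : ∀ (γ : Gamma0 N) (u : Vec), dt ((γ : SL(2, ℤ)) • u) u = 0 → D1 (Additive.ofMul γ) = 0)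
    (lam : ℕ → k)
    (heig : ∀ (ℓ : ℕ) (hℓ : ℓ.Prime) (hℓN : ¬ ℓ ∣ N), P ℓ →
      (dataT hℓ hℓN).hom k D1 = lam ℓ • D1)
    {ℓ₀ : ℕ} (hℓ₀ : ℓ₀.Prime) (hℓ₀N : ¬ ℓ₀ ∣ N) (hPℓ₀ : P ℓ₀) (h0 : (N : ℤ) ∣ (ℓ₀ : ℤ) - 1)
    (hlam : lam ℓ₀ ≠ 1 + ℓ₀) :
    ∃ φ : MS k (Gamma0 N), th φ = D1 ∧ ∀ (ℓ : ℕ), ℓ.Prime → ¬ ℓ ∣ N → P ℓ →
      To ℓ φ.1 = lam ℓ • φ.1 := by
  obtain ⟨φ', hφ'⟩ := exists_lift D1 hpar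
  have hc : lam ℓ₀ - (1 + ℓ₀) ≠ 0 := sub_ne_zero.mpr hlam
  set c := lam ℓ₀ - (1 + (ℓ₀ : k)) with hcdef
  set φ : MS k (Gamma0 N) := c⁻¹ • (ToM hℓ₀ hℓ₀N φ' - (1 + (ℓ₀ : k)) • φ') with hφ
  refine ⟨φ, ?_, ?_⟩
  · rw [← thL_apply, hφ, map_smul, map_sub, map_smul, ← hom_thL, thL_apply, hφ',
      heig ℓ₀ hℓ₀ hℓ₀N hPℓ₀, ← sub_smul, smul_smul, inv_mul_cancel₀ hc, one_smul]
  · intro ℓ hℓ hℓN hPℓ
    set ψ : MS k (Gamma0 N) := ToM hℓ hℓN φ' - lam ℓ • φ' with hψ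
    have hth : th ψ = 0 := by
      rw [← thL_apply, hψ, map_sub, map_smul, ← hom_thL, thL_apply, hφ', heig ℓ hℓ hℓN hPℓ,
        sub_self]
    have h1 := To_of_th_eq_zero hN hth hℓ₀ h0
    have h2 : ToM hℓ₀ hℓ₀N ψ = (1 + (ℓ₀ : k)) • ψ := Subtype.ext h1
    have hcomm : ToM hℓ hℓN (ToM hℓ₀ hℓ₀N φ') = ToM hℓ₀ hℓ₀N (ToM hℓ hℓN φ') := by
      by_cases hne : ℓ = ℓ₀
      · subst hne; rfl
      · apply Subtype.ext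
        exact To_comm hℓ₀.ne_zero hℓ.ne_zero ((Nat.coprime_primes hℓ₀ hℓ).mpr (Ne.symm hne))
          (MS.TI φ'.2)
    have h3 : ToM hℓ hℓN φ = lam ℓ • φ := by
      rw [← sub_eq_zero]
      have h4 : ToM hℓ hℓN φ - lam ℓ • φ = c⁻¹ • (ToM hℓ₀ hℓ₀N ψ - (1 + (ℓ₀ : k)) • ψ) := by
        rw [hφ, hψ, map_smul, map_sub, map_sub, map_smul, map_smul, hcomm]
        module
      rw [h4, h2, sub_self, smul_zero]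
    exact congrArg Subtype.val h3

theorem eq_zero_of_Vo {q : ℕ} (hq : q ≠ 0) {φ : Vec → Vec → R} (hφ : φ ∈ Coc R) (h : Vo q φ = 0) :
    φ = 0 := by
  have hA : (q : ℤ) * 1 ≠ 0 := by rw [mul_one]; exact_mod_cast hq
  rw [Vo, ts_eq hA] at h
  set A := ut q 0 1 hA
  funext u v
  have h1 := congrFun (congrFun h (adj A • u)) (adj A • v)
  rw [slash_apply, ← mul_smul, ← mul_smul, mul_adj_self] at h1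
  refine Eq.trans ?_ h1
  apply Coc.congr hφ
  · simp only [dt, det2, scal_smul_val]; ring
  · simp only [dt, det2, scal_smul_val]; ring

/-- **Ihara's lemma for homomorphisms.** -/
theorem ihara_hom {k : Type*} [Field k] {p : ℕ} (hk : (p : k) = 0) (hk2 : (2 : k) ≠ 0)
    {N q : ℕ} (hN : 0 < N) (hq : q.Prime) (hqN : ¬ q ∣ N) (w : ALD N q)
    (D1 D2 : Additive (Gamma0 N) →+ k) (lam : ℕ → k) (good : ℕ → Prop)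
    (hgood : ∀ ℓ, good ℓ → ¬ ℓ ∣ N * q ∧ (ℓ : k) ≠ 0)
    (heig1 : ∀ (ℓ : ℕ) (hℓ : ℓ.Prime) (hℓN : ¬ ℓ ∣ N), good ℓ →
      (dataT hℓ hℓN).hom k D1 = lam ℓ • D1)
    (heig2 : ∀ (ℓ : ℕ) (hℓ : ℓ.Prime) (hℓN : ¬ ℓ ∣ N), good ℓ →
      (dataT hℓ hℓN).hom k D2 = lam ℓ • D2)
    (hrel : ∀ (γ γ' : SL(2, ℤ)) (hγ : γ ∈ Gamma0 (N * q)) (hγ' : γ' ∈ Gamma0 (N * q)),
      ofSL γ * w.mat = w.mat * ofSL γ' →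
      D1 (Additive.ofMul ⟨γ, Gamma0_mul_le N q hγ⟩) +
        D2 (Additive.ofMul ⟨γ', Gamma0_mul_le N q hγ'⟩) = 0)
    (G2 : ∀ n m : ℕ, 0 < n → 0 < m → ∃ ℓ : ℕ, ℓ.Prime ∧ good ℓ ∧ n ∣ ℓ - 1 ∧
      p ∣ orderOf ((q : ZMod ℓ) ^ m) ∧ lam ℓ ≠ 1 + ℓ) :
    D1 = 0 ∧ D2 = 0 := by
  have hNq : 0 < N * q := Nat.mul_pos hN hq.pos
  obtain ⟨ℓ₀, hℓ₀, hg₀, hd₀, -, hlam₀⟩ := G2 (N * q) 1 hNq one_pos
  have hℓ₀Nq := (hgood ℓ₀ hg₀).1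
  have hℓ₀N : ¬ ℓ₀ ∣ N := fun h => hℓ₀Nq (h.mul_right _)
  have hd1 : ((N * q : ℕ) : ℤ) ∣ (ℓ₀ : ℤ) - 1 := by
    have : ((ℓ₀ - 1 : ℕ) : ℤ) = (ℓ₀ : ℤ) - 1 := by
      have := hℓ₀.pos
      omega
    rw [← this]
    exact_mod_cast hd₀
  have hd2 : (N : ℤ) ∣ (ℓ₀ : ℤ) - 1 := by
    refine Dvd.dvd.trans ?_ hd1
    push_cast
    exact Dvd.intro _ rfl
  have hpar1 := parabolic_of_eigen hk2 hN hℓ₀ hℓ₀N hd2 (hgood ℓ₀ hg₀).2 D1 hlam₀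
    (heig1 ℓ₀ hℓ₀ hℓ₀N hg₀)
  have hpar2 := parabolic_of_eigen hk2 hN hℓ₀ hℓ₀N hd2 (hgood ℓ₀ hg₀).2 D2 hlam₀
    (heig2 ℓ₀ hℓ₀ hℓ₀N hg₀)
  obtain ⟨φ₁, hφ₁, hT₁⟩ := exists_eigen_lift hN good D1 hpar1 lam heig1 hℓ₀ hℓ₀N hg₀ hd2 hlam₀
  obtain ⟨φ₂, hφ₂, hT₂⟩ := exists_eigen_lift hN good D2 hpar2 lam heig2 hℓ₀ hℓ₀N hg₀ hd2 hlam₀
  have hφ₁' := MS_anti (Gamma0_mul_le N q) φ₁.2
  have hφ₂' := MS_anti (Gamma0_mul_le N q) φ₂.2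
  set ψ : MS k (Gamma0 (N * q)) := ⟨slash w.mat φ₁.1 + φ₂.1,
    add_mem (w.slash_mem hφ₁') hφ₂'⟩ with hψ
  have hth : th ψ = 0 := by
    refine AddMonoidHom.ext fun γ' => ?_
    obtain ⟨γ, hγ, h⟩ := w.norm2 (Additive.toMul γ').2
    have h1 := hrel γ (Additive.toMul γ' : Gamma0 (N * q)) hγ (Additive.toMul γ').2 h.symm
    rw [← hφ₁, ← hφ₂, th_apply' φ₁ _ (w.mat • e1), th_apply φ₂] at h1
    change φ₁.1 (w.mat • e1) (w.mat • (((Additive.toMul γ' : Gamma0 (N * q)) : SL(2, ℤ)) • e1)) +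
      φ₂.1 e1 (((Additive.toMul γ' : Gamma0 (N * q)) : SL(2, ℤ)) • e1) = 0
    rw [← h1]
    congr 2
    rw [sl_smul_def, ← mul_smul, h, mul_smul]
    rfl
  have h1 := To_of_th_eq_zero hNq hth hℓ₀ hd1
  have h2 : To ℓ₀ ψ.1 = lam ℓ₀ • ψ.1 := by
    change To ℓ₀ (slash w.mat φ₁.1 + φ₂.1) = lam ℓ₀ • (slash w.mat φ₁.1 + φ₂.1)
    rw [To_add, w.To_slash hℓ₀ hℓ₀Nq hφ₁', hT₁ ℓ₀ hℓ₀ hℓ₀N hg₀, hT₂ ℓ₀ hℓ₀ hℓ₀N hg₀, map_smul,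
      smul_add]
  rw [h1] at h2
  have h3 : ψ.1 = 0 := by
    have h4 : (lam ℓ₀ - (1 + ℓ₀)) • ψ.1 = 0 := by rw [sub_smul, ← h2, sub_self]
    exact (smul_eq_zero.mp h4).resolve_left (sub_ne_zero.mpr hlam₀)
  have h4 : φ₂.1 = - Vo q φ₁.1 := by
    rw [← w.slash_old φ₁.2, eq_neg_iff_add_eq_zero, add_comm]
    exact h3
  have h5 : φ₂.1 = 0 := ihara hk hq hqN φ₂.2 φ₁.2 h4 lam good
    (fun ℓ hg h => (hgood ℓ hg).1 (h ▸ Dvd.intro_left _ rfl))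
    (fun ℓ hℓ hg => hT₂ ℓ hℓ (fun h => (hgood ℓ hg).1 (h.mul_right _)) hg) G2
  have h6 : φ₁.1 = 0 := by
    apply eq_zero_of_Vo hq.ne_zero φ₁.2.1
    rw [h5, eq_comm, neg_eq_zero] at h4
    exact h4
  constructor
  · rw [← hφ₁]
    have : φ₁ = 0 := Subtype.ext h6
    rw [this, ← thL_apply, map_zero]
  · rw [← hφ₂]
    have : φ₂ = 0 := Subtype.ext h5
    rw [this, ← thL_apply, map_zero]

end

end Fermat.Agent.LR
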