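import Fermat.Agent.LevelRaise.Unfold

set_option autoImplicit false
set_option linter.unusedSectionVars false

/-!
The map `d ↦ (γ ↦ d (PD γ))` is injective modulo every odd prime.
-/

namespace Fermat.Agent.LR

open Matrix
open scoped MatrixGroups

noncomputable section

variable {Γ : Subgroup SL(2, ℤ)}

theorem eg_neg (g : SL(2, ℤ)) : eg Γ (-g) = eg Γ g := by
  have h : ∀ x : Vec, dt (-g • x) (g • x) = 0 := by
    intro x
    have h1 : -g = g * (-1 : SL(2, ℤ)) := by rw [mul_neg, mul_one]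
    rw [h1, mul_smul, dt_sl_smul, neg_one_smul]
    exact dt_eq_zero_symm (dt_neg_self x)
  exact ev_congr (h _) (h _)

theorem mS_smul_e1 : mS • e1 = e2 := by
  apply Vec.val_ext
  rw [sl_smul_e1]; rfl

theorem dt_mS_smul_e2 : dt (mS • e2) e1 = 0 := by
  rw [dt, sl_smul_e2]; simp [mS, e1_val, det2]

theorem eg_mul_S (g : SL(2, ℤ)) : eg Γ (g * mS) = - eg Γ g := by
  rw [eg, mul_smul, mul_smul, mS_smul_e1, eg, ← ev_swap]
  exact ev_congr (dt_self _) (by rw [dt_sl_smul]; exact dt_mS_smul_e2)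

theorem eg_mul_S_inv (g : SL(2, ℤ)) : eg Γ (g * mS⁻¹) = - eg Γ g := by
  have h := eg_mul_S (Γ := Γ) (g * mS⁻¹)
  rw [inv_mul_cancel_right] at h
  rw [h, neg_neg]

theorem mU_smul_e1 : mU • e1 = e2 := by
  apply Vec.val_ext
  rw [sl_smul_e1]; rfl

theorem dt_U3 : dt (mU • mU • e2) e1 = 0 := by
  have h : mU • mU • e2 = (mU * mU) • e2 := by rw [mul_smul]
  rw [h, dt, sl_smul_e2, mul_val, mul_val]
  simp [mU, e1_val, det2]

theorem eg_U_sum (g : SL(2, ℤ)) : eg Γ g + eg Γ (g * mU) + eg Γ (g * mU * mU) = 0 := by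
  simp only [eg, mul_smul, mU_smul_e1]
  have h1 : ev Γ (g • mU • e2) (g • mU • mU • e2) = ev Γ (g • mU • e2) (g • e1) :=
    ev_congr (dt_self _) (by rw [dt_sl_smul]; exact dt_U3)
  rw [h1, ev_add, ev_add]
  exact ev_par (dt_self _)

/-- crossing numbers at level `Γ` in terms of `f0`. -/
theorem II_S_eq (Γ : Subgroup SL(2, ℤ)) [DecidablePred (· ∈ Γ)] (g k : SL(2, ℤ)) :
    II (GG Γ) (ofSL (g * mS)) (ofSL g) (k • e1) (k • e2) =
      ∑ t ∈ T4, if g * t * k⁻¹ ∈ Γ then f0 t else 0 := by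
  classical
  have hterm : ∀ b : SL(2, ℤ), sd (ofSL (g * mS)) (ofSL b • k • e1) (ofSL b • k • e2) -
      sd (ofSL g) (ofSL b • k • e1) (ofSL b • k • e2) = f0 (g⁻¹ * b * k) := by
    intro b
    have h1 : ∀ x : Vec, ofSL b • k • x = ofSL g • ((g⁻¹ * b * k) • x) := by
      intro x
      change b • k • x = g • _
      rw [← mul_smul, ← mul_smul]
      congr 1
      group
    rw [h1, h1, map_mul, sd_left]
    have h2 := sd_left (ofSL g) 1 ((g⁻¹ * b * k) • e1) ((g⁻¹ * b * k) • e2)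
    rw [mul_one] at h2
    rw [h2]
    rfl
  unfold II GG
  rw [finsum_mem_image (fun a _ b _ h => ofSL_injective h)]
  rw [finsum_mem_congr rfl (fun b _ => hterm b)]
  rw [finsum_mem_eq_sum_of_inter_support_eq _
    (t := (T4.image fun t => g * t * k⁻¹).filter (· ∈ Γ))]
  · rw [Finset.sum_filter, Finset.sum_image]
    · refine Finset.sum_congr rfl fun t _ => ?_
      have : g⁻¹ * (g * t * k⁻¹) * k = t := by group
      rw [this]
    · intro a _ b _ h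
      exact mul_left_cancel (mul_right_cancel h)
  · ext b
    simp only [Set.mem_inter_iff, SetLike.mem_coe, Function.mem_support, Finset.coe_filter,
      Finset.mem_image, Set.mem_ofPred_eq]
    constructor
    · rintro ⟨hb, hne⟩
      refine ⟨⟨⟨g⁻¹ * b * k, mem_T4_of_f0 hne, by group⟩, hb⟩, hne⟩
    · rintro ⟨⟨-, hb⟩, hne⟩
      exact ⟨hb, hne⟩

/-- the function `ψ` attached to a combination of unimodular symbols -/
def psi (Γ : Subgroup SL(2, ℤ)) (c : SL(2, ℤ) →₀ ℤ) (g : SL(2, ℤ)) : ℤ :=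
  c.sum fun k n => n * II (GG Γ) 1 (ofSL g) (k • e1) (k • e2)

theorem psi_mul {γ : SL(2, ℤ)} (hγ : γ ∈ Γ) (c : SL(2, ℤ) →₀ ℤ) (g : SL(2, ℤ)) :
    psi Γ c (γ * g) = psi Γ c γ + psi Γ c g := by
  unfold psi
  rw [← Finsupp.sum_add]
  refine Finsupp.sum_congr fun k _ => ?_
  have := PD_mul hγ (δ := g) (k • e1) (k • e2)
  unfold PD at this
  rw [this]; ring

theorem II_mul_U (B : Set IM) (g₁ : IM) (g : SL(2, ℤ)) (u v : Vec) :
    II B g₁ (ofSL (g * mU)) u v = II B g₁ (ofSL g) u v := by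
  unfold II
  exact finsum_mem_congr rfl fun β _ => by rw [sd_mul_U]

theorem psi_mul_U (c : SL(2, ℤ) →₀ ℤ) (g : SL(2, ℤ)) :
    psi Γ c (g * mU) = psi Γ c g := by
  unfold psi
  exact Finsupp.sum_congr fun k _ => by rw [II_mul_U]

theorem psi_sub_S [DecidablePred (· ∈ Γ)] (c : SL(2, ℤ) →₀ ℤ) (g : SL(2, ℤ)) :
    psi Γ c g - psi Γ c (g * mS) =
      c.sum fun k n => n * ∑ t ∈ T4, if g * t * k⁻¹ ∈ Γ then f0 t else 0 := by
  unfold psi
  rw [← Finsupp.sum_sub]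
  refine Finsupp.sum_congr fun k _ => ?_
  rw [← II_S_eq, ← mul_sub]
  congr 1
  have h1 := II_add (GG_det (Γ := Γ)) one_det_pos (ofSL_det_pos (g * mS)) (ofSL_det_pos g)
    (k • e1) (k • e2)
  linarith

theorem sum_T4 {A : Type*} [AddCommMonoid A] (f : SL(2, ℤ) → A) :
    ∑ t ∈ T4, f t = f 1 + (f (-1) + (f mS + f (-mS))) := by
  have h1 : (1 : SL(2, ℤ)) ∉ ({-1, mS, -mS} : Finset SL(2, ℤ)) := by
    intro h
    have h' : ∀ x : SL(2, ℤ), (1 : SL(2, ℤ)) = x → x.1 0 0 = 1 := by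
      rintro x rfl; rfl
    rw [Finset.mem_insert, Finset.mem_insert, Finset.mem_singleton] at h
    rcases h with h | h | h
    · have := h' _ h; rw [neg_val'] at this; exact absurd this (by simp [one_val])
    · have := h' _ h; exact absurd this (by simp [mS])
    · have := h' _ h; rw [neg_val'] at this; exact absurd this (by simp [mS])
  have h2 : (-1 : SL(2, ℤ)) ∉ ({mS, -mS} : Finset SL(2, ℤ)) := by
    intro h
    have h' : ∀ x : SL(2, ℤ), (-1 : SL(2, ℤ)) = x → x.1 0 0 = -1 := by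
      rintro x rfl; rw [neg_val']; rfl
    rw [Finset.mem_insert, Finset.mem_singleton] at h
    rcases h with h | h
    · have := h' _ h; exact absurd this (by simp [mS])
    · have := h' _ h; rw [neg_val'] at this; exact absurd this (by simp [mS])
  have h3 : mS ∉ ({-mS} : Finset SL(2, ℤ)) := by
    intro h
    rw [Finset.mem_singleton] at h
    have h' : ∀ x : SL(2, ℤ), mS = x → x.1 1 0 = 1 := by
      rintro x rfl; rfl
    have := h' _ h
    rw [neg_val'] at this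
    exact absurd this (by simp [mS])
  rw [T4, Finset.sum_insert h1, Finset.sum_insert h2, Finset.sum_insert h3, Finset.sum_singleton]

theorem unfold_sum [Fintype (SL(2, ℤ) ⧸ Γ)] [DecidablePred (· ∈ Γ)] (k t : SL(2, ℤ)) (n : ℤ) :
    ∑ x : SL(2, ℤ) ⧸ Γ, (if x.out⁻¹ * t * k⁻¹ ∈ Γ then n else 0) • eg Γ (x.out⁻¹) =
      n • eg Γ (k * t⁻¹) := by
  classical
  have h1 : ∀ x : SL(2, ℤ) ⧸ Γ, x.out⁻¹ * t * k⁻¹ ∈ Γ ↔
      x = (QuotientGroup.mk (t * k⁻¹) : SL(2, ℤ) ⧸ Γ) := by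
    intro x
    conv_rhs => rw [← QuotientGroup.out_eq' x]
    rw [mul_assoc]
    exact QuotientGroup.eq.symm
  rw [Finset.sum_eq_single (QuotientGroup.mk (t * k⁻¹) : SL(2, ℤ) ⧸ Γ)]
  · have h2 := (h1 (QuotientGroup.mk (t * k⁻¹))).mpr rfl
    rw [if_pos h2]
    congr 1
    have h3 : (QuotientGroup.mk (t * k⁻¹) : SL(2, ℤ) ⧸ Γ).out⁻¹ =
        ((QuotientGroup.mk (t * k⁻¹) : SL(2, ℤ) ⧸ Γ).out⁻¹ * t * k⁻¹) * (k * t⁻¹) := by group
    conv_lhs => rw [h3]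
    exact eg_mul_left h2 _
  · intro x _ hx
    rw [if_neg (fun h => hx ((h1 x).mp h)), zero_smul]
  · intro h
    exact absurd (Finset.mem_univ _) h

/-- the unfolding identity -/
theorem unfold_identity [Fintype (SL(2, ℤ) ⧸ Γ)] (c : SL(2, ℤ) →₀ ℤ) :
    ∑ x : SL(2, ℤ) ⧸ Γ, (psi Γ c (x.out⁻¹) - psi Γ c (x.out⁻¹ * mS)) • eg Γ (x.out⁻¹) =
      (-8 : ℤ) • c.sum fun k n => n • eg Γ k := by
  classical
  have h1 : ∀ x : SL(2, ℤ) ⧸ Γ,
      (psi Γ c (x.out⁻¹) - psi Γ c (x.out⁻¹ * mS)) • eg Γ (x.out⁻¹) =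
      c.sum fun k n => n • ∑ t ∈ T4, (if x.out⁻¹ * t * k⁻¹ ∈ Γ then f0 t else 0) •
        eg Γ (x.out⁻¹) := by
    intro x
    rw [psi_sub_S, Finsupp.sum, Finsupp.sum, Finset.sum_smul]
    refine Finset.sum_congr rfl fun k _ => ?_
    rw [mul_smul, Finset.sum_smul]
  rw [Finset.sum_congr rfl fun x _ => h1 x]
  simp only [Finsupp.sum]
  rw [Finset.sum_comm, Finset.smul_sum]
  refine Finset.sum_congr rfl fun k _ => ?_
  rw [← Finset.smul_sum, Finset.sum_comm, Finset.sum_congr rfl fun t _ => unfold_sum k t (f0 t)]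
  rw [sum_T4, f0_one, f0_neg_one, f0_S, f0_neg_S, inv_one, mul_one, eg_mul_S_inv]
  have h2 : k * (-1 : SL(2, ℤ))⁻¹ = -k := by
    rw [inv_eq_of_mul_eq_one_right (a := (-1 : SL(2, ℤ))) (b := -1) (by simp), mul_neg, mul_one]
  have h3 : k * (-mS)⁻¹ = -(k * mS⁻¹) := by
    rw [inv_eq_of_mul_eq_one_right (a := -mS) (b := -mS⁻¹) (by simp), mul_neg]
  rw [h2, h3, eg_neg, eg_neg, eg_mul_S_inv]
  module

/-- a combination with zero `ψ`-function modulo `p` vanishes. -/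
theorem sum_periodic_eq_zero [Fintype (SL(2, ℤ) ⧸ Γ)] {F : SL(2, ℤ) → ℤ}
    (hF : ∀ γ ∈ Γ, ∀ g, F (γ * g) = F g) (hFU : ∀ g, F (g * mU) = F g) :
    ∑ x : SL(2, ℤ) ⧸ Γ, (F (x.out⁻¹) - F (x.out⁻¹ * mS)) • eg Γ (x.out⁻¹) = 0 := by
  set G : SL(2, ℤ) → (MS ℂ Γ →ₗ[ℂ] ℂ) := fun g => F g • eg Γ g with hG
  have hGinv : ∀ γ ∈ Γ, ∀ g, G (γ * g) = G g := by
    intro γ hγ g
    rw [hG]
    simp only
    rw [hF γ hγ, eg_mul_left hγ]
  have h1 : ∀ x : SL(2, ℤ) ⧸ Γ, (F (x.out⁻¹) - F (x.out⁻¹ * mS)) • eg Γ (x.out⁻¹) =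
      G (x.out⁻¹) + G (x.out⁻¹ * mS) := by
    intro x
    rw [hG]
    simp only
    rw [eg_mul_S]
    module
  rw [Finset.sum_congr rfl fun x _ => h1 x, Finset.sum_add_distrib, sum_perm hGinv]
  have h2 : (3 : ℤ) • ∑ x : SL(2, ℤ) ⧸ Γ, G (x.out⁻¹) = 0 := by
    have e1 := sum_perm hGinv mU
    have e2 := sum_perm hGinv (mU * mU)
    have e3 : ∑ x : SL(2, ℤ) ⧸ Γ, (G (x.out⁻¹) + G (x.out⁻¹ * mU) + G (x.out⁻¹ * (mU * mU))) = 0 := by
      refine Finset.sum_eq_zero fun x _ => ?_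
      rw [hG]
      simp only
      rw [← mul_assoc, hFU (x.out⁻¹ * mU), hFU, ← smul_add, ← smul_add, eg_U_sum, smul_zero]
    rw [Finset.sum_add_distrib, Finset.sum_add_distrib, e1, e2] at e3
    rw [← e3]
    module
  have h3 : ∑ x : SL(2, ℤ) ⧸ Γ, G (x.out⁻¹) = 0 := by
    have : (3 : ℂ) • ∑ x : SL(2, ℤ) ⧸ Γ, G (x.out⁻¹) = 0 := by
      rw [← h2, ← Int.cast_smul_eq_zsmul ℂ]; norm_num
    exact (smul_eq_zero.mp this).resolve_left (by norm_num)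
  rw [h3, add_zero]

variable (Γ) in
/-- `PD γ` as a complex modular symbol -/
def PDC (γ : SL(2, ℤ)) (hγ : γ ∈ Γ) : MS ℂ Γ :=
  ⟨fun u v => (PD Γ γ u v : ℂ), ⟨⟨fun u v w => by
    have := (PD_mem_MS hγ).1.1 u v w
    change (PD Γ γ u v : ℂ) + (PD Γ γ v w : ℂ) = (PD Γ γ u w : ℂ)
    exact_mod_cast this, fun u v h => by
    have := (PD_mem_MS hγ).1.2 u v h
    change (PD Γ γ u v : ℂ) = 0
    exact_mod_cast this⟩, fun α hα u v => by
    have := (PD_mem_MS hγ).2 α hα u v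
    change (PD Γ γ (α • u) (α • v) : ℂ) = (PD Γ γ u v : ℂ)
    exact_mod_cast this⟩⟩

theorem PDC_apply (γ : SL(2, ℤ)) (hγ : γ ∈ Γ) (u v : Vec) :
    (PDC Γ γ hγ).1 u v = (PD Γ γ u v : ℂ) := rfl

theorem exists_finsupp_of_mem_LL {d : MS ℂ Γ →ₗ[ℂ] ℂ} (hd : d ∈ LL Γ) :
    ∃ c : SL(2, ℤ) →₀ ℤ, d = c.sum fun k n => n • eg Γ k := by
  rw [LL_eq_closure, ← Submodule.span_int_eq_addSubgroupClosure, Submodule.mem_toAddSubgroup,
    Finsupp.mem_span_range_iff_exists_finsupp] at hd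
  obtain ⟨c, hc⟩ := hd
  exact ⟨c, hc.symm⟩

/-- **Injectivity of the intersection pairing modulo odd primes.** -/
theorem exists_smul_of_PD [Finite (SL(2, ℤ) ⧸ Γ)] {p : ℕ} (hp : p.Prime) (hp2 : p ≠ 2)
    {d : MS ℂ Γ →ₗ[ℂ] ℂ} (hd : d ∈ LL Γ)
    (h : ∀ (γ : SL(2, ℤ)) (hγ : γ ∈ Γ), ∃ n : ℤ, d (PDC Γ γ hγ) = (p : ℂ) * n) :
    ∃ d' ∈ LL Γ, d = (p : ℤ) • d' := by
  have := Fintype.ofFinite (SL(2, ℤ) ⧸ Γ)
  obtain ⟨c, rfl⟩ := exists_finsupp_of_mem_LL hd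
  have hpsi : ∀ γ ∈ Γ, (p : ℤ) ∣ psi Γ c γ := by
    intro γ hγ
    obtain ⟨n, hn⟩ := h γ hγ
    refine ⟨n, ?_⟩
    have h1 : (c.sum fun k n => n • eg Γ k) (PDC Γ γ hγ) = (psi Γ c γ : ℂ) := by
      rw [psi, Finsupp.sum, LinearMap.sum_apply, Finsupp.sum, Int.cast_sum]
      refine Finset.sum_congr rfl fun k _ => ?_
      rw [← Int.cast_smul_eq_zsmul ℂ, LinearMap.smul_apply, smul_eq_mul, Int.cast_mul]
      rfl
    rw [h1] at hn
    exact_mod_cast hn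
  set F : SL(2, ℤ) → ℤ := fun g => psi Γ c g % p with hF
  have h0 := sum_periodic_eq_zero (Γ := Γ) (F := F) (by
    intro γ hγ g
    rw [hF]
    simp only
    rw [psi_mul hγ, Int.add_emod, Int.emod_eq_zero_of_dvd (hpsi γ hγ), zero_add, Int.emod_emod]) (by
    intro g
    rw [hF]
    simp only
    rw [psi_mul_U])
  have h1 := unfold_identity (Γ := Γ) c
  set d := c.sum fun k n => n • eg Γ k with hd'
  set R : MS ℂ Γ →ₗ[ℂ] ℂ := ∑ x : SL(2, ℤ) ⧸ Γ,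
    (psi Γ c (x.out⁻¹) / p - psi Γ c (x.out⁻¹ * mS) / p) • eg Γ (x.out⁻¹) with hR
  have hRmem : R ∈ LL Γ := sum_mem fun x _ => zsmul_mem (eg_mem _) _
  have h2 : (-8 : ℤ) • d = (p : ℤ) • R := by
    rw [← h1, ← sub_zero (∑ x : SL(2, ℤ) ⧸ Γ, _), ← h0, ← Finset.sum_sub_distrib, hR,
      Finset.smul_sum]
    refine Finset.sum_congr rfl fun x _ => ?_
    rw [← sub_smul, smul_smul]
    congr 1
    rw [hF]
    simp only
    have e1 := Int.mul_ediv_add_emod (psi Γ c (x.out⁻¹)) p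
    have e2 := Int.mul_ediv_add_emod (psi Γ c (x.out⁻¹ * mS)) p
    linear_combination e2 - e1
  have hcop : IsCoprime (8 : ℤ) (p : ℤ) := by
    rw [show (8 : ℤ) = 2 ^ 3 by norm_num]
    apply IsCoprime.pow_left
    rw [show (2 : ℤ) = ((2 : ℕ) : ℤ) by norm_num]
    exact Nat.isCoprime_iff_coprime.mpr ((Nat.coprime_primes Nat.prime_two hp).mpr (Ne.symm hp2))
  obtain ⟨a, b, hab⟩ := hcop
  refine ⟨(-a) • R + b • d, add_mem (zsmul_mem hRmem _) (zsmul_mem hd _), ?_⟩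
  have h3 : d = (a * 8 + b * p) • d := by rw [hab, one_smul]
  rw [smul_add, smul_comm (p : ℤ) (-a) R, ← h2]
  conv_lhs => rw [h3]
  module

end

end Fermat.Agent.LR
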