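import Fermat.Agent.LevelRaise.IharaHom

set_option autoImplicit false
set_option linter.unusedSectionVars false

/-!
Operators on the lattices of modular symbols.
-/

namespace Fermat.Agent.LR

open Matrix CongruenceSubgroup
open scoped MatrixGroups
open Fermat.Agent.HeckeHom ModularCurve.Period

noncomputable section

variable {Γ Γ' Γ'' : Subgroup SL(2, ℤ)}

theorem comp_mem_LL (F : MS ℂ Γ' →ₗ[ℂ] MS ℂ Γ) (h : ∀ u v, (ev Γ u v).comp F ∈ LL Γ')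
    {d : MS ℂ Γ →ₗ[ℂ] ℂ} (hd : d ∈ LL Γ) : d.comp F ∈ LL Γ' := by
  refine AddSubgroup.closure_induction (p := fun d _ => d.comp F ∈ LL Γ') ?_ ?_ ?_ ?_ hd
  · rintro _ ⟨⟨u, v⟩, rfl⟩
    exact h u v
  · rw [LinearMap.zero_comp]; exact zero_mem _
  · intro x y _ _ hx hy
    rw [LinearMap.add_comp]; exact add_mem hx hy
  · intro x _ hx
    rw [LinearMap.neg_comp]; exact neg_mem hx

/-- transposed maps -/
def LLmap (F : MS ℂ Γ' →ₗ[ℂ] MS ℂ Γ) (h : ∀ u v, (ev Γ u v).comp F ∈ LL Γ') : LL Γ →+ LL Γ' where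
  toFun d := ⟨d.1.comp F, comp_mem_LL F h d.2⟩
  map_zero' := Subtype.ext (LinearMap.zero_comp _)
  map_add' _ _ := Subtype.ext (LinearMap.add_comp _ _ _)

theorem LLmap_val (F : MS ℂ Γ' →ₗ[ℂ] MS ℂ Γ) (h : ∀ u v, (ev Γ u v).comp F ∈ LL Γ') (d : LL Γ) :
    (LLmap F h d).1 = d.1.comp F := rfl

/-- a functional on the lattice as a modular symbol -/
def hat {R : Type*} [CommRing R] (x : LL Γ →+ R) : MS R Γ :=
  ⟨fun u v => x ⟨ev Γ u v, ev_mem u v⟩, ⟨⟨fun u v w => by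
    rw [← map_add]
    congr 1
    exact Subtype.ext (ev_add u v w), fun u v h => by
    have : (⟨ev Γ u v, ev_mem u v⟩ : LL Γ) = 0 := Subtype.ext (ev_par h)
    change x ⟨ev Γ u v, ev_mem u v⟩ = 0
    rw [this, map_zero]⟩, fun γ hγ u v => by
    have : (⟨ev Γ (γ • u) (γ • v), ev_mem _ _⟩ : LL Γ) = ⟨ev Γ u v, ev_mem u v⟩ :=
      Subtype.ext (ev_inv hγ u v)
    change x ⟨ev Γ (γ • u) (γ • v), ev_mem _ _⟩ = x ⟨ev Γ u v, ev_mem u v⟩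
    rw [this]⟩⟩

theorem hat_apply {R : Type*} [CommRing R] (x : LL Γ →+ R) (u v : Vec) :
    (hat x).1 u v = x ⟨ev Γ u v, ev_mem u v⟩ := rfl

theorem LL_hom_ext {A : Type*} [AddCommGroup A] {x y : LL Γ →+ A}
    (h : ∀ u v, x ⟨ev Γ u v, ev_mem u v⟩ = y ⟨ev Γ u v, ev_mem u v⟩) : x = y := by
  refine AddMonoidHom.ext fun d => ?_
  obtain ⟨d, hd⟩ := d
  refine AddSubgroup.closure_induction (p := fun d hd => x ⟨d, hd⟩ = y ⟨d, hd⟩) ?_ ?_ ?_ ?_ hd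
  · rintro _ ⟨⟨u, v⟩, rfl⟩
    exact h u v
  · have : (⟨0, zero_mem _⟩ : LL Γ) = 0 := rfl
    rw [this, map_zero, map_zero]
  · intro a b ha hb h1 h2
    have : (⟨a + b, add_mem ha hb⟩ : LL Γ) = ⟨a, ha⟩ + ⟨b, hb⟩ := rfl
    rw [this, map_add, map_add, h1, h2]
  · intro a ha h1
    have : (⟨-a, neg_mem ha⟩ : LL Γ) = -⟨a, ha⟩ := rfl
    rw [this, map_neg, map_neg, h1]

theorem hat_eq_zero {R : Type*} [CommRing R] {x : LL Γ →+ R} (h : (hat x).1 = 0) : x = 0 :=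
  LL_hom_ext fun u v => congrFun (congrFun h u) v

instance : Module.IsTorsionFree ℤ (LL Γ) := by
  apply Module.IsTorsionFree.of_smul_eq_zero
  intro n d h
  by_cases hn : n = 0
  · exact Or.inl hn
  · right
    have h1 : n • d.1 = 0 := congrArg Subtype.val h
    rw [← Int.cast_smul_eq_zsmul ℂ] at h1
    exact Subtype.ext ((smul_eq_zero.mp h1).resolve_left (by exact_mod_cast hn))

instance [Finite (SL(2, ℤ) ⧸ Γ)] : Module.Finite ℤ (LL Γ) :=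
  Module.Finite.iff_addGroup_fg.mpr inferInstance

/-! integrality of the intersection numbers -/

theorem exists_int (d : LL Γ) {φ : MS ℂ Γ} (hφ : ∀ u v, ∃ n : ℤ, φ.1 u v = n) :
    ∃ n : ℤ, d.1 φ = n := by
  obtain ⟨d, hd⟩ := d
  refine AddSubgroup.closure_induction
    (p := fun (d : MS ℂ Γ →ₗ[ℂ] ℂ) _ => ∃ n : ℤ, d φ = (n : ℂ)) ?_ ?_ ?_ ?_ hd
  · rintro _ ⟨⟨u, v⟩, rfl⟩
    exact hφ u v
  · exact ⟨0, by simp⟩
  · rintro a b _ _ ⟨m, hm⟩ ⟨n, hn⟩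
    exact ⟨m + n, by rw [LinearMap.add_apply, hm, hn]; push_cast; rfl⟩
  · rintro a _ ⟨m, hm⟩
    exact ⟨-m, by rw [LinearMap.neg_apply, hm]; push_cast; rfl⟩

theorem exists_pd (γ : SL(2, ℤ)) (hγ : γ ∈ Γ) (d : LL Γ) : ∃ n : ℤ, d.1 (PDC Γ γ hγ) = n :=
  exists_int d fun _ _ => ⟨_, rfl⟩

/-- integral intersection numbers -/
def pdv (γ : Γ) (d : LL Γ) : ℤ := (exists_pd γ.1 γ.2 d).choose

theorem pdv_spec (γ : Γ) (d : LL Γ) : d.1 (PDC Γ γ.1 γ.2) = (pdv γ d : ℂ) :=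
  (exists_pd γ.1 γ.2 d).choose_spec

/-- integral intersection numbers -/
def pd (γ : Γ) : LL Γ →+ ℤ where
  toFun d := pdv γ d
  map_zero' := by
    have h := pdv_spec γ (0 : LL Γ)
    have h1 : ((0 : LL Γ) : MS ℂ Γ →ₗ[ℂ] ℂ) (PDC Γ γ.1 γ.2) = 0 := rfl
    rw [h1] at h
    exact_mod_cast h.symm
  map_add' x y := by
    have h := pdv_spec γ (x + y)
    have h3 : (x + y).1 (PDC Γ γ.1 γ.2) = x.1 (PDC Γ γ.1 γ.2) + y.1 (PDC Γ γ.1 γ.2) := rfl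
    rw [h3, pdv_spec, pdv_spec] at h
    exact_mod_cast h.symm

theorem pd_spec (γ : Γ) (d : LL Γ) : d.1 (PDC Γ γ.1 γ.2) = (pd γ d : ℂ) := pdv_spec γ d

theorem PDC_mul (γ δ : Γ) : PDC Γ (γ * δ : Γ).1 (γ * δ : Γ).2 =
    PDC Γ γ.1 γ.2 + PDC Γ δ.1 δ.2 := by
  apply Subtype.ext
  funext u v
  have := PD_mul (δ := δ.1) γ.2 u v
  change ((PD Γ (γ.1 * δ.1) u v : ℤ) : ℂ) = ((PD Γ γ.1 u v : ℤ) : ℂ) + ((PD Γ δ.1 u v : ℤ) : ℂ)
  rw [this]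
  push_cast
  rfl

theorem pd_mul (γ δ : Γ) (d : LL Γ) : pd (γ * δ) d = pd γ d + pd δ d := by
  have h1 := pd_spec (γ * δ) d
  rw [PDC_mul, map_add, pd_spec, pd_spec] at h1
  exact_mod_cast h1.symm

/-- the homomorphism `Γ → k` attached to a lattice element. -/
def pdHom (k : Type*) [CommRing k] (d : LL Γ) : Additive Γ →+ k where
  toFun γ := (pd (Additive.toMul γ) d : k)
  map_zero' := by
    have h := pd_mul (1 : Γ) 1 d
    rw [mul_one] at h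
    have h1 : pd (1 : Γ) d = 0 := by linarith
    change ((pd (1 : Γ) d : ℤ) : k) = 0
    rw [h1, Int.cast_zero]
  map_add' a b := by
    change ((pd (Additive.toMul a * Additive.toMul b) d : ℤ) : k) = _
    rw [pd_mul]
    push_cast
    rfl

theorem pdHom_apply (k : Type*) [CommRing k] (d : LL Γ) (γ : Γ) :
    pdHom k d (Additive.ofMul γ) = (pd γ d : k) := rfl

/-! specific operators -/

section

variable {N q : ℕ}

theorem ev_comp_hop {X : Type*} [Fintype X] (r : X → IM) (F : MS ℂ Γ' →ₗ[ℂ] MS ℂ Γ)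
    (hF : ∀ φ, (F φ).1 = hop r φ.1) (u v : Vec) :
    (ev Γ u v).comp F = ∑ x, ev Γ' (r x • u) (r x • v) := by
  refine LinearMap.ext fun φ => ?_
  rw [LinearMap.comp_apply, ev_apply, hF, hop_apply_apply, LinearMap.sum_apply]
  rfl

theorem ev_comp_hop_mem {X : Type*} [Fintype X] (r : X → IM) (F : MS ℂ Γ' →ₗ[ℂ] MS ℂ Γ)
    (hF : ∀ φ, (F φ).1 = hop r φ.1) (u v : Vec) :
    (ev Γ u v).comp F ∈ LL Γ' := by
  rw [ev_comp_hop r F hF]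
  exact sum_mem fun x _ => ev_mem _ _

/-- values of functionals on transposed operators -/
theorem hat_LLmap {R : Type*} [CommRing R] {X : Type*} [Fintype X] (r : X → IM)
    (F : MS ℂ Γ' →ₗ[ℂ] MS ℂ Γ) (hF : ∀ φ, (F φ).1 = hop r φ.1) (x : LL Γ' →+ R) (u v : Vec) :
    x (LLmap F (ev_comp_hop_mem r F hF) ⟨ev Γ u v, ev_mem u v⟩) = hop r (hat x).1 u v := by
  rw [hop_apply_apply]
  have h1 : LLmap F (ev_comp_hop_mem r F hF) ⟨ev Γ u v, ev_mem u v⟩ =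
      ∑ i, (⟨ev Γ' (r i • u) (r i • v), ev_mem _ _⟩ : LL Γ') := by
    apply Subtype.ext
    rw [LLmap_val, AddSubgroup.val_finsetSum]
    exact ev_comp_hop r F hF u v
  rw [h1, map_sum]
  rfl

theorem ToM_hop {ℓ : ℕ} [NeZero ℓ] (hℓ : ℓ.Prime) (hℓN : ¬ ℓ ∣ N) (φ : MS ℂ (Gamma0 N)) :
    (ToM hℓ hℓN φ).1 = hop (tr ℓ) φ.1 := (To_eq_hop ℓ φ.1).symm

/-- `T_ℓ` on the lattice -/
def TL {ℓ : ℕ} (hℓ : ℓ.Prime) (hℓN : ¬ ℓ ∣ N) : Module.End ℤ (LL (Gamma0 N)) :=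
  haveI : NeZero ℓ := ⟨hℓ.ne_zero⟩
  (LLmap (ToM hℓ hℓN) (ev_comp_hop_mem (tr ℓ) _ (ToM_hop hℓ hℓN))).toIntLinearMap

theorem TL_val {ℓ : ℕ} (hℓ : ℓ.Prime) (hℓN : ¬ ℓ ∣ N) (d : LL (Gamma0 N)) :
    (TL hℓ hℓN d).1 = d.1.comp (ToM hℓ hℓN) := rfl

theorem TL_comm {ℓ m : ℕ} (hℓ : ℓ.Prime) (hℓN : ¬ ℓ ∣ N) (hm : m.Prime) (hmN : ¬ m ∣ N) :
    Commute (TL hℓ hℓN) (TL hm hmN) := by
  by_cases h : ℓ = m
  · subst h; rfl
  · refine LinearMap.ext fun d => Subtype.ext (LinearMap.ext fun φ => ?_)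
    change d.1 (ToM hm hmN (ToM hℓ hℓN φ)) = d.1 (ToM hℓ hℓN (ToM hm hmN φ))
    congr 1
    apply Subtype.ext
    exact To_comm hℓ.ne_zero hm.ne_zero ((Nat.coprime_primes hℓ hm).mpr h) (MS.TI φ.2)

/-- functionals -/
theorem hat_TL {R : Type*} [CommRing R] {ℓ : ℕ} (hℓ : ℓ.Prime) (hℓN : ¬ ℓ ∣ N)
    (x : LL (Gamma0 N) →+ R) (u v : Vec) :
    x (TL hℓ hℓN ⟨ev _ u v, ev_mem u v⟩) = To ℓ (hat x).1 u v := by
  have : NeZero ℓ := ⟨hℓ.ne_zero⟩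
  rw [← To_eq_hop]
  exact hat_LLmap (tr ℓ) _ (ToM_hop hℓ hℓN) x u v

/-- **Hecke equivariance of the duality.** -/
theorem pdHom_TL (k : Type*) [CommRing k] {ℓ : ℕ} (hℓ : ℓ.Prime) (hℓN : ¬ ℓ ∣ N)
    (d : LL (Gamma0 N)) :
    (dataT hℓ hℓN).hom k (pdHom k d) = pdHom k (TL hℓ hℓN d) := by
  have : Fact ℓ.Prime := ⟨hℓ⟩
  have : NeZero ℓ := ⟨hℓ.ne_zero⟩
  refine AddMonoidHom.ext fun γ => ?_
  set g : Gamma0 N := Additive.toMul γ with hg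
  change (dataT hℓ hℓN).hom k (pdHom k d) (Additive.ofMul g) = ((pd g (TL hℓ hℓN d) : ℤ) : k)
  rw [HData.hom_apply]
  have h1 : (pd g (TL hℓ hℓN d) : ℤ) = ∑ x, pd ((dataT hℓ hℓN).coc g x) d := by
    have h2 : ((pd g (TL hℓ hℓN d) : ℤ) : ℂ) = ((∑ x, pd ((dataT hℓ hℓN).coc g x) d : ℤ) : ℂ) := by
      rw [← pd_spec, TL_val, LinearMap.comp_apply, Int.cast_sum]
      have h3 : ToM hℓ hℓN (PDC (Gamma0 N) g.1 g.2) =
          ∑ x, PDC (Gamma0 N) ((dataT hℓ hℓN).coc g x).1 ((dataT hℓ hℓN).coc g x).2 := by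
        apply Subtype.ext
        funext u v
        rw [ToM_hop, hop_apply_apply, AddSubmonoidClass.coe_finsetSum, Finset.sum_apply,
          Finset.sum_apply]
        have h4 := PD_hop (Γ := Gamma0 N) (ℓ := ℓ) (by exact_mod_cast hℓ.pos) (isReps_tr hℓN)
          (fun α hα => hα.1) (fun α hα => adj_mem_DD hα) (γ := g.1) ((dataT hℓ hℓN).perm g)
          (fun x => ((dataT hℓ hℓN).coc g x).1) (fun x => ((dataT hℓ hℓN).coc g x).2)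
          (fun x => spec_IM (dataT hℓ hℓN) (tr ℓ) (dataT_α hℓ hℓN) g x) u v
        have h5 : (((∑ x, PD (Gamma0 N) g.1 (tr ℓ x • u) (tr ℓ x • v)) : ℤ) : ℂ) =
          ((∑ x, PD (Gamma0 N) ((dataT hℓ hℓN).coc g x).1 u v : ℤ) : ℂ) := by
          exact_mod_cast h4.symm
        push_cast at h5
        exact h5
      rw [h3, map_sum]
      exact Finset.sum_congr rfl fun x _ => pd_spec _ d
    exact_mod_cast h2
  rw [h1, Int.cast_sum]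
  rfl

end

end

end Fermat.Agent.LR
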