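import Fermat.Agent.LevelRaise.PD

set_option autoImplicit false
set_option linter.unusedSectionVars false

/-!
The lattice of modular symbols and Manin's trick.
-/

namespace Fermat.Agent.LR

open Matrix
open scoped MatrixGroups

noncomputable section

variable (Γ : Subgroup SL(2, ℤ))

/-- evaluation functionals -/
def ev (u v : Vec) : MS ℂ Γ →ₗ[ℂ] ℂ where
  toFun φ := φ.1 u v
  map_add' _ _ := rfl
  map_smul' _ _ := rfl

/-- the lattice of modular symbols -/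
def LL : AddSubgroup (MS ℂ Γ →ₗ[ℂ] ℂ) := AddSubgroup.closure (Set.range fun x : Vec × Vec =>
  ev Γ x.1 x.2)

variable {Γ}

@[simp] theorem ev_apply (u v : Vec) (φ : MS ℂ Γ) : ev Γ u v φ = φ.1 u v := rfl

theorem ev_add (u v w : Vec) : ev Γ u v + ev Γ v w = ev Γ u w :=
  LinearMap.ext fun φ => φ.2.1.1 u v w

theorem ev_par {u v : Vec} (h : dt u v = 0) : ev Γ u v = 0 :=
  LinearMap.ext fun φ => φ.2.1.2 u v h

theorem ev_swap (u v : Vec) : ev Γ v u = - ev Γ u v :=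
  LinearMap.ext fun φ => Coc.swap φ.2.1 u v

theorem ev_congr {u u' v v' : Vec} (hu : dt u u' = 0) (hv : dt v v' = 0) :
    ev Γ u v = ev Γ u' v' :=
  LinearMap.ext fun φ => Coc.congr φ.2.1 hu hv

theorem ev_inv {γ : SL(2, ℤ)} (hγ : γ ∈ Γ) (u v : Vec) : ev Γ (γ • u) (γ • v) = ev Γ u v :=
  LinearMap.ext fun φ => φ.2.2 γ hγ u v

theorem ev_mem (u v : Vec) : ev Γ u v ∈ LL Γ := AddSubgroup.subset_closure ⟨(u, v), rfl⟩

variable (Γ) in
/-- unimodular symbols -/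
def eg (g : SL(2, ℤ)) : MS ℂ Γ →ₗ[ℂ] ℂ := ev Γ (g • e1) (g • e2)

theorem eg_mem (g : SL(2, ℤ)) : eg Γ g ∈ LL Γ := ev_mem _ _

theorem eg_mul_left {γ : SL(2, ℤ)} (hγ : γ ∈ Γ) (g : SL(2, ℤ)) : eg Γ (γ * g) = eg Γ g := by
  rw [eg, eg, mul_smul, mul_smul, ev_inv hγ]

theorem exists_unimodular_step (v : Vec) (hv : v.1.2 ≠ 0) :
    ∃ (g : SL(2, ℤ)), dt v (g • e2) = 0 ∧ (g • e1).1.2.natAbs < v.1.2.natAbs := by
  set a := v.1.1 with ha
  set b := v.1.2 with hb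
  have hg0 : (Int.gcd a b : ℤ) ≠ 0 := by
    rw [Ne, Int.natCast_eq_zero, Int.gcd_eq_zero_iff]
    exact fun h => hv h.2
  obtain ⟨a0, ha0⟩ := Int.gcd_dvd_left a b
  obtain ⟨b0, hb0⟩ := Int.gcd_dvd_right a b
  set d : ℤ := (Int.gcd a b : ℤ) with hd
  have hb0' : b0 ≠ 0 := fun h => hv (by rw [hb0, h, mul_zero])
  obtain ⟨x, y, hxy⟩ : ∃ x y : ℤ, x * a0 + y * b0 = 1 := by
    have h1 := Int.gcd_eq_gcd_ab a b
    refine ⟨Int.gcdA a b, Int.gcdB a b, ?_⟩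
    have h2 : d * (Int.gcdA a b * a0 + Int.gcdB a b * b0) = d * 1 := by
      rw [mul_one]
      conv_rhs => rw [hd, h1]
      rw [show d * (Int.gcdA a b * a0 + Int.gcdB a b * b0) =
        (d * a0) * Int.gcdA a b + (d * b0) * Int.gcdB a b by ring, ← ha0, ← hb0]
    exact mul_left_cancel₀ hg0 h2
  -- v' = (y - k a0, -x - k b0)
  set k := (-x) / b0 with hk
  have hmod : (-x) - k * b0 = (-x) % b0 := by
    rw [hk, Int.emod_def]; ring
  refine ⟨mkSL (y - k * a0) a0 (-x - k * b0) b0 (by linear_combination hxy), ?_, ?_⟩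
  · simp only [dt, det2, sl_smul_e2]
    rw [← ha, ← hb, mkSL_01, mkSL_11, ha0, hb0]; ring
  · rw [sl_smul_e1]
    change (-x - k * b0).natAbs < b.natAbs
    rw [hmod]
    have h1 : 0 ≤ (-x) % b0 := Int.emod_nonneg _ hb0'
    have h2 : (-x) % b0 < |b0| := Int.emod_lt_abs _ hb0'
    have h3 : |b0| ≤ |b| := by
      rw [hb0, abs_mul]
      have : 1 ≤ |d| := Int.one_le_abs hg0
      nlinarith [abs_nonneg b0]
    zify
    rw [abs_of_nonneg h1]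
    exact lt_of_lt_of_le h2 h3

theorem ev_e1_mem (n : ℕ) : ∀ v : Vec, v.1.2.natAbs ≤ n →
    ev Γ e1 v ∈ AddSubgroup.closure (Set.range (eg Γ)) := by
  induction n with
  | zero =>
    intro v hv
    have h0 : v.1.2 = 0 := by simpa using hv
    rw [ev_par (by simp [dt, det2, e1_val, h0])]
    exact zero_mem _
  | succ n ih =>
    intro v hv
    by_cases h0 : v.1.2 = 0
    · rw [ev_par (by simp [dt, det2, e1_val, h0])]
      exact zero_mem _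
    obtain ⟨g, hg1, hg2⟩ := exists_unimodular_step v h0
    have h1 : ev Γ e1 v = ev Γ e1 (g • e1) + eg Γ g := by
      rw [eg, ev_add]
      exact ev_congr (dt_self _) hg1
    rw [h1]
    exact add_mem (ih _ (by omega)) (AddSubgroup.subset_closure ⟨g, rfl⟩)

variable (Γ) in
/-- **Manin's trick.** -/
theorem LL_eq_closure : LL Γ = AddSubgroup.closure (Set.range (eg Γ)) := by
  apply le_antisymm
  · rw [LL, AddSubgroup.closure_le]
    rintro _ ⟨⟨u, v⟩, rfl⟩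
    have h1 : ev Γ u v = ev Γ e1 v - ev Γ e1 u := by
      rw [← ev_add e1 u v]; abel
    change ev Γ u v ∈ _
    rw [h1]
    exact sub_mem (ev_e1_mem _ v le_rfl) (ev_e1_mem _ u le_rfl)
  · rw [AddSubgroup.closure_le]
    rintro _ ⟨g, rfl⟩
    exact eg_mem g

theorem finite_range_eg [Finite (SL(2, ℤ) ⧸ Γ)] : (Set.range (eg Γ)).Finite := by
  have h : Set.range (eg Γ) ⊆ Set.range (fun c : SL(2, ℤ) ⧸ Γ => eg Γ (c.out⁻¹)) := by
    rintro _ ⟨g, rfl⟩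
    refine ⟨(QuotientGroup.mk g⁻¹ : SL(2, ℤ) ⧸ Γ), ?_⟩
    obtain ⟨γ, hγ⟩ := QuotientGroup.mk_out_eq_mul Γ g⁻¹
    change eg Γ ((QuotientGroup.mk g⁻¹ : SL(2, ℤ) ⧸ Γ).out⁻¹) = eg Γ g
    rw [hγ, _root_.mul_inv_rev, inv_inv]
    exact eg_mul_left (Γ.inv_mem γ.2) g
  exact (Set.finite_range _).subset h

instance LL_fg [Finite (SL(2, ℤ) ⧸ Γ)] : AddGroup.FG (LL Γ) := by
  rw [AddGroup.fg_iff_addSubgroup_fg, LL_eq_closure]
  obtain ⟨s, hs⟩ := finite_range_eg (Γ := Γ).exists_finset_coe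
  exact ⟨s, by rw [hs]⟩

theorem sum_perm [Fintype (SL(2, ℤ) ⧸ Γ)] {A : Type*} [AddCommMonoid A] {G : SL(2, ℤ) → A}
    (hG : ∀ γ ∈ Γ, ∀ g, G (γ * g) = G g) (h : SL(2, ℤ)) :
    ∑ c : SL(2, ℤ) ⧸ Γ, G (c.out⁻¹ * h) = ∑ c : SL(2, ℤ) ⧸ Γ, G (c.out⁻¹) := by
  rw [← Equiv.sum_comp (MulAction.toPerm h⁻¹ : Equiv.Perm (SL(2, ℤ) ⧸ Γ))
    (fun c => G (c.out⁻¹))]
  refine Finset.sum_congr rfl fun c _ => ?_
  change _ = G ((h⁻¹ • c).out⁻¹)
  have hc : h⁻¹ • c = (QuotientGroup.mk (h⁻¹ * c.out) : SL(2, ℤ) ⧸ Γ) := by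
    conv_lhs => rw [← QuotientGroup.out_eq' c]
    rfl
  obtain ⟨γ, hγ⟩ := QuotientGroup.mk_out_eq_mul Γ (h⁻¹ * c.out)
  rw [hc, hγ, _root_.mul_inv_rev, _root_.mul_inv_rev, inv_inv, hG _ (Γ.inv_mem γ.2)]

end

end Fermat.Agent.LR
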