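import Fermat.Agent.LevelRaise.Ihara
import Fermat.Agent.HeckeHom.ThetaFull

set_option autoImplicit false
set_option linter.unusedSectionVars false

/-!
Modular symbols and homomorphisms `Γ → R`.
-/

namespace Fermat.Agent.LR

open Matrix CongruenceSubgroup
open scoped MatrixGroups
open Fermat.Agent.HeckeHom ModularCurve.Period

noncomputable section

variable {R : Type*} [CommRing R] {Γ Γ' : Subgroup SL(2, ℤ)}

theorem th_base {φ : Vec → Vec → R} (hφ : φ ∈ MS R Γ) {γ : SL(2, ℤ)} (hγ : γ ∈ Γ) (u v : Vec) :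
    φ u (γ • u) = φ v (γ • v) := by
  rw [← Coc.add hφ.1 u v (γ • u), ← Coc.add hφ.1 v (γ • v) (γ • u), hφ.2 γ hγ v u,
    Coc.swap hφ.1 u v]
  ring

/-- the homomorphism `γ ↦ φ(e, γ e)` -/
def th (φ : MS R Γ) : Additive Γ →+ R where
  toFun γ := φ.1 e1 (((Additive.toMul γ : Γ) : SL(2, ℤ)) • e1)
  map_zero' := by
    change φ.1 e1 ((1 : SL(2, ℤ)) • e1) = 0
    rw [one_smul]
    exact Coc.self φ.2.1 e1
  map_add' a b := by
    change φ.1 e1 ((((Additive.toMul a : Γ) : SL(2, ℤ)) * ((Additive.toMul b : Γ) : SL(2, ℤ))) • e1) = _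
    rw [mul_smul, ← Coc.add φ.2.1 e1 (((Additive.toMul a : Γ) : SL(2, ℤ)) • e1) _,
      φ.2.2 _ (Additive.toMul a).2]

theorem th_apply (φ : MS R Γ) (γ : Γ) : th φ (Additive.ofMul γ) = φ.1 e1 ((γ : SL(2, ℤ)) • e1) := rfl

theorem th_apply' (φ : MS R Γ) (γ : Γ) (u : Vec) :
    th φ (Additive.ofMul γ) = φ.1 u ((γ : SL(2, ℤ)) • u) := th_base φ.2 γ.2 _ _

/-- the embedding of integral matrices -/
def toGL (A : IM) : GL (Fin 2) ℝ :=
  Matrix.GeneralLinearGroup.mkOfDetNeZero (A.1.map (Int.cast : ℤ → ℝ)) (by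
    have h1 : (A.1.map (Int.cast : ℤ → ℝ)).det = ((A.1.det : ℤ) : ℝ) := by
      rw [Matrix.det_fin_two, Matrix.det_fin_two]
      push_cast
      rfl
    rw [h1]
    exact_mod_cast IM_det_ne A)

theorem toGL_apply (A : IM) (i j : Fin 2) : (toGL A : Matrix (Fin 2) (Fin 2) ℝ) i j = (A.1 i j : ℝ) := rfl

theorem toGL_mul (A B : IM) : toGL (A * B) = toGL A * toGL B := by
  ext i j
  rw [Units.val_mul, Matrix.mul_apply, Fin.sum_univ_two, toGL_apply, IM_mul_apply]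
  push_cast
  rfl

theorem toGL_injective : Function.Injective toGL := by
  intro A B h
  apply Subtype.ext
  ext i j
  have h1 : (toGL A : Matrix (Fin 2) (Fin 2) ℝ) i j = (toGL B : Matrix (Fin 2) (Fin 2) ℝ) i j := by
    rw [h]
  rw [toGL_apply, toGL_apply] at h1
  exact_mod_cast h1

theorem toGL_ofSL (γ : SL(2, ℤ)) : toGL (ofSL γ) = Matrix.SpecialLinearGroup.mapGL ℝ γ := by
  ext i j
  rw [toGL_apply, ofSL_val]
  simp

/-- Integral version of the cocycle relation. -/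
theorem spec_IM (D : HData Γ Γ') (A : D.X → IM) (hA : ∀ x, D.α x = toGL (A x)) (γ : Γ') (x : D.X) :
    A x * ofSL γ = ofSL (D.coc γ x) * A (D.actFun γ x) := by
  apply toGL_injective
  rw [toGL_mul, toGL_mul, toGL_ofSL, toGL_ofSL, ← hA, ← hA]
  exact D.spec γ x

theorem eq_of_spec_IM (D : HData Γ Γ') (A : D.X → IM) (hA : ∀ x, D.α x = toGL (A x)) {γ : Γ'}
    {x y : D.X} {δ : Γ} (h : A x * ofSL γ = ofSL δ * A y) :
    y = D.actFun γ x ∧ δ = D.coc γ x := by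
  apply D.eq_of_spec
  rw [hA, hA, ← toGL_ofSL, ← toGL_ofSL, ← toGL_mul, ← toGL_mul, h]

/-- **Compatibility of Hecke operators on modular symbols and on homomorphisms.** -/
theorem hom_th (D : HData Γ Γ') (A : D.X → IM) (hA : ∀ x, D.α x = toGL (A x)) (φ : MS R Γ)
    (γ : Γ') : D.hom R (th φ) (Additive.ofMul γ) = hop A φ.1 e1 ((γ : SL(2, ℤ)) • e1) := by
  rw [HData.hom_apply, hop_apply_apply]
  have h1 : ∀ x, th φ (Additive.ofMul (D.coc γ x)) =
      φ.1 (A x • e1) (A x • (γ : SL(2, ℤ)) • e1) +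
        (φ.1 e1 (A x • e1) - φ.1 e1 (A (D.actFun γ x) • e1)) := by
    intro x
    rw [th_apply' φ (D.coc γ x) (A (D.actFun γ x) • e1)]
    have h2 : ((D.coc γ x : Γ) : SL(2, ℤ)) • A (D.actFun γ x) • e1 = A x • (γ : SL(2, ℤ)) • e1 := by
      rw [sl_smul_def, ← mul_smul, ← spec_IM D A hA, mul_smul, ← sl_smul_def]
    rw [h2, ← Coc.add φ.2.1 (A (D.actFun γ x) • e1) (A x • e1) _,
      ← Coc.add φ.2.1 (A (D.actFun γ x) • e1) e1 (A x • e1), Coc.swap φ.2.1 e1 (A (D.actFun γ x) • e1)]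
    ring
  have h3 : ∑ x, φ.1 e1 (A (D.actFun γ x) • e1) = ∑ x, φ.1 e1 (A x • e1) :=
    Equiv.sum_comp (D.perm γ) (fun x => φ.1 e1 (A x • e1))
  rw [Finset.sum_congr rfl fun x _ => h1 x, Finset.sum_add_distrib, Finset.sum_sub_distrib, h3,
    sub_self, add_zero]

theorem dt_one_smul (u : Vec) : dt ((1 : SL(2, ℤ)) • u) u = 0 := by rw [one_smul]; exact dt_self u

/-- the equivalence relation of cusps modulo `Γ` -/
def cuspSetoid (Γ : Subgroup SL(2, ℤ)) : Setoid Vec where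
  r u v := ∃ γ ∈ Γ, dt (γ • u) v = 0
  iseqv := by
    refine ⟨fun u => ⟨1, Γ.one_mem, dt_one_smul u⟩, ?_, ?_⟩
    · rintro u v ⟨γ, hγ, h⟩
      refine ⟨γ⁻¹, Γ.inv_mem hγ, ?_⟩
      rw [← dt_sl_smul γ, smul_inv_smul]
      exact dt_eq_zero_symm h
    · rintro u v w ⟨γ, hγ, h⟩ ⟨δ, hδ, h'⟩
      refine ⟨δ * γ, Γ.mul_mem hδ hγ, ?_⟩
      rw [mul_smul]
      refine dt_trans (v := δ • v) ?_ h'
      rw [dt_sl_smul]; exact h

/-- **Lifting parabolic homomorphisms to modular symbols.** -/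
theorem exists_lift (D1 : Additive Γ →+ R)
    (h : ∀ (γ : Γ) (u : Vec), dt ((γ : SL(2, ℤ)) • u) u = 0 → D1 (Additive.ofMul γ) = 0) :
    ∃ φ : MS R Γ, th φ = D1 := by
  classical
  let S := cuspSetoid Γ
  let c : Vec → Vec := fun u => Quotient.out (Quotient.mk S u)
  have hc : ∀ u, ∃ γ : Γ, dt ((γ : SL(2, ℤ)) • c u) u = 0 := by
    intro u
    have h1 : S.r (c u) u := Quotient.mk_out (s := S) u
    obtain ⟨γ, hγ, h2⟩ := h1
    exact ⟨⟨γ, hγ⟩, h2⟩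
  choose g hg using hc
  let ρ : Vec → R := fun u => D1 (Additive.ofMul (g u))
  have hρ : ∀ (u v : Vec) (γ : Γ), dt ((γ : SL(2, ℤ)) • u) v = 0 →
      ρ v = D1 (Additive.ofMul γ) + ρ u := by
    intro u v γ hγ
    have hcc : c u = c v := by
      have h1 : (Quotient.mk S u) = Quotient.mk S v := Quotient.sound ⟨γ, γ.2, hγ⟩
      change Quotient.out (Quotient.mk S u) = Quotient.out (Quotient.mk S v)
      rw [h1]
    have h2 : D1 (Additive.ofMul ((g v)⁻¹ * (γ * g u))) = 0 := by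
      apply h _ (c v)
      rw [Subgroup.coe_mul, mul_smul, ← dt_sl_smul ((g v : Γ) : SL(2, ℤ)), Subgroup.coe_inv,
        smul_inv_smul]
      refine dt_trans (v := v) ?_ (dt_eq_zero_symm (hg v))
      refine dt_trans (v := (γ : SL(2, ℤ)) • u) ?_ hγ
      rw [Subgroup.coe_mul, mul_smul, dt_sl_smul, ← hcc]
      exact hg u
    rw [ofMul_mul, ofMul_inv, ofMul_mul, map_add, map_neg, map_add] at h2
    change D1 (Additive.ofMul (g v)) = D1 (Additive.ofMul γ) + D1 (Additive.ofMul (g u))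
    linear_combination -h2
  refine ⟨⟨fun u v => ρ v - ρ u, ⟨fun u v w => by ring, fun u v huv => ?_⟩, fun γ hγ u v => ?_⟩, ?_⟩
  · have := hρ u v 1 (by rw [Subgroup.coe_one, one_smul]; exact huv)
    change ρ v - ρ u = 0
    rw [this, ofMul_one, map_zero]; ring
  · change ρ (γ • v) - ρ (γ • u) = ρ v - ρ u
    rw [hρ u (γ • u) ⟨γ, hγ⟩ (dt_self _), hρ v (γ • v) ⟨γ, hγ⟩ (dt_self _)]
    ring
  · refine AddMonoidHom.ext fun γ => ?_
    change ρ (((Additive.toMul γ : Γ) : SL(2, ℤ)) • e1) - ρ e1 = D1 γ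
    rw [hρ e1 _ (Additive.toMul γ) (dt_self _)]
    simp

theorem exists_primitive (v : Vec) : ∃ (g : SL(2, ℤ)) (m : ℤ), 0 < m ∧
    v.1 = (m * g.1 0 0, m * g.1 1 0) := by
  set a := v.1.1 with ha
  set b := v.1.2 with hb
  have hg0 : (Int.gcd a b : ℤ) ≠ 0 := by
    rw [Ne, Int.natCast_eq_zero, Int.gcd_eq_zero_iff]
    exact fun h => v.2 (Prod.ext h.1 h.2)
  obtain ⟨a0, ha0⟩ := Int.gcd_dvd_left a b
  obtain ⟨b0, hb0⟩ := Int.gcd_dvd_right a b
  set d : ℤ := (Int.gcd a b : ℤ) with hd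
  obtain ⟨x, y, hxy⟩ : ∃ x y : ℤ, x * a0 + y * b0 = 1 := by
    have h1 := Int.gcd_eq_gcd_ab a b
    refine ⟨Int.gcdA a b, Int.gcdB a b, ?_⟩
    have h2 : d * (Int.gcdA a b * a0 + Int.gcdB a b * b0) = d * 1 := by
      rw [mul_one]
      conv_rhs => rw [hd, h1]
      rw [show d * (Int.gcdA a b * a0 + Int.gcdB a b * b0) =
        (d * a0) * Int.gcdA a b + (d * b0) * Int.gcdB a b by ring, ← ha0, ← hb0]
    exact mul_left_cancel₀ hg0 h2
  refine ⟨mkSL a0 (-y) b0 x (by linear_combination hxy), d,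
    lt_of_le_of_ne (Int.natCast_nonneg _) (Ne.symm hg0), ?_⟩
  rw [mkSL_00, mkSL_10, ← ha0, ← hb0]

/-- unipotent elements -/
def T1 (t : ℤ) : SL(2, ℤ) := mkSL 1 t 0 1 (by ring)

theorem T1_smul_e1 (t : ℤ) : T1 t • e1 = e1 := by
  apply Vec.val_ext
  rw [sl_smul_e1]
  rfl

theorem T1_add (s t : ℤ) : T1 (s + t) = T1 s * T1 t := by
  apply Subtype.ext
  change (!![1, s + t; 0, 1] : M2) = !![1, s; 0, 1] * !![1, t; 0, 1]
  rw [Matrix.mul_fin_two]
  ext i j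
  fin_cases i <;> fin_cases j <;> simp [add_comm]

theorem T1_pow (t : ℤ) (n : ℕ) : T1 t ^ n = T1 (n * t) := by
  induction n with
  | zero =>
    rw [pow_zero, Nat.cast_zero, zero_mul]
    apply Subtype.ext
    change (1 : M2) = !![1, 0; 0, 1]
    ext i j
    fin_cases i <;> fin_cases j <;> simp
  | succ n ih =>
    rw [pow_succ, ih, ← T1_add]
    congr 1
    push_cast
    ring

theorem sl_inv_apply (g : SL(2, ℤ)) : (g⁻¹).1 = !![g.1 1 1, -g.1 0 1; -g.1 1 0, g.1 0 0] := by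
  rw [Matrix.SpecialLinearGroup.coe_inv, Matrix.adjugate_fin_two]

theorem sl_mul_apply (g h : SL(2, ℤ)) (i j : Fin 2) :
    (g * h).1 i j = g.1 i 0 * h.1 0 j + g.1 i 1 * h.1 1 j := by
  change (g.1 * h.1) i j = _
  rw [Matrix.mul_apply, Fin.sum_univ_two]

/-- equivalence of cusps for `Γ₀(N)` -/
theorem cusp_equiv {N : ℕ} (hN : 0 < N) {g g' : SL(2, ℤ)} (h1 : (N : ℤ) ∣ g'.1 1 0 - g.1 1 0)
    (h2 : (Int.gcd (g.1 1 0) N : ℤ) ∣ g'.1 0 0 - g.1 0 0) :
    ∃ γ ∈ Gamma0 N, γ • g • e1 = g' • e1 := by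
  set x := g.1 0 0 with hx
  set y := g.1 1 0 with hy
  set z := g.1 0 1 with hz
  set w := g.1 1 1 with hw
  set x' := g'.1 0 0 with hx'
  set y' := g'.1 1 0 with hy'
  set z' := g'.1 0 1 with hz'
  set w' := g'.1 1 1 with hw'
  have hdet : x * w - z * y = 1 := sl_det_eq g
  have hdet' : x' * w' - z' * y' = 1 := sl_det_eq g'
  obtain ⟨k, hk⟩ := h1
  set e : ℤ := (Int.gcd y N : ℤ) with he
  have he0 : e ≠ 0 := by
    rw [he, Ne, Int.natCast_eq_zero, Int.gcd_eq_zero_iff]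
    rintro ⟨-, h⟩
    omega
  obtain ⟨y1, hy1⟩ : e ∣ y := Int.gcd_dvd_left _ _
  obtain ⟨N1, hN1⟩ : e ∣ (N : ℤ) := Int.gcd_dvd_right _ _
  obtain ⟨a, b, hab⟩ : ∃ a b : ℤ, a * y1 + b * N1 = 1 := by
    have h1 := Int.gcd_eq_gcd_ab y N
    refine ⟨Int.gcdA y N, Int.gcdB y N, ?_⟩
    have h2 : e * (Int.gcdA y N * y1 + Int.gcdB y N * N1) = e * 1 := by
      rw [mul_one]
      conv_rhs => rw [he, h1]
      rw [show e * (Int.gcdA y N * y1 + Int.gcdB y N * N1) =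
        (e * y1) * Int.gcdA y N + (e * N1) * Int.gcdB y N by ring, ← hy1, ← hN1]
    exact mul_left_cancel₀ he0 h2
  obtain ⟨r, hr⟩ := h2
  -- e ∣ w - w'
  obtain ⟨k', hk'⟩ : e ∣ w - w' := by
    refine ⟨w * w' * r - w * z' * (y1 + N1 * k) + w' * z * y1, ?_⟩
    linear_combination w' * hdet - w * hdet' + w * w' * hr - w * z' * (hk + hy1 + k * hN1) + w' * z * hy1
  set t := a * k' with ht
  refine ⟨g' * T1 t * g⁻¹, ?_, ?_⟩
  · rw [mem_Gamma0]
    have h3 : (g' * T1 t * g⁻¹).1 1 0 = y' * w - (y' * t + w') * y := by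
      rw [sl_mul_apply, sl_mul_apply, sl_mul_apply, sl_inv_apply]
      change (g'.1 1 0 * 1 + g'.1 1 1 * 0) * g.1 1 1 + (g'.1 1 0 * t + g'.1 1 1 * 1) * (-g.1 1 0) = _
      rw [← hw, ← hy, ← hy', ← hw']
      ring
    rw [h3]
    refine ⟨k * (w - t * y) + e * y1 * k' * b, ?_⟩
    linear_combination (w - t * y) * hk + y * hk' + (e * k' - t * y) * hy1 - t * e * y1 * hy1
      + e * e * y1 * k' * (-hab) - e * y1 * k' * b * hN1
  · rw [mul_smul, mul_smul, inv_smul_smul, T1_smul_e1]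

/-- `tr ℓ x` acts on a primitive vector as an element of `Γ₀(N)`, up to a content `1` or `ℓ`. -/
theorem exists_tr_smul {N : ℕ} (hN : 0 < N) {ℓ : ℕ} [hℓ : Fact ℓ.Prime]
    (hℓN : (N : ℤ) ∣ (ℓ : ℤ) - 1) (g : SL(2, ℤ)) (x : OnePoint (ZMod ℓ)) :
    ∃ γ ∈ Gamma0 N, ∃ m : ℤ, (m = 1 ∨ m = ℓ) ∧
      (tr ℓ x • g • e1).1 = (m * (γ • g • e1).1.1, m * (γ • g • e1).1.2) := by
  obtain ⟨g', m, hm, hg'⟩ := exists_primitive (tr ℓ x • g • e1)
  have hv1 := congrArg Prod.fst hg'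
  have hv2 := congrArg Prod.snd hg'
  simp only at hv1 hv2
  rw [smul_val, sl_smul_e1, mv] at hv1 hv2
  simp only at hv1 hv2
  set a := g.1 0 0 with ha
  set c := g.1 1 0 with hc
  set a' := g'.1 0 0 with ha'
  set c' := g'.1 1 0 with hc'
  have hdet : a * g.1 1 1 - g.1 0 1 * c = 1 := sl_det_eq g
  -- content divides ℓ
  have hml : m ∣ ℓ := by
    have hD := (tr_mem_DD N ℓ x).1
    rw [IM_det_eq] at hD
    have e1 : (ℓ : ℤ) * a = m * ((tr ℓ x).1 1 1 * a' - (tr ℓ x).1 0 1 * c') := by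
      linear_combination (-a) * hD + (tr ℓ x).1 1 1 * hv1 - (tr ℓ x).1 0 1 * hv2
    have e2 : (ℓ : ℤ) * c = m * ((tr ℓ x).1 0 0 * c' - (tr ℓ x).1 1 0 * a') := by
      linear_combination (-c) * hD + (tr ℓ x).1 0 0 * hv2 - (tr ℓ x).1 1 0 * hv1
    have e3 : (ℓ : ℤ) = m * (((tr ℓ x).1 1 1 * a' - (tr ℓ x).1 0 1 * c') * g.1 1 1 -
        g.1 0 1 * ((tr ℓ x).1 0 0 * c' - (tr ℓ x).1 1 0 * a')) := by
      linear_combination (-(ℓ : ℤ)) * hdet + g.1 1 1 * e1 - g.1 0 1 * e2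
    exact ⟨_, e3⟩
  have hm2 : m = 1 ∨ m = ℓ := by
    have h1 : m.natAbs ∣ ℓ := by
      have : (m.natAbs : ℤ) ∣ ℓ := by rw [Int.natAbs_dvd]; exact hml
      exact_mod_cast this
    rcases (Nat.dvd_prime hℓ.out).mp h1 with h2 | h2
    · left; omega
    · right; omega
  have hmN : (N : ℤ) ∣ m - 1 := by
    rcases hm2 with h | h
    · rw [h, sub_self]; exact dvd_zero _
    · rw [h]; exact hℓN
  have hgN : (Int.gcd c N : ℤ) ∣ N := Int.gcd_dvd_right _ _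
  have hgc : (Int.gcd c N : ℤ) ∣ c := Int.gcd_dvd_left _ _
  have hkey : (N : ℤ) ∣ c' - c ∧ (Int.gcd c N : ℤ) ∣ a' - a := by
    have hcc : (N : ℤ) ∣ m * c' - c → (N : ℤ) ∣ c' - c := by
      intro h
      have : c' - c = (m * c' - c) - (m - 1) * c' := by ring
      rw [this]
      exact dvd_sub h (Dvd.dvd.mul_right hmN _)
    have haa : (Int.gcd c N : ℤ) ∣ m * a' - a → (Int.gcd c N : ℤ) ∣ a' - a := by
      intro h
      have : a' - a = (m * a' - a) - (m - 1) * a' := by ring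
      rw [this]
      exact dvd_sub h (Dvd.dvd.mul_right (hgN.trans hmN) _)
    induction x using OnePoint.rec with
    | infty =>
      rw [tr_infty] at hv1 hv2
      simp at hv1 hv2
      refine ⟨hcc ?_, haa ?_⟩
      · rw [← hv2, sub_self]; exact dvd_zero _
      · rw [← hv1]
        have : (ℓ : ℤ) * a - a = (ℓ - 1) * a := by ring
        rw [this]
        exact Dvd.dvd.mul_right (hgN.trans hℓN) _
    | coe j =>
      rw [tr_coe] at hv1 hv2
      simp [-ZMod.natCast_val] at hv1 hv2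
      refine ⟨hcc ?_, haa ?_⟩
      · rw [← hv2]
        have : (ℓ : ℤ) * c - c = (ℓ - 1) * c := by ring
        rw [this]
        exact Dvd.dvd.mul_right hℓN _
      · rw [← hv1]
        have : a + (j.val : ℤ) * c - a = c * (j.val : ℤ) := by ring
        rw [this]
        exact Dvd.dvd.mul_right hgc _
  obtain ⟨γ, hγ, hγg⟩ := cusp_equiv hN hkey.1 hkey.2
  refine ⟨γ, hγ, m, hm2, ?_⟩
  rw [hγg, hg', sl_smul_e1]

theorem dt_of_val {u v : Vec} {m : ℤ} (h : u.1 = (m * v.1.1, m * v.1.2)) : dt u v = 0 := by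
  simp only [dt, det2, h]; ring

/-- **Boundary symbols are Eisenstein.** -/
theorem To_of_th_eq_zero {N : ℕ} (hN : 0 < N) {φ : MS R (Gamma0 N)} (hφ : th φ = 0) {ℓ : ℕ}
    (hℓ : ℓ.Prime) (hℓN : (N : ℤ) ∣ (ℓ : ℤ) - 1) :
    To ℓ φ.1 = (1 + (ℓ : R)) • φ.1 := by
  have : Fact ℓ.Prime := ⟨hℓ⟩
  have : NeZero ℓ := ⟨hℓ.ne_zero⟩
  rw [← To_eq_hop]
  have key : ∀ (x : OnePoint (ZMod ℓ)) (u : Vec), ∃ γ ∈ Gamma0 N, dt (tr ℓ x • u) (γ • u) = 0 := by
    intro x u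
    obtain ⟨g, m, hm, hg⟩ := exists_primitive u
    obtain ⟨γ, hγ, m', -, h⟩ := exists_tr_smul hN hℓN g x
    have h1 : dt u (g • e1) = 0 := by
      apply dt_of_val (m := m)
      rw [hg, sl_smul_e1]
    refine ⟨γ, hγ, dt_trans (v := tr ℓ x • g • e1) ?_ (dt_trans (v := γ • g • e1) ?_ ?_)⟩
    · rw [dt_smul_eq_zero]; exact h1
    · exact dt_of_val h
    · rw [dt_sl_smul]; exact dt_eq_zero_symm h1
  have h0 : ∀ (x : OnePoint (ZMod ℓ)), slash (tr ℓ x) φ.1 = φ.1 := by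
    intro x
    funext u v
    obtain ⟨γ, hγ, h1⟩ := key x u
    obtain ⟨δ, hδ, h2⟩ := key x v
    rw [slash_apply, Coc.congr φ.2.1 h1 h2, ← Coc.add φ.2.1 (γ • u) u (δ • v),
      ← Coc.add φ.2.1 u v (δ • v), Coc.swap φ.2.1 u (γ • u)]
    have h3 : φ.1 u (γ • u) = 0 := by
      have := th_apply' φ ⟨γ, hγ⟩ u
      rw [hφ] at this
      exact this.symm
    have h4 : φ.1 v (δ • v) = 0 := by
      have := th_apply' φ ⟨δ, hδ⟩ v
      rw [hφ] at this
      exact this.symm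
    rw [h3, h4]
    ring
  rw [hop_apply, Finset.sum_congr rfl fun x _ => h0 x, Finset.sum_const, Finset.card_univ]
  have h5 : Fintype.card (OnePoint (ZMod ℓ)) = ℓ + 1 := by
    have := Fintype.card_option (α := ZMod ℓ)
    rw [ZMod.card] at this
    exact this
  rw [h5, ← Nat.cast_smul_eq_nsmul R]
  push_cast
  rw [add_comm]

end

end Fermat.Agent.LR
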