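import Fermat.Agent.LevelRaise.Hecke

set_option autoImplicit false
set_option linter.unusedSectionVars false

/-!
`T_ℓ` as a sum of upper triangular operators, commutation.
-/

namespace Fermat.Agent.LR

open Matrix CongruenceSubgroup
open scoped MatrixGroups

noncomputable section

variable {R : Type*} [CommRing R]

/-- slash by an upper triangular matrix (junk if singular) -/
def ts (a b d : ℤ) (φ : Vec → Vec → R) : Vec → Vec → R :=
  if h : a * d ≠ 0 then slash (ut a b d h) φ else 0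

theorem ts_eq {a b d : ℤ} (h : a * d ≠ 0) (φ : Vec → Vec → R) :
    ts a b d φ = slash (ut a b d h) φ := by rw [ts, dif_pos h]

theorem ts_ts {a b d a' b' d' : ℤ} (h : a * d ≠ 0) (h' : a' * d' ≠ 0) (φ : Vec → Vec → R) :
    ts a' b' d' (ts a b d φ) = ts (a * a') (a * b' + b * d') (d * d') φ := by
  have h'' : a * a' * (d * d') ≠ 0 := by
    intro h0
    apply mul_ne_zero h h'
    linear_combination h0
  rw [ts_eq h', ts_eq h, ts_eq h'', ← slash_mul, ut_mul (h'' := h'')]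

/-- invariance under unipotent upper triangular matrices -/
def TI (φ : Vec → Vec → R) : Prop := ∀ t : ℤ, ts 1 t 1 φ = φ

theorem MS.TI {N : ℕ} {φ : Vec → Vec → R} (hφ : φ ∈ MS R (Gamma0 N)) : TI φ := by
  intro t
  rw [ts_eq (by norm_num), ← ofSL_mkSL_ut t]
  exact slash_ofSL hφ (by rw [mem_Gamma0, mkSL_10]; exact dvd_zero _)

theorem ts_add {φ : Vec → Vec → R} (hφ : TI φ) {a b d : ℤ} (h : a * d ≠ 0) (t : ℤ) :
    ts a (b + t * d) d φ = ts a b d φ := by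
  conv_rhs => rw [← hφ t]
  rw [ts_ts (by norm_num) h, one_mul, one_mul, one_mul]

theorem ts_emod {φ : Vec → Vec → R} (hφ : TI φ) {a b d : ℤ} (h : a * d ≠ 0) :
    ts a (b % d) d φ = ts a b d φ := by
  rw [← ts_add hφ h (b / d)]
  congr 1
  linear_combination Int.emod_add_mul_ediv b d

/-- scalar matrices act trivially -/
theorem ts_scalar {φ : Vec → Vec → R} (hφ : φ ∈ Coc R) {c a b d : ℤ} (hc : c ≠ 0)
    (h : a * d ≠ 0) : ts (c * a) (c * b) (c * d) φ = ts a b d φ := by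
  have h2 : (c * a) * (c * d) ≠ 0 := by
    intro h0
    apply mul_ne_zero (mul_ne_zero hc hc) h
    linear_combination h0
  rw [ts_eq h2, ts_eq h]
  have h3 : ut (c * a) (c * b) (c * d) h2 = scal c hc * ut a b d h := by
    apply Subtype.ext
    change (!![c * a, c * b; 0, c * d] : M2) = (c • (1 : M2)) * !![a, b; 0, d]
    rw [smul_mul_assoc, one_mul, Matrix.smul_of]
    simp
  rw [h3, slash_mul, slash_scalar hφ]
  intro u
  simp only [dt, det2, scal_smul_val]; ring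

/-- `V_a` -/
def Vo (a : ℕ) (φ : Vec → Vec → R) : Vec → Vec → R := ts a 0 1 φ

/-- `U_d` -/
def Uo (d : ℕ) (φ : Vec → Vec → R) : Vec → Vec → R := ∑ j ∈ Finset.range d, ts 1 j d φ

theorem ts_add' (a b d : ℤ) (φ ψ : Vec → Vec → R) : ts a b d (φ + ψ) = ts a b d φ + ts a b d ψ := by
  unfold ts
  split_ifs
  · exact map_add _ _ _
  · rw [add_zero]

theorem ts_smul (a b d : ℤ) (c : R) (φ : Vec → Vec → R) : ts a b d (c • φ) = c • ts a b d φ := by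
  unfold ts
  split_ifs
  · exact map_smul _ _ _
  · rw [smul_zero]

theorem ts_sum {ι : Type*} (s : Finset ι) (a b d : ℤ) (φ : ι → Vec → Vec → R) :
    ts a b d (∑ i ∈ s, φ i) = ∑ i ∈ s, ts a b d (φ i) := by
  unfold ts
  split_ifs
  · exact map_sum _ _ _
  · rw [Finset.sum_const_zero]

theorem Vo_add (a : ℕ) (φ ψ : Vec → Vec → R) : Vo a (φ + ψ) = Vo a φ + Vo a ψ := ts_add' _ _ _ _ _

theorem Uo_add (d : ℕ) (φ ψ : Vec → Vec → R) : Uo d (φ + ψ) = Uo d φ + Uo d ψ := by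
  unfold Uo
  rw [← Finset.sum_add_distrib]
  exact Finset.sum_congr rfl fun j _ => ts_add' _ _ _ _ _

theorem Uo_smul (d : ℕ) (c : R) (φ : Vec → Vec → R) : Uo d (c • φ) = c • Uo d φ := by
  unfold Uo
  rw [Finset.smul_sum]
  exact Finset.sum_congr rfl fun j _ => ts_smul _ _ _ _ _

theorem Uo_neg (d : ℕ) (φ : Vec → Vec → R) : Uo d (-φ) = - Uo d φ := by
  rw [← _root_.neg_one_smul R φ, Uo_smul, _root_.neg_one_smul]

theorem Vo_Vo {a b : ℕ} (ha : a ≠ 0) (hb : b ≠ 0) (φ : Vec → Vec → R) :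
    Vo b (Vo a φ) = Vo (a * b) φ := by
  unfold Vo
  rw [ts_ts (by simpa using ha) (by simpa using hb)]
  push_cast
  congr 1

theorem sum_range_mul {A : Type*} [AddCommMonoid A] (m n : ℕ) (f : ℕ → A) :
    ∑ i ∈ Finset.range m, ∑ j ∈ Finset.range n, f (j + n * i) = ∑ k ∈ Finset.range (m * n), f k := by
  rw [← Fin.sum_univ_eq_sum_range f (m * n), ← Equiv.sum_comp finProdFinEquiv (fun k : Fin (m * n) => f k),
    Fintype.sum_prod_type]
  rw [← Fin.sum_univ_eq_sum_range (fun i => ∑ j ∈ Finset.range n, f (j + n * i)) m]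
  refine Finset.sum_congr rfl fun i _ => ?_
  rw [← Fin.sum_univ_eq_sum_range (fun j => f (j + n * i)) n]
  rfl

theorem Uo_Uo {d e : ℕ} (hd : d ≠ 0) (he : e ≠ 0) (φ : Vec → Vec → R) :
    Uo e (Uo d φ) = Uo (d * e) φ := by
  have hd' : (1 : ℤ) * d ≠ 0 := by simpa using hd
  have he' : (1 : ℤ) * e ≠ 0 := by simpa using he
  unfold Uo
  rw [← sum_range_mul d e (fun k => ts 1 (k : ℤ) ((d * e : ℕ) : ℤ) φ), Finset.sum_comm]
  refine Finset.sum_congr rfl fun j _ => ?_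
  rw [ts_sum]
  refine Finset.sum_congr rfl fun i _ => ?_
  rw [ts_ts hd' he']
  push_cast
  congr 1
  ring

/-- sums of periodic functions over residues -/
theorem sum_periodic_mul {A : Type*} [AddCommMonoid A] {d a : ℕ} (h : a.Coprime d)
    (f : ℤ → A) (hf : ∀ b, f (b % d) = f b) :
    ∑ j ∈ Finset.range d, f ((a : ℤ) * j) = ∑ j ∈ Finset.range d, f j := by
  rcases Nat.eq_zero_or_pos d with rfl | hd
  · simp
  have : NeZero d := ⟨hd.ne'⟩
  have hs : ∀ g : ℕ → A, ∑ j ∈ Finset.range d, g j = ∑ x : ZMod d, g x.val := by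
    intro g
    refine Finset.sum_nbij' (fun j : ℕ ↦ (j : ZMod d)) (fun x : ZMod d ↦ x.val)
      (fun _ _ ↦ Finset.mem_univ _) (fun x _ ↦ Finset.mem_range.mpr x.val_lt) (fun j hj ↦ ?_)
      (fun x _ ↦ ?_) (fun j hj ↦ ?_)
    · exact ZMod.val_cast_of_lt (Finset.mem_range.mp hj)
    · exact ZMod.natCast_zmod_val x
    · rw [ZMod.val_cast_of_lt (Finset.mem_range.mp hj)]
  rw [hs (fun j => f ((a : ℤ) * j)), hs (fun j => f j)]
  set u := ZMod.unitOfCoprime a h with hu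
  rw [← Equiv.sum_comp (Units.mulLeft u) (fun x : ZMod d => f (x.val : ℤ))]
  refine Finset.sum_congr rfl fun x _ => ?_
  rw [Units.mulLeft_apply, hu, ZMod.coe_unitOfCoprime, ← hf, ← hf (((a : ZMod d) * x).val : ℤ)]
  congr 1
  have h1 : (((a : ZMod d) * x).val : ℤ) = ((a * x.val : ℕ) : ℤ) % d := by
    rw [← ZMod.val_intCast (n := d) ((a * x.val : ℕ) : ℤ)]
    congr 2
    push_cast
    rw [ZMod.natCast_zmod_val]
  rw [h1, Int.emod_emod, Nat.cast_mul]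

theorem Vo_Uo {a d : ℕ} (ha : a ≠ 0) (hd : d ≠ 0) (had : a.Coprime d) {φ : Vec → Vec → R}
    (hφ : TI φ) : Vo a (Uo d φ) = Uo d (Vo a φ) := by
  have hd' : (1 : ℤ) * d ≠ 0 := by simpa using hd
  have ha' : (a : ℤ) * 1 ≠ 0 := by simpa using ha
  have had' : (a : ℤ) * d ≠ 0 := by
    have : (a : ℤ) ≠ 0 := by exact_mod_cast ha
    have : (d : ℤ) ≠ 0 := by exact_mod_cast hd
    positivity
  unfold Vo Uo
  rw [ts_sum]
  have e1 : ∀ j : ℕ, ts a 0 1 (ts 1 j d φ) = ts a j d φ := by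
    intro j
    rw [ts_ts hd' ha']
    congr 1 <;> ring
  have e2 : ∀ j : ℕ, ts 1 j d (ts a 0 1 φ) = ts a ((a : ℤ) * j) d φ := by
    intro j
    rw [ts_ts ha' hd']
    congr 1 <;> ring
  rw [Finset.sum_congr rfl fun j _ => e1 j, Finset.sum_congr rfl fun j _ => e2 j]
  exact (sum_periodic_mul had (fun b => ts a b d φ) fun b => ts_emod hφ had').symm

/-- `T_ℓ` -/
def To (ℓ : ℕ) (φ : Vec → Vec → R) : Vec → Vec → R := Vo ℓ φ + Uo ℓ φ

theorem To_eq_hop (ℓ : ℕ) [hℓ : NeZero ℓ] (φ : Vec → Vec → R) : hop (tr ℓ) φ = To ℓ φ := by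
  rw [hop_apply, To]
  have h1 : ∑ x : OnePoint (ZMod ℓ), slash (tr ℓ x) φ =
      slash (tr ℓ OnePoint.infty) φ + ∑ j : ZMod ℓ, slash (tr ℓ (j : OnePoint (ZMod ℓ))) φ :=
    Fintype.sum_option (fun x : OnePoint (ZMod ℓ) => slash (tr ℓ x) φ)
  rw [h1]
  have hℓ0 : (ℓ : ℤ) * 1 ≠ 0 := by rw [mul_one]; exact_mod_cast hℓ.out
  have hℓ1 : (1 : ℤ) * ℓ ≠ 0 := by rw [one_mul]; exact_mod_cast hℓ.out
  congr 1
  · rw [Vo, ts_eq hℓ0]
    rfl
  · rw [Uo]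
    have hs : ∀ g : ℕ → (Vec → Vec → R), ∑ j ∈ Finset.range ℓ, g j = ∑ x : ZMod ℓ, g x.val := by
      intro g
      refine Finset.sum_nbij' (fun j : ℕ ↦ (j : ZMod ℓ)) (fun x : ZMod ℓ ↦ x.val)
        (fun _ _ ↦ Finset.mem_univ _) (fun x _ ↦ Finset.mem_range.mpr x.val_lt) (fun j hj ↦ ?_)
        (fun x _ ↦ ?_) (fun j hj ↦ ?_)
      · exact ZMod.val_cast_of_lt (Finset.mem_range.mp hj)
      · exact ZMod.natCast_zmod_val x
      · rw [ZMod.val_cast_of_lt (Finset.mem_range.mp hj)]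
    rw [hs]
    refine Finset.sum_congr rfl fun x _ => ?_
    rw [ts_eq hℓ1]
    rfl

theorem To_add (ℓ : ℕ) (φ ψ : Vec → Vec → R) : To ℓ (φ + ψ) = To ℓ φ + To ℓ ψ := by
  rw [To, To, To, Vo_add, Uo_add]; abel

theorem Vo_smul (a : ℕ) (c : R) (φ : Vec → Vec → R) : Vo a (c • φ) = c • Vo a φ := ts_smul _ _ _ _ _

theorem To_smul (ℓ : ℕ) (c : R) (φ : Vec → Vec → R) : To ℓ (c • φ) = c • To ℓ φ := by
  rw [To, To, Vo_smul, Uo_smul, smul_add]

theorem To_comm {ℓ m : ℕ} (hℓ : ℓ ≠ 0) (hm : m ≠ 0) (h : ℓ.Coprime m) {φ : Vec → Vec → R}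
    (hφ : TI φ) : To m (To ℓ φ) = To ℓ (To m φ) := by
  rw [To, To, To, To, Vo_add, Uo_add, Vo_add, Uo_add, Vo_Vo hℓ hm, Vo_Vo hm hℓ, Uo_Uo hℓ hm,
    Uo_Uo hm hℓ, Vo_Uo hm hℓ h.symm hφ, ← Vo_Uo hℓ hm h hφ, mul_comm m ℓ]
  abel

theorem Uo_To {ℓ q : ℕ} (hℓ : ℓ ≠ 0) (hq : q ≠ 0) (h : ℓ.Coprime q) {φ : Vec → Vec → R}
    (hφ : TI φ) : Uo q (To ℓ φ) = To ℓ (Uo q φ) := by
  rw [To, To, Uo_add, ← Vo_Uo hℓ hq h hφ, Uo_Uo hℓ hq, Uo_Uo hq hℓ, mul_comm]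

theorem To_mem_MS {N ℓ : ℕ} (hℓ : ℓ.Prime) (hℓN : ¬ ℓ ∣ N) {φ : Vec → Vec → R}
    (hφ : φ ∈ MS R (Gamma0 N)) : To ℓ φ ∈ MS R (Gamma0 N) := by
  have : Fact ℓ.Prime := ⟨hℓ⟩
  have : NeZero ℓ := ⟨hℓ.ne_zero⟩
  rw [← To_eq_hop]
  exact hop_mem_MS (isReps_tr hℓN) (fun γ hγ α hα => DD_mul_right hγ hα) hφ

end

end Fermat.Agent.LR
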