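import Fermat.Agent.LevelRaise.Triangle

set_option autoImplicit false
set_option linter.unusedSectionVars false

/-!
Intersection sums and the modular symbols `PD γ`.
-/

namespace Fermat.Agent.LR

open Matrix
open scoped MatrixGroups

noncomputable section

/-- intersection sums -/
def II (B : Set IM) (g₁ g₂ : IM) (u v : Vec) : ℤ :=
  ∑ᶠ β ∈ B, (sd g₁ (β • u) (β • v) - sd g₂ (β • u) (β • v))

theorem finite_supp {B : Set IM} {δ : ℤ} (hB : ∀ β ∈ B, β.1.det = δ) {g₁ g₂ : IM}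
    (h₁ : 0 < g₁.1.det) (h₂ : 0 < g₂.1.det) (u v : Vec) :
    (B ∩ Function.support
      (fun β : IM => sd g₁ (β • u) (β • v) - sd g₂ (β • u) (β • v))).Finite := by
  by_cases h : dt u v = 0
  · convert Set.finite_empty
    rw [Set.eq_empty_iff_forall_notMem]
    rintro β ⟨-, hβ⟩
    rw [Function.mem_support] at hβ
    have h' := (dt_smul_eq_zero β).mpr h
    rw [sd_of_par _ h', sd_of_par _ h', sub_self] at hβ
    exact hβ rfl
  · refine (finite_crossings h₁ h₂ (δ := δ) h).subset ?_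
    rintro β ⟨hβB, hβ⟩
    rw [Function.mem_support] at hβ
    exact ⟨hB β hβB, fun h => hβ (by rw [h, sub_self])⟩

theorem II_add {B : Set IM} {δ : ℤ} (hB : ∀ β ∈ B, β.1.det = δ) {g₁ g₂ g₃ : IM}
    (h₁ : 0 < g₁.1.det) (h₂ : 0 < g₂.1.det) (h₃ : 0 < g₃.1.det) (u v : Vec) :
    II B g₁ g₂ u v + II B g₂ g₃ u v = II B g₁ g₃ u v := by
  unfold II
  rw [← finsum_mem_add_distrib' (finite_supp hB h₁ h₂ u v) (finite_supp hB h₂ h₃ u v)]
  exact finsum_mem_congr rfl fun β _ => by ring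

theorem II_self (B : Set IM) (g : IM) (u v : Vec) : II B g g u v = 0 := by
  unfold II
  simp

theorem II_symm {B : Set IM} {δ : ℤ} (hB : ∀ β ∈ B, β.1.det = δ) {g₁ g₂ : IM}
    (h₁ : 0 < g₁.1.det) (h₂ : 0 < g₂.1.det) (u v : Vec) :
    II B g₂ g₁ u v = - II B g₁ g₂ u v := by
  have := II_add hB h₁ h₂ h₁ u v
  rw [II_self] at this
  linarith

theorem II_of_par (B : Set IM) (g₁ g₂ : IM) {u v : Vec} (h : dt u v = 0) :
    II B g₁ g₂ u v = 0 := by
  unfold II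
  rw [← finsum_mem_zero B]
  refine finsum_mem_congr rfl fun β _ => ?_
  have h' := (dt_smul_eq_zero β).mpr h
  rw [sd_of_par _ h', sd_of_par _ h', sub_self]

theorem II_par_left (B : Set IM) (g₁ g₂ : IM) {u u' : Vec} (h : dt u u' = 0) (v : Vec) :
    II B g₁ g₂ u v = II B g₁ g₂ u' v := by
  unfold II
  refine finsum_mem_congr rfl fun β _ => ?_
  have h' := (dt_smul_eq_zero β).mpr h
  rw [sd_par_left _ h', sd_par_left _ h']

theorem II_swap (B : Set IM) (g₁ g₂ : IM) (u v : Vec) : II B g₁ g₂ v u = - II B g₁ g₂ u v := by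
  unfold II
  rw [← finsum_neg_distrib]
  refine finsum_congr fun β => ?_
  rw [← finsum_neg_distrib]
  refine finsum_congr fun _ => ?_
  rw [sd_swap, sd_swap g₂]; ring

theorem II_par_right (B : Set IM) (g₁ g₂ : IM) (u : Vec) {v v' : Vec} (h : dt v v' = 0) :
    II B g₁ g₂ u v = II B g₁ g₂ u v' := by
  rw [II_swap, II_par_left B g₁ g₂ h, ← II_swap]

theorem IM_mul_left_cancel {A B C : IM} (h : A * B = A * C) : B = C := by
  have h1 : adj A * (A * B) = adj A * (A * C) := by rw [h]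
  rw [← mul_assoc, ← mul_assoc, adj_mul_self] at h1
  have h2 := congrArg Subtype.val h1
  change (A.1.det • (1 : M2)) * B.1 = (A.1.det • (1 : M2)) * C.1 at h2
  rw [smul_mul_assoc, smul_mul_assoc, one_mul, one_mul] at h2
  exact Subtype.ext (smul_right_injective _ (IM_det_ne A) h2)

theorem IM_mul_right_cancel {A B C : IM} (h : B * A = C * A) : B = C := by
  have h1 : (B * A) * adj A = (C * A) * adj A := by rw [h]
  rw [mul_assoc, mul_assoc, mul_adj_self, ← scal_mul_comm, ← scal_mul_comm] at h1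
  exact IM_mul_left_cancel h1

theorem II_smul (B : Set IM) (g₁ g₂ h : IM) (u v : Vec) :
    II B g₁ g₂ (h • u) (h • v) = II ((fun β => β * h) '' B) g₁ g₂ u v := by
  unfold II
  rw [finsum_mem_image (fun β _ β' _ hh => IM_mul_right_cancel hh)]
  refine finsum_mem_congr rfl fun β _ => ?_
  rw [mul_smul, mul_smul]

theorem II_left (B : Set IM) (g₁ g₂ h : IM) (u v : Vec) :
    II ((fun β => h * β) '' B) (h * g₁) (h * g₂) u v = II B g₁ g₂ u v := by
  unfold II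
  rw [finsum_mem_image (fun β _ β' _ hh => IM_mul_left_cancel hh)]
  refine finsum_mem_congr rfl fun β _ => ?_
  rw [mul_smul, mul_smul, sd_left, sd_left]

theorem II_scal_scal (B : Set IM) (g₁ g₂ : IM) (c : ℤ) (hc : c ≠ 0) (u v : Vec) :
    II B (scal c hc * g₁) (scal c hc * g₂) u v = II B g₁ g₂ u v := by
  unfold II
  refine finsum_mem_congr rfl fun β _ => ?_
  rw [sd_scal, sd_scal]

theorem II_scal_image (B : Set IM) (g₁ g₂ : IM) (c : ℤ) (hc : c ≠ 0) (u v : Vec) :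
    II ((fun β => scal c hc * β) '' B) g₁ g₂ u v = II B g₁ g₂ u v := by
  rw [← II_scal_scal _ g₁ g₂ c hc, II_left]

theorem II_iUnion {ι : Type*} [Fintype ι] {B : ι → Set IM} {δ : ℤ}
    (hB : ∀ i, ∀ β ∈ B i, β.1.det = δ) (hd : Pairwise (Function.onFun Disjoint B)) {g₁ g₂ : IM}
    (h₁ : 0 < g₁.1.det) (h₂ : 0 < g₂.1.det) (u v : Vec) :
    II (⋃ i, B i) g₁ g₂ u v = ∑ i, II (B i) g₁ g₂ u v := by
  unfold II
  rw [← finsum_mem_inter_support, Set.iUnion_inter, finsum_mem_iUnion, finsum_eq_sum_of_fintype]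
  · refine Finset.sum_congr rfl fun i _ => ?_
    rw [finsum_mem_inter_support]
  · intro i j hij
    exact (hd hij).mono Set.inter_subset_left Set.inter_subset_left
  · intro i
    exact finite_supp (hB i) h₁ h₂ u v

/-- a subgroup of `SL(2, ℤ)` as a set of matrices -/
def GG (Γ : Subgroup SL(2, ℤ)) : Set IM := ofSL '' (Γ : Set SL(2, ℤ))

theorem ofSL_det (g : SL(2, ℤ)) : (ofSL g).1.det = 1 := g.2

theorem one_det_pos : 0 < (1 : IM).1.det := by
  change 0 < (1 : M2).det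
  rw [Matrix.det_one]; exact one_pos

theorem ofSL_det_pos (g : SL(2, ℤ)) : 0 < (ofSL g).1.det := by rw [ofSL_det]; exact one_pos

theorem GG_det {Γ : Subgroup SL(2, ℤ)} : ∀ β ∈ GG Γ, β.1.det = 1 := by
  rintro _ ⟨g, -, rfl⟩
  exact g.2

theorem GG_mul_right {Γ : Subgroup SL(2, ℤ)} {γ : SL(2, ℤ)} (hγ : γ ∈ Γ) :
    (fun β => β * ofSL γ) '' GG Γ = GG Γ := by
  ext β
  constructor
  · rintro ⟨_, ⟨g, hg, rfl⟩, rfl⟩
    exact ⟨g * γ, Γ.mul_mem hg hγ, map_mul _ _ _⟩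
  · rintro ⟨g, hg, rfl⟩
    refine ⟨ofSL (g * γ⁻¹), ⟨_, Γ.mul_mem hg (Γ.inv_mem hγ), rfl⟩, ?_⟩
    change ofSL (g * γ⁻¹) * ofSL γ = ofSL g
    rw [← map_mul, inv_mul_cancel_right]

theorem GG_mul_left {Γ : Subgroup SL(2, ℤ)} {γ : SL(2, ℤ)} (hγ : γ ∈ Γ) :
    (fun β => ofSL γ * β) '' GG Γ = GG Γ := by
  ext β
  constructor
  · rintro ⟨_, ⟨g, hg, rfl⟩, rfl⟩
    exact ⟨γ * g, Γ.mul_mem hγ hg, map_mul _ _ _⟩
  · rintro ⟨g, hg, rfl⟩
    refine ⟨ofSL (γ⁻¹ * g), ⟨_, Γ.mul_mem (Γ.inv_mem hγ) hg, rfl⟩, ?_⟩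
    change ofSL γ * ofSL (γ⁻¹ * g) = ofSL g
    rw [← map_mul, mul_inv_cancel_left]

theorem II_GG_left {Γ : Subgroup SL(2, ℤ)} {γ : SL(2, ℤ)} (hγ : γ ∈ Γ) (g₁ g₂ : IM) (u v : Vec) :
    II (GG Γ) (ofSL γ * g₁) (ofSL γ * g₂) u v = II (GG Γ) g₁ g₂ u v := by
  conv_lhs => rw [← GG_mul_left hγ]
  exact II_left _ _ _ _ _ _

/-- the symbol attached to `γ` -/
def PD (Γ : Subgroup SL(2, ℤ)) (γ : SL(2, ℤ)) (u v : Vec) : ℤ := II (GG Γ) 1 (ofSL γ) u v

theorem PD_base {Γ : Subgroup SL(2, ℤ)} {γ : SL(2, ℤ)} (hγ : γ ∈ Γ) {g : IM} (hg : 0 < g.1.det)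
    (u v : Vec) : II (GG Γ) g (ofSL γ * g) u v = PD Γ γ u v := by
  have hgg : 0 < (ofSL γ * g).1.det := by
    change 0 < ((ofSL γ).1 * g.1).det
    rw [Matrix.det_mul, ofSL_det, one_mul]; exact hg
  have h1 := II_add (GG_det (Γ := Γ)) one_det_pos hg hgg u v
  have h2 := II_add (GG_det (Γ := Γ)) one_det_pos (ofSL_det_pos γ) hgg u v
  have h2' := II_symm (GG_det (Γ := Γ)) hgg (ofSL_det_pos γ) u v
  have h3 := II_GG_left hγ g 1 u v
  rw [mul_one, II_symm (GG_det (Γ := Γ)) one_det_pos hg] at h3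
  unfold PD
  linarith

theorem PD_mul {Γ : Subgroup SL(2, ℤ)} {γ δ : SL(2, ℤ)} (hγ : γ ∈ Γ) (u v : Vec) :
    PD Γ (γ * δ) u v = PD Γ γ u v + PD Γ δ u v := by
  have h1 := II_add (GG_det (Γ := Γ)) one_det_pos (ofSL_det_pos γ) (ofSL_det_pos (γ * δ)) u v
  have h2 := II_GG_left hγ 1 (ofSL δ) u v
  rw [mul_one, ← map_mul] at h2
  unfold PD
  rw [← h1, h2]

theorem PD_one (Γ : Subgroup SL(2, ℤ)) (u v : Vec) : PD Γ 1 u v = 0 := by
  unfold PD
  rw [map_one, II_self]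

theorem PD_invariant {Γ : Subgroup SL(2, ℤ)} {α : SL(2, ℤ)} (hα : α ∈ Γ) (γ : SL(2, ℤ))
    (u v : Vec) : PD Γ γ (α • u) (α • v) = PD Γ γ u v := by
  unfold PD
  rw [sl_smul_def, sl_smul_def, II_smul, GG_mul_right hα]

theorem PD_triangle {Γ : Subgroup SL(2, ℤ)} {γ : SL(2, ℤ)} (hγ : γ ∈ Γ) {u v w : Vec}
    (h1 : dt u v ≠ 0) (h2 : dt v w ≠ 0) (h3 : dt w u ≠ 0) :
    PD Γ γ u v + PD Γ γ v w + PD Γ γ w u = 0 := by
  set ω : ℤ := -((dt v w).sign * (dt w u).sign * (dt u v).sign) with hω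
  set F : IM → IM → ℤ := fun g β =>
    sd g (β • u) (β • v) + sd g (β • v) (β • w) + sd g (β • w) (β • u) - ω with hF
  have hfin : ∀ g : IM, 0 < g.1.det → (GG Γ ∩ Function.support (F g)).Finite := by
    intro g hg
    refine (finite_triangles hg one_pos h1 h2 h3).subset ?_
    rintro β ⟨hβ, hβ'⟩
    rw [Function.mem_support] at hβ'
    exact ⟨GG_det β hβ, fun h => hβ' (by rw [hF]; simp only; rw [h, sub_self])⟩
  have hsum : PD Γ γ u v + PD Γ γ v w + PD Γ γ w u =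
      (∑ᶠ β ∈ GG Γ, F 1 β) - ∑ᶠ β ∈ GG Γ, F (ofSL γ) β := by
    unfold PD II
    have hf1 := finite_supp (GG_det (Γ := Γ)) one_det_pos (ofSL_det_pos γ) u v
    have hf2 := finite_supp (GG_det (Γ := Γ)) one_det_pos (ofSL_det_pos γ) v w
    have hf3 := finite_supp (GG_det (Γ := Γ)) one_det_pos (ofSL_det_pos γ) w u
    rw [eq_sub_iff_add_eq, ← finsum_mem_add_distrib' hf1 hf2, ← finsum_mem_add_distrib' _ hf3,
      ← finsum_mem_add_distrib' _ (hfin _ (ofSL_det_pos γ))]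
    · refine finsum_mem_congr rfl fun β _ => ?_
      rw [hF]; ring
    · refine ((hf1.union hf2).union hf3).subset ?_
      rw [← Set.inter_union_distrib_left, ← Set.inter_union_distrib_left]
      refine Set.inter_subset_inter_right _ ?_
      refine (Function.support_add _ _).trans (Set.union_subset_union_left _ ?_)
      exact Function.support_add _ _
    · refine (hf1.union hf2).subset ?_
      rw [← Set.inter_union_distrib_left]
      exact Set.inter_subset_inter_right _ (Function.support_add _ _)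
  rw [hsum, sub_eq_zero]
  have h4 : ∑ᶠ β ∈ GG Γ, F (ofSL γ) β = ∑ᶠ β ∈ (fun β => ofSL γ * β) '' GG Γ, F (ofSL γ) β := by
    rw [GG_mul_left hγ]
  rw [h4, finsum_mem_image (fun β _ β' _ hh => IM_mul_left_cancel hh)]
  refine finsum_mem_congr rfl fun β _ => ?_
  rw [hF]
  simp only
  have h5 : ∀ x y : Vec, sd (ofSL γ) ((ofSL γ * β) • x) ((ofSL γ * β) • y) =
      sd 1 (β • x) (β • y) := by
    intro x y
    have := sd_left (ofSL γ) 1 (β • x) (β • y)
    rw [mul_one] at this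
    rw [mul_smul, mul_smul, this]
  rw [h5, h5, h5]

theorem PD_mem_MS {Γ : Subgroup SL(2, ℤ)} {γ : SL(2, ℤ)} (hγ : γ ∈ Γ) : PD Γ γ ∈ MS ℤ Γ := by
  refine ⟨⟨fun u v w => ?_, fun u v h => II_of_par _ _ _ h⟩, fun α hα u v => PD_invariant hα γ u v⟩
  by_cases h1 : dt u v = 0
  · unfold PD
    rw [II_of_par _ _ _ h1, zero_add, II_par_left _ _ _ h1]
  by_cases h2 : dt v w = 0
  · unfold PD
    rw [II_of_par _ _ _ h2, add_zero, II_par_right _ _ _ _ h2]
  by_cases h3 : dt w u = 0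
  · have h4 := dt_eq_zero_symm h3
    unfold PD
    rw [II_of_par _ _ _ h4, II_par_right _ _ _ v h3, II_swap, neg_add_cancel]
  have h4 := PD_triangle hγ h1 h2 h3
  have h5 : PD Γ γ w u = - PD Γ γ u w := II_swap _ _ _ _ _
  rw [h5] at h4
  linarith

end

end Fermat.Agent.LR
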