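import Fermat.Agent.LevelRaise.Reps

set_option autoImplicit false
set_option linter.unusedSectionVars false

/-!
Hecke equivariance of the intersection pairing.
-/

namespace Fermat.Agent.LR

open Matrix
open scoped MatrixGroups

noncomputable section

theorem adj_ofSL_mul (g : SL(2, ℤ)) (A : IM) : adj (ofSL g * A) = adj A * ofSL g⁻¹ := by
  rw [adj_mul, adj_ofSL]

theorem mul_det (A B : IM) : (A * B).1.det = A.1.det * B.1.det := Matrix.det_mul _ _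

/-- **Hecke equivariance of `PD`.** -/
theorem PD_hop {Γ : Subgroup SL(2, ℤ)} {Δ : Set IM} {ℓ : ℤ} (hℓ : 0 < ℓ) {X : Type*} [Fintype X]
    {r : X → IM} (hr : IsReps Γ Δ r) (hδ : ∀ α ∈ Δ, α.1.det = ℓ) (hadj : ∀ α ∈ Δ, adj α ∈ Δ)
    {γ : SL(2, ℤ)} (π : Equiv.Perm X) (c : X → SL(2, ℤ)) (hc : ∀ x, c x ∈ Γ)
    (hspec : ∀ x, r x * ofSL γ = ofSL (c x) * r (π x)) (u v : Vec) :
    ∑ x, PD Γ (c x) u v = ∑ x, PD Γ γ (r x • u) (r x • v) := by
  have hrdet : ∀ x, (r x).1.det = ℓ := fun x => hδ _ (hr.mem' x)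
  have hrpos : ∀ x, 0 < (r x).1.det := fun x => by rw [hrdet]; exact hℓ
  have hGG := GG_det (Γ := Γ)
  -- right-hand side
  have hR : ∑ x, PD Γ γ (r x • u) (r x • v) = II Δ 1 (ofSL γ) u v :=
    II_hop hr hδ one_det_pos (ofSL_det_pos γ) u v
  -- telescoping
  have hT : ∑ x, II (GG Γ) (r x) (r (π x)) u v = 0 := by
    have h1 : ∀ x, II (GG Γ) (r x) (r (π x)) u v =
        II (GG Γ) 1 (r (π x)) u v - II (GG Γ) 1 (r x) u v := by
      intro x
      have := II_add hGG one_det_pos (hrpos x) (hrpos (π x)) u v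
      linarith
    rw [Finset.sum_congr rfl fun x _ => h1 x, Finset.sum_sub_distrib,
      Equiv.sum_comp π (fun x => II (GG Γ) 1 (r x) u v), sub_self]
  have hL : ∑ x, PD Γ (c x) u v = ∑ x, II (GG Γ) (r x) (r x * ofSL γ) u v := by
    rw [← add_zero (∑ x, PD Γ (c x) u v), ← hT, ← Finset.sum_add_distrib]
    refine Finset.sum_congr rfl fun x _ => ?_
    rw [hspec x, ← PD_base (hc x) (hrpos x), ← II_GG_left (hc x) (r x) (r (π x))]
    refine II_add hGG (hrpos x) ?_ ?_ u v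
    · rw [mul_det, ofSL_det, one_mul]; exact hrpos x
    · rw [mul_det, ofSL_det, one_mul]; exact hrpos _
  rw [hL, hR]
  have h2 : ∀ x, II (GG Γ) (r x) (r x * ofSL γ) u v =
      II ((fun β => adj (r x) * β) '' GG Γ) 1 (ofSL γ) u v := by
    intro x
    rw [← II_left (GG Γ) (r x) (r x * ofSL γ) (adj (r x)), ← mul_assoc, adj_mul_self,
      ← II_scal_scal ((fun β => adj (r x) * β) '' GG Γ) 1 (ofSL γ) _ (IM_det_ne (r x)), mul_one]
  rw [Finset.sum_congr rfl fun x _ => h2 x]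
  have h3 : Δ = ⋃ x, ((fun β => adj (r x) * β) '' GG Γ) := by
    ext α
    rw [Set.mem_iUnion]
    constructor
    · intro hα
      obtain ⟨x, γ', hγ', h4⟩ := hr.ex _ (hadj α hα)
      refine ⟨x, ofSL γ'⁻¹, ⟨γ'⁻¹, Γ.inv_mem hγ', rfl⟩, ?_⟩
      change adj (r x) * ofSL γ'⁻¹ = α
      rw [← adj_adj α, h4, adj_ofSL_mul]
    · rintro ⟨x, _, ⟨γ', hγ', rfl⟩, rfl⟩
      have h5 := hadj _ (hr.mem γ'⁻¹ (Γ.inv_mem hγ') x)
      rwa [adj_ofSL_mul, inv_inv] at h5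
  have h4 : Pairwise (Function.onFun Disjoint fun x => (fun β => adj (r x) * β) '' GG Γ) := by
    intro x y hxy
    rw [Function.onFun, Set.disjoint_left]
    rintro _ ⟨_, ⟨γ₁, hγ₁, rfl⟩, rfl⟩ ⟨_, ⟨γ₂, hγ₂, rfl⟩, h⟩
    apply hxy
    apply hr.uniq x y (γ₁ * γ₂⁻¹) (Γ.mul_mem hγ₁ (Γ.inv_mem hγ₂))
    change adj (r y) * ofSL γ₂ = adj (r x) * ofSL γ₁ at h
    have h5 := congrArg adj h
    rw [adj_mul, adj_mul, adj_adj, adj_adj, adj_ofSL, adj_ofSL] at h5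
    rw [map_mul, mul_assoc, h5, ← mul_assoc, ← map_mul, mul_inv_cancel, map_one, one_mul]
  conv_rhs => rw [h3]
  rw [II_iUnion (δ := ℓ) _ h4 one_det_pos (ofSL_det_pos γ)]
  intro x β hβ
  apply hδ
  rw [h3, Set.mem_iUnion]
  exact ⟨x, hβ⟩

/-- compatibility with the trace -/
theorem PD_trace {Γ Γ' : Subgroup SL(2, ℤ)} {X : Type*} [Fintype X] {r : X → IM}
    (hr : IsReps Γ' (GG Γ) r) (γ : SL(2, ℤ)) (u v : Vec) :
    ∑ x, PD Γ' γ (r x • u) (r x • v) = PD Γ γ u v :=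
  II_hop hr GG_det one_det_pos (ofSL_det_pos γ) u v

/-- compatibility with normalizing elements -/
theorem PD_normalize {Γ : Subgroup SL(2, ℤ)} {w : IM} (hw : 0 < w.1.det)
    (h1 : ∀ γ ∈ Γ, ∃ γ' ∈ Γ, ofSL γ * w = w * ofSL γ')
    (h2 : ∀ γ ∈ Γ, ∃ γ' ∈ Γ, w * ofSL γ = ofSL γ' * w)
    {γ γ' : SL(2, ℤ)} (hγ' : γ' ∈ Γ) (h : ofSL γ * w = w * ofSL γ') (u v : Vec) :
    PD Γ γ (w • u) (w • v) = PD Γ γ' u v := by
  have hadjpos : 0 < (adj w).1.det := by rw [adj_det]; exact hw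
  have e1 : (fun β => β * w) '' GG Γ = (fun β => w * β) '' GG Γ := by
    ext α
    constructor
    · rintro ⟨_, ⟨γ, hγ, rfl⟩, rfl⟩
      obtain ⟨γ', hγ', e⟩ := h1 γ hγ
      exact ⟨_, ⟨γ', hγ', rfl⟩, e.symm⟩
    · rintro ⟨_, ⟨γ, hγ, rfl⟩, rfl⟩
      obtain ⟨γ', hγ', e⟩ := h2 γ hγ
      exact ⟨_, ⟨γ', hγ', rfl⟩, e.symm⟩
  have e2 : (fun β => adj w * β) '' ((fun β => w * β) '' GG Γ) =
      (fun β => scal w.1.det (IM_det_ne w) * β) '' GG Γ := by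
    rw [Set.image_image]
    apply Set.image_congr
    intro β _
    rw [← mul_assoc, adj_mul_self]
  have e3 : adj w * ofSL γ = ofSL γ' * adj w := by
    apply IM_mul_left_cancel (A := w)
    apply IM_mul_right_cancel (A := w)
    rw [← mul_assoc w (adj w), mul_adj_self, mul_assoc, h, ← mul_assoc w (ofSL γ'), mul_assoc (w * ofSL γ'),
      adj_mul_self, ← scal_mul_comm]
  unfold PD
  rw [II_smul, e1, ← II_left _ 1 (ofSL γ) (adj w), e2, II_scal_image, mul_one, e3]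
  exact PD_base hγ' hadjpos u v

end

end Fermat.Agent.LR
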