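import Fermat.Agent.LevelRaise.Lift

set_option autoImplicit false
set_option linter.unusedSectionVars false

/-!
Non-Eisenstein eigenvectors are parabolic.
-/

namespace Fermat.Agent.LR

open Matrix CongruenceSubgroup
open scoped MatrixGroups
open Fermat.Agent.HeckeHom ModularCurve.Period

noncomputable section

theorem dataT_α {N ℓ : ℕ} [NeZero ℓ] (hℓ : ℓ.Prime) (hℓN : ¬ ℓ ∣ N) (x : OnePoint (ZMod ℓ)) :
    (dataT hℓ hℓN).α x = toGL (tr ℓ x) := by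
  change P2MW.S_ModularForm_heckeT_slash_eq_self_of_mem_Gamma0.ModularForm.HeckeSlashInvariance.heckeRep
    ℓ x = _
  induction x using OnePoint.rec with
  | infty =>
    rw [P2MW.S_ModularForm_heckeT_slash_eq_self_of_mem_Gamma0.ModularForm.HeckeSlashInvariance.heckeRep_infty]
    ext i j
    rw [toGL_apply, ModularForm.val_heckeDiagMatrix hℓ.ne_zero, tr_infty]
    fin_cases i <;> fin_cases j <;> simp
  | coe y =>
    rw [P2MW.S_ModularForm_heckeT_slash_eq_self_of_mem_Gamma0.ModularForm.HeckeSlashInvariance.heckeRep_coe]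
    ext i j
    rw [toGL_apply, ModularForm.val_heckeMatrix hℓ.ne_zero, tr_coe]
    fin_cases i <;> fin_cases j <;> simp

theorem sum_content {k : Type*} [CommRing k] {ℓ : ℕ} [hℓ : Fact ℓ.Prime] (a c : ℤ)
    (h : ¬ ((ℓ : ℤ) ∣ a ∧ (ℓ : ℤ) ∣ c)) (f : OnePoint (ZMod ℓ) → k)
    (hf1 : f OnePoint.infty = if (ℓ : ℤ) ∣ c then (ℓ : k) ^ 2 else 1)
    (hf2 : ∀ j : ZMod ℓ, f (j : OnePoint (ZMod ℓ)) =
      if (ℓ : ℤ) ∣ a + (j.val : ℤ) * c then (ℓ : k) ^ 2 else 1) :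
    ∑ x, f x = (ℓ : k) ^ 2 + ℓ := by
  have h1 : ∑ x : OnePoint (ZMod ℓ), f x =
      f OnePoint.infty + ∑ j : ZMod ℓ, f (j : OnePoint (ZMod ℓ)) := Fintype.sum_option f
  rw [h1, hf1]
  by_cases hc : (ℓ : ℤ) ∣ c
  · rw [if_pos hc]
    have h2 : ∀ j : ZMod ℓ, f (j : OnePoint (ZMod ℓ)) = 1 := by
      intro j
      rw [hf2, if_neg]
      intro h3
      exact h ⟨(dvd_add_left (Dvd.dvd.mul_left hc _)).mp h3, hc⟩
    rw [Finset.sum_congr rfl fun j _ => h2 j, Finset.sum_const, Finset.card_univ, ZMod.card,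
      nsmul_eq_mul, mul_one]
  · rw [if_neg hc]
    have hc' : (c : ZMod ℓ) ≠ 0 := by
      rw [Ne, ZMod.intCast_zmod_eq_zero_iff_dvd]; exact hc
    set j0 : ZMod ℓ := -(a : ZMod ℓ) / c with hj0
    have h2 : ∀ j : ZMod ℓ, f (j : OnePoint (ZMod ℓ)) = 1 + if j = j0 then (ℓ : k) ^ 2 - 1 else 0 := by
      intro j
      have h3 : (ℓ : ℤ) ∣ a + (j.val : ℤ) * c ↔ j = j0 := by
        rw [← ZMod.intCast_zmod_eq_zero_iff_dvd]
        push_cast
        rw [ZMod.natCast_zmod_val, hj0, eq_div_iff hc']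
        constructor
        · intro h; linear_combination h
        · intro h; linear_combination h
      rw [hf2]
      by_cases h4 : j = j0
      · rw [if_pos (h3.mpr h4), if_pos h4]; ring
      · rw [if_neg (fun h => h4 (h3.mp h)), if_neg h4]; ring
    rw [Finset.sum_congr rfl fun j _ => h2 j, Finset.sum_add_distrib, Finset.sum_const,
      Finset.card_univ, ZMod.card, nsmul_eq_mul, mul_one, Finset.sum_ite_eq' Finset.univ j0]
    rw [if_pos (Finset.mem_univ _)]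
    ring

theorem T1_conj_pow (g : SL(2, ℤ)) (t : ℤ) (n : ℕ) :
    (g * T1 t * g⁻¹) ^ n = g * T1 (n * t) * g⁻¹ := by
  rw [_root_.conj_pow, T1_pow]

theorem tr_conj {N : ℕ} (hN : 0 < N) {ℓ : ℕ} [hℓ : Fact ℓ.Prime]
    (hℓN : (N : ℤ) ∣ (ℓ : ℤ) - 1) (g : SL(2, ℤ)) (t : ℤ) (x : OnePoint (ZMod ℓ)) :
    ∃ δ ∈ Gamma0 N, ∃ m : ℕ, (m = if (ℓ : ℤ) ∣ (tr ℓ x • g • e1).1.1 ∧ (ℓ : ℤ) ∣ (tr ℓ x • g • e1).1.2
      then ℓ else 1) ∧
      tr ℓ x * ofSL (g * T1 (ℓ * t) * g⁻¹) =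
        ofSL (δ * (g * T1 ((m ^ 2 : ℕ) * t) * g⁻¹) * δ⁻¹) * tr ℓ x := by
  obtain ⟨δ, hδ, m, hm, h⟩ := exists_tr_smul hN hℓN g x
  obtain ⟨n, rfl⟩ : ∃ n : ℕ, m = n := by
    rcases hm with h | h
    · exact ⟨1, by rw [h]; rfl⟩
    · exact ⟨ℓ, h⟩
  refine ⟨δ, hδ, n, ?_, ?_⟩
  · rw [h]
    have hprim : ¬ ((ℓ : ℤ) ∣ (δ • g • e1).1.1 ∧ (ℓ : ℤ) ∣ (δ • g • e1).1.2) := by
      rintro ⟨h1, h2⟩
      rw [← mul_smul, sl_smul_e1] at h1 h2
      simp only at h1 h2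
      have h3 : (ℓ : ℤ) ∣ 1 := by
        rw [← sl_det_eq (δ * g)]
        exact dvd_sub (Dvd.dvd.mul_right h1 _) (Dvd.dvd.mul_left h2 _)
      exact (Nat.prime_iff_prime_int.mp hℓ.out).not_isUnit (isUnit_of_dvd_one h3)
    rcases hm with h0 | h0
    · have h0' : n = 1 := by exact_mod_cast h0
      subst h0'
      rw [if_neg]
      simpa using hprim
    · have h0' : n = ℓ := by exact_mod_cast h0
      subst h0'
      rw [if_pos ⟨Dvd.intro _ rfl, Dvd.intro _ rfl⟩]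
  · obtain ⟨H, hH⟩ : ∃ H : IM, H = ofSL (δ * g)⁻¹ * tr ℓ x * ofSL g := ⟨_, rfl⟩
    have hHA : tr ℓ x = ofSL (δ * g) * H * ofSL g⁻¹ := by
      rw [hH, ← mul_assoc, ← mul_assoc, ← map_mul, mul_inv_cancel, map_one, one_mul, mul_assoc,
        ← map_mul, mul_inv_cancel, map_one, mul_one]
    have hHe : (H • e1).1 = ((n : ℤ) * e1.1.1, (n : ℤ) * e1.1.2) := by
      rw [hH, mul_smul, mul_smul, ← sl_smul_def g, smul_val, h, mv_scale]
      have h2 : mv (ofSL (δ * g)⁻¹).1 (δ • g • e1).1 = e1.1 := by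
        rw [← smul_val, ← sl_smul_def, ← mul_smul δ, inv_smul_smul]
      have h3 : (((δ • g • e1).val.1, (δ • g • e1).val.2) : ℤ × ℤ) = (δ • g • e1).val := rfl
      rw [h2]
    rw [smul_val, mv, e1_val] at hHe
    have h00 : H.1 0 0 = n := by
      have := congrArg Prod.fst hHe
      simpa using this
    have h10 : H.1 1 0 = 0 := by
      have := congrArg Prod.snd hHe
      simpa using this
    have hdet : H.1.det = ℓ := by
      rw [hH, mul_det, mul_det, ofSL_det, ofSL_det, (tr_mem_DD N ℓ x).1]; ring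
    rw [IM_det_eq, h00, h10] at hdet
    have hcomm : H * ofSL (T1 (ℓ * t)) = ofSL (T1 ((n ^ 2 : ℕ) * t)) * H := by
      apply IM_ext
      · rw [IM_mul_apply, IM_mul_apply, ofSL_val, ofSL_val, T1, T1, mkSL_00, mkSL_10, mkSL_00,
          mkSL_01, h10]
        ring
      · rw [IM_mul_apply, IM_mul_apply, ofSL_val, ofSL_val, T1, T1, mkSL_01, mkSL_11, mkSL_00,
          mkSL_01, h00]
        push_cast
        linear_combination (-(n : ℤ) * t) * hdet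
      · rw [IM_mul_apply, IM_mul_apply, ofSL_val, ofSL_val, T1, T1, mkSL_00, mkSL_10, mkSL_10,
          mkSL_11, h10]
        ring
      · rw [IM_mul_apply, IM_mul_apply, ofSL_val, ofSL_val, T1, T1, mkSL_01, mkSL_11, mkSL_10,
          mkSL_11, h10]
        ring
    have e1' : tr ℓ x * ofSL (g * T1 (ℓ * t) * g⁻¹) = ofSL (δ * g) * (H * ofSL (T1 (ℓ * t))) *
        ofSL g⁻¹ := by
      conv_lhs => rw [hHA]
      rw [map_mul ofSL (g * T1 (ℓ * t)), map_mul ofSL g]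
      have : ofSL g⁻¹ * ofSL g = 1 := by rw [← map_mul, inv_mul_cancel, map_one]
      calc ofSL (δ * g) * H * ofSL g⁻¹ * (ofSL g * ofSL (T1 (ℓ * t)) * ofSL g⁻¹)
          = ofSL (δ * g) * H * (ofSL g⁻¹ * ofSL g) * ofSL (T1 (ℓ * t)) * ofSL g⁻¹ := by
            simp only [mul_assoc]
        _ = _ := by rw [this, mul_one]; simp only [mul_assoc]
    rw [e1', hcomm]
    conv_rhs => rw [hHA]
    have e2 : δ * (g * T1 ((n ^ 2 : ℕ) * t) * g⁻¹) * δ⁻¹ =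
      (δ * g) * T1 ((n ^ 2 : ℕ) * t) * (δ * g)⁻¹ := by group
    rw [e2, map_mul ofSL ((δ * g) * T1 ((n ^ 2 : ℕ) * t)), map_mul ofSL (δ * g) (T1 ((n ^ 2 : ℕ) * t))]
    have : ofSL (δ * g)⁻¹ * ofSL (δ * g) = 1 := by rw [← map_mul, inv_mul_cancel, map_one]
    calc ofSL (δ * g) * (ofSL (T1 ((n ^ 2 : ℕ) * t)) * H) * ofSL g⁻¹
        = ofSL (δ * g) * ofSL (T1 ((n ^ 2 : ℕ) * t)) * (ofSL (δ * g)⁻¹ * ofSL (δ * g)) * H *
            ofSL g⁻¹ := by rw [this, mul_one]; simp only [mul_assoc]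
      _ = _ := by simp only [mul_assoc]

theorem hom_unipotent {k : Type*} [Field k] {N ℓ : ℕ} (hN : 0 < N) (hℓ : ℓ.Prime)
    (hℓN' : ¬ ℓ ∣ N) (hℓN : (N : ℤ) ∣ (ℓ : ℤ) - 1) (hℓk : (ℓ : k) ≠ 0)
    (D1 : Additive (Gamma0 N) →+ k) (g : SL(2, ℤ)) (t : ℤ) (hγ : g * T1 t * g⁻¹ ∈ Gamma0 N) :
    (dataT hℓ hℓN').hom k D1 (Additive.ofMul ⟨_, hγ⟩) =
      (1 + (ℓ : k)) * D1 (Additive.ofMul ⟨_, hγ⟩) := by
  have : Fact ℓ.Prime := ⟨hℓ⟩
  have : NeZero ℓ := ⟨hℓ.ne_zero⟩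
  set γ : Gamma0 N := ⟨g * T1 t * g⁻¹, hγ⟩ with hγdef
  have hpow : ∀ n : ℕ, ((γ ^ n : Gamma0 N) : SL(2, ℤ)) = g * T1 (n * t) * g⁻¹ := by
    intro n
    rw [Subgroup.coe_pow]
    exact T1_conj_pow g t n
  have h1 : (dataT hℓ hℓN').hom k D1 (Additive.ofMul (γ ^ ℓ)) =
      ((ℓ : k) ^ 2 + ℓ) * D1 (Additive.ofMul γ) := by
    choose δ hδ m hm hconj using fun x => tr_conj hN hℓN g t x
    have h2 : ∀ x : OnePoint (ZMod ℓ), D1 (Additive.ofMul ((dataT hℓ hℓN').coc (γ ^ ℓ) x)) =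
        ((m x : k) ^ 2) * D1 (Additive.ofMul γ) := by
      intro x
      have h3 := (eq_of_spec_IM (dataT hℓ hℓN') (tr ℓ) (dataT_α hℓ hℓN') (γ := γ ^ ℓ) (x := x)
        (y := x) (δ := ⟨δ x, hδ x⟩ * γ ^ (m x ^ 2) * ⟨δ x, hδ x⟩⁻¹) (by
          rw [hpow, hconj x]
          congr 2
          rw [Subgroup.coe_mul, Subgroup.coe_mul, hpow, Subgroup.coe_inv])).2
      rw [← h3, ofMul_mul, ofMul_mul, ofMul_inv, ofMul_pow, map_add, map_add, map_neg, map_nsmul,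
        nsmul_eq_mul]
      push_cast
      ring
    have h4 : (dataT hℓ hℓN').hom k D1 (Additive.ofMul (γ ^ ℓ)) =
        ∑ x : OnePoint (ZMod ℓ), ((m x : k) ^ 2) * D1 (Additive.ofMul γ) :=
      Finset.sum_congr rfl fun x _ => h2 x
    rw [h4, ← Finset.sum_mul]
    congr 1
    have hm2 : ∀ x, (m x : k) ^ 2 = if (ℓ : ℤ) ∣ (tr ℓ x • g • e1).1.1 ∧
        (ℓ : ℤ) ∣ (tr ℓ x • g • e1).1.2 then (ℓ : k) ^ 2 else 1 := by
      intro x
      rw [hm x]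
      split_ifs
      · rfl
      · rw [Nat.cast_one, one_pow]
    refine sum_content (g.1 0 0) (g.1 1 0) ?_ _ ?_ ?_
    · rintro ⟨h1, h2⟩
      have h3 : (ℓ : ℤ) ∣ 1 := by
        rw [← sl_det_eq g]
        exact dvd_sub (Dvd.dvd.mul_right h1 _) (Dvd.dvd.mul_left h2 _)
      exact (Nat.prime_iff_prime_int.mp hℓ).not_isUnit (isUnit_of_dvd_one h3)
    · rw [hm2]
      congr 1
      rw [smul_val, sl_smul_e1, mv, tr_infty]
      simp
    · intro j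
      rw [hm2]
      congr 1
      rw [smul_val, sl_smul_e1, mv, tr_coe]
      simp [-ZMod.natCast_val]
  rw [ofMul_pow, map_nsmul, nsmul_eq_mul] at h1
  apply mul_left_cancel₀ hℓk
  rw [h1]
  ring

/-- **Non-Eisenstein eigenvectors vanish on parabolic elements.** -/
theorem parabolic_of_eigen {k : Type*} [Field k] (hk2 : (2 : k) ≠ 0) {N ℓ : ℕ} (hN : 0 < N)
    (hℓ : ℓ.Prime) (hℓN' : ¬ ℓ ∣ N) (hℓN : (N : ℤ) ∣ (ℓ : ℤ) - 1) (hℓk : (ℓ : k) ≠ 0)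
    (D1 : Additive (Gamma0 N) →+ k) {lam : k} (hlam : lam ≠ 1 + ℓ)
    (heig : (dataT hℓ hℓN').hom k D1 = lam • D1) (γ : Gamma0 N) (u : Vec)
    (hu : dt ((γ : SL(2, ℤ)) • u) u = 0) : D1 (Additive.ofMul γ) = 0 := by
  obtain ⟨g, m, hm, hg⟩ := exists_primitive u
  have hu1 : dt u (g • e1) = 0 := by
    apply dt_of_val (m := m)
    rw [hg, sl_smul_e1]
  set h : SL(2, ℤ) := g⁻¹ * γ * g with hh
  have h1 : dt (h • e1) e1 = 0 := by
    rw [hh, mul_smul, mul_smul, ← dt_sl_smul g, smul_inv_smul]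
    refine dt_trans (v := (γ : SL(2, ℤ)) • u) ?_ (dt_trans hu hu1)
    rw [dt_sl_smul]; exact dt_eq_zero_symm hu1
  have h10 : h.1 1 0 = 0 := by
    simp only [dt, det2, sl_smul_e1, e1_val] at h1
    linarith
  have hdet := sl_det_eq h
  rw [h10, mul_zero, sub_zero] at hdet
  have hsq : ∃ t : ℤ, h * h = T1 t := by
    refine ⟨h.1 0 0 * h.1 0 1 + h.1 0 1 * h.1 1 1, ?_⟩
    have hs : (h.1 0 0 = 1 ∧ h.1 1 1 = 1) ∨ (h.1 0 0 = -1 ∧ h.1 1 1 = -1) :=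
      Int.mul_eq_one_iff_eq_one_or_neg_one.mp hdet
    apply Subtype.ext
    ext i j
    rw [sl_mul_apply]
    fin_cases i <;> fin_cases j
    · change h.1 0 0 * h.1 0 0 + h.1 0 1 * h.1 1 0 = 1
      rw [h10]
      rcases hs with ⟨a, b⟩ | ⟨a, b⟩ <;> rw [a] <;> ring
    · rfl
    · change h.1 1 0 * h.1 0 0 + h.1 1 1 * h.1 1 0 = 0
      rw [h10]
      ring
    · change h.1 1 0 * h.1 0 1 + h.1 1 1 * h.1 1 1 = 1
      rw [h10]
      rcases hs with ⟨a, b⟩ | ⟨a, b⟩ <;> rw [b] <;> ring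
  obtain ⟨t, ht⟩ := hsq
  have hγ2 : ((γ * γ : Gamma0 N) : SL(2, ℤ)) = g * T1 t * g⁻¹ := by
    rw [← ht, hh, Subgroup.coe_mul]
    group
  have hmem : g * T1 t * g⁻¹ ∈ Gamma0 N := by rw [← hγ2]; exact (γ * γ).2
  have h2 := hom_unipotent hN hℓ hℓN' hℓN hℓk D1 g t hmem
  rw [heig] at h2
  have h3 : (⟨g * T1 t * g⁻¹, hmem⟩ : Gamma0 N) = γ * γ := Subtype.ext hγ2.symm
  rw [h3] at h2
  have h4 : (lam - (1 + ℓ)) * D1 (Additive.ofMul (γ * γ)) = 0 := by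
    have : lam * D1 (Additive.ofMul (γ * γ)) = (1 + (ℓ : k)) * D1 (Additive.ofMul (γ * γ)) := h2
    linear_combination this
  have h5 := (mul_eq_zero.mp h4).resolve_left (sub_ne_zero.mpr hlam)
  rw [ofMul_mul, map_add, ← two_mul] at h5
  exact (mul_eq_zero.mp h5).resolve_left hk2

end

end Fermat.Agent.LR
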