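import Fermat.Agent.LevelRaise.Inject

set_option autoImplicit false
set_option linter.unusedSectionVars false

/-!
Representatives of cosets `Γ \ Δ` and Hecke sums.
-/

namespace Fermat.Agent.LR

open Matrix
open scoped MatrixGroups

noncomputable section

/-- `r` is a complete system of representatives of `Γ \ Δ`. -/
structure IsReps (Γ : Subgroup SL(2, ℤ)) (Δ : Set IM) {X : Type*} (r : X → IM) : Prop where
  mem : ∀ γ ∈ Γ, ∀ x, ofSL γ * r x ∈ Δ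
  ex : ∀ α ∈ Δ, ∃ x, ∃ γ ∈ Γ, α = ofSL γ * r x
  uniq : ∀ x y, ∀ γ ∈ Γ, r x = ofSL γ * r y → x = y

theorem IsReps.mem' {Γ : Subgroup SL(2, ℤ)} {Δ : Set IM} {X : Type*} {r : X → IM}
    (hr : IsReps Γ Δ r) (x : X) : r x ∈ Δ := by
  have := hr.mem 1 Γ.one_mem x
  rwa [map_one, one_mul] at this

theorem IsReps.sum_eq {Γ : Subgroup SL(2, ℤ)} {Δ : Set IM} {X Y : Type*} [Fintype X] [Fintype Y]
    {r : X → IM} {s : Y → IM} (hr : IsReps Γ Δ r) (hs : IsReps Γ Δ s) {A : Type*}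
    [AddCommMonoid A] {f : IM → A} (hf : ∀ γ ∈ Γ, ∀ α, f (ofSL γ * α) = f α) :
    ∑ x, f (r x) = ∑ y, f (s y) := by
  have h1 : ∀ x, ∃ y, ∃ γ ∈ Γ, r x = ofSL γ * s y := fun x => hs.ex _ (hr.mem' x)
  choose e g hg he using h1
  have hbij : Function.Bijective e := by
    constructor
    · intro x x' hxx
      apply hr.uniq x x' (g x * (g x')⁻¹) (Γ.mul_mem (hg x) (Γ.inv_mem (hg x')))
      rw [map_mul, mul_assoc]
      have h2 : ofSL (g x')⁻¹ * r x' = s (e x') := by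
        rw [he x', ← mul_assoc, ← map_mul, inv_mul_cancel, map_one, one_mul]
      rw [h2, ← hxx, ← he x]
    · intro y
      obtain ⟨x, γ, hγ, h2⟩ := hr.ex _ (hs.mem' y)
      refine ⟨x, (hs.uniq y (e x) (γ * g x) (Γ.mul_mem hγ (hg x)) ?_).symm⟩
      rw [h2, map_mul, mul_assoc, ← he x]
  rw [← Function.Bijective.sum_comp hbij (fun y => f (s y))]
  refine Finset.sum_congr rfl fun x _ => ?_
  rw [he x, hf _ (hg x)]

/-- right translation -/
theorem IsReps.mul_right {Γ : Subgroup SL(2, ℤ)} {Δ : Set IM} {X : Type*} {r : X → IM}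
    (hr : IsReps Γ Δ r) (h : IM) : IsReps Γ ((fun α => α * h) '' Δ) (fun x => r x * h) where
  mem γ hγ x := ⟨_, hr.mem γ hγ x, mul_assoc _ _ _⟩
  ex := by
    rintro _ ⟨α, hα, rfl⟩
    obtain ⟨x, γ, hγ, rfl⟩ := hr.ex α hα
    exact ⟨x, γ, hγ, mul_assoc _ _ _⟩
  uniq x y γ hγ hxy := by
    rw [← mul_assoc] at hxy
    exact hr.uniq x y γ hγ (IM_mul_right_cancel hxy)

/-- left translation by a normalizing element -/
theorem IsReps.mul_left {Γ : Subgroup SL(2, ℤ)} {Δ : Set IM} {X : Type*} {r : X → IM}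
    (hr : IsReps Γ Δ r) (h : IM) (h1 : ∀ γ ∈ Γ, ∃ γ' ∈ Γ, ofSL γ * h = h * ofSL γ')
    (h2 : ∀ γ ∈ Γ, ∃ γ' ∈ Γ, h * ofSL γ = ofSL γ' * h) :
    IsReps Γ ((fun α => h * α) '' Δ) (fun x => h * r x) where
  mem γ hγ x := by
    obtain ⟨γ', hγ', e⟩ := h1 γ hγ
    refine ⟨_, hr.mem γ' hγ' x, ?_⟩
    change h * (ofSL γ' * r x) = ofSL γ * (h * r x)
    rw [← mul_assoc, ← e, mul_assoc]
  ex := by
    rintro _ ⟨α, hα, rfl⟩
    obtain ⟨x, γ, hγ, rfl⟩ := hr.ex α hα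
    obtain ⟨γ', hγ', e⟩ := h2 γ hγ
    refine ⟨x, γ', hγ', ?_⟩
    change h * (ofSL γ * r x) = ofSL γ' * (h * r x)
    rw [← mul_assoc, e, mul_assoc]
  uniq x y γ hγ hxy := by
    obtain ⟨γ', hγ', e⟩ := h1 γ hγ
    refine hr.uniq x y γ' hγ' (IM_mul_left_cancel (A := h) ?_)
    change h * r x = ofSL γ * (h * r y) at hxy
    rw [hxy, ← mul_assoc, e, mul_assoc]

variable {R : Type*} [CommRing R]

/-- Hecke sums -/
def hop {X : Type*} [Fintype X] (r : X → IM) : (Vec → Vec → R) →ₗ[R] (Vec → Vec → R) :=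
  ∑ x, slash (r x)

theorem hop_apply {X : Type*} [Fintype X] (r : X → IM) (φ : Vec → Vec → R) :
    hop r φ = ∑ x, slash (r x) φ := by
  rw [hop, LinearMap.sum_apply]

theorem hop_apply_apply {X : Type*} [Fintype X] (r : X → IM) (φ : Vec → Vec → R) (u v : Vec) :
    hop r φ u v = ∑ x, φ (r x • u) (r x • v) := by
  rw [hop_apply, Finset.sum_apply, Finset.sum_apply]
  rfl

theorem hop_mem_Coc {X : Type*} [Fintype X] (r : X → IM) {φ : Vec → Vec → R} (hφ : φ ∈ Coc R) :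
    hop r φ ∈ Coc R := by
  rw [hop_apply]
  exact sum_mem fun x _ => slash_mem_Coc _ hφ

theorem slash_hop {X : Type*} [Fintype X] (r : X → IM) (h : IM) (φ : Vec → Vec → R) :
    slash h (hop r φ) = hop (fun x => r x * h) φ := by
  rw [hop_apply, hop_apply, map_sum]
  exact Finset.sum_congr rfl fun x _ => (slash_mul _ _ _).symm

theorem hop_slash {X : Type*} [Fintype X] (r : X → IM) (h : IM) (φ : Vec → Vec → R) :
    hop r (slash h φ) = hop (fun x => h * r x) φ := by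
  rw [hop_apply, hop_apply]
  exact Finset.sum_congr rfl fun x _ => (slash_mul _ _ _).symm

theorem hop_eq {Γ : Subgroup SL(2, ℤ)} {Δ : Set IM} {X Y : Type*} [Fintype X] [Fintype Y]
    {r : X → IM} {s : Y → IM} (hr : IsReps Γ Δ r) (hs : IsReps Γ Δ s) {φ : Vec → Vec → R}
    (hφ : φ ∈ MS R Γ) : hop r φ = hop s φ := by
  rw [hop_apply, hop_apply]
  exact hr.sum_eq hs (f := fun α => slash α φ) fun γ hγ α => by
    rw [slash_mul, slash_ofSL hφ hγ]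

/-- Hecke sums are invariant. -/
theorem hop_mem_MS {Γ Γ' : Subgroup SL(2, ℤ)} {Δ : Set IM} {X : Type*} [Fintype X]
    {r : X → IM} (hr : IsReps Γ Δ r) (hΔ : ∀ γ ∈ Γ', ∀ α ∈ Δ, α * ofSL γ ∈ Δ) {φ : Vec → Vec → R}
    (hφ : φ ∈ MS R Γ) : hop r φ ∈ MS R Γ' := by
  refine ⟨hop_mem_Coc r hφ.1, fun γ hγ u v => ?_⟩
  have h1 : (fun α => α * ofSL γ) '' Δ = Δ := by
    ext α
    constructor
    · rintro ⟨β, hβ, rfl⟩
      exact hΔ γ hγ β hβ
    · intro hα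
      refine ⟨α * ofSL γ⁻¹, hΔ _ (Γ'.inv_mem hγ) _ hα, ?_⟩
      change α * ofSL γ⁻¹ * ofSL γ = α
      rw [mul_assoc, ← map_mul, inv_mul_cancel, map_one, mul_one]
  have h2 := hr.mul_right (ofSL γ)
  rw [h1] at h2
  have h3 := hop_eq h2 hr hφ
  rw [← slash_hop] at h3
  exact congrFun (congrFun h3 u) v

/-- the intersection sums and Hecke operators -/
theorem II_hop {Γ : Subgroup SL(2, ℤ)} {Δ : Set IM} {δ : ℤ} {X : Type*} [Fintype X]
    {r : X → IM} (hr : IsReps Γ Δ r) (hδ : ∀ α ∈ Δ, α.1.det = δ) {g₁ g₂ : IM}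
    (h₁ : 0 < g₁.1.det) (h₂ : 0 < g₂.1.det) (u v : Vec) :
    ∑ x, II (GG Γ) g₁ g₂ (r x • u) (r x • v) = II Δ g₁ g₂ u v := by
  have h1 : Δ = ⋃ x, ((fun β => β * r x) '' GG Γ) := by
    ext α
    rw [Set.mem_iUnion]
    constructor
    · intro hα
      obtain ⟨x, γ, hγ, rfl⟩ := hr.ex α hα
      exact ⟨x, ofSL γ, ⟨γ, hγ, rfl⟩, rfl⟩
    · rintro ⟨x, _, ⟨γ, hγ, rfl⟩, rfl⟩
      exact hr.mem γ hγ x
  have h2 : Pairwise (Function.onFun Disjoint fun x => (fun β => β * r x) '' GG Γ) := by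
    intro x y hxy
    rw [Function.onFun, Set.disjoint_left]
    rintro _ ⟨_, ⟨γ, hγ, rfl⟩, rfl⟩ ⟨_, ⟨γ', hγ', rfl⟩, h⟩
    apply hxy
    apply hr.uniq x y (γ⁻¹ * γ') (Γ.mul_mem (Γ.inv_mem hγ) hγ')
    change ofSL γ' * r y = ofSL γ * r x at h
    rw [map_mul, mul_assoc, h, ← mul_assoc, ← map_mul, inv_mul_cancel, map_one, one_mul]
  conv_rhs => rw [h1]
  rw [II_iUnion (δ := δ) _ h2 h₁ h₂]
  · exact Finset.sum_congr rfl fun x _ => II_smul _ _ _ _ _ _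
  · intro x β hβ
    apply hδ
    rw [h1, Set.mem_iUnion]
    exact ⟨x, hβ⟩

end

end Fermat.Agent.LR
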