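import Fermat.Agent.LevelRaise.Forms

set_option autoImplicit false
set_option linter.unusedSectionVars false

/-!
The side function and the intersection sums.
-/

namespace Fermat.Agent.LR

open Matrix
open scoped MatrixGroups

/-- adjugate -/
def adj (A : IM) : IM := ⟨A.1.adjugate, by
  change A.1.adjugate.det ≠ 0
  rw [Matrix.det_adjugate, Fintype.card_fin, pow_one]
  exact A.2⟩

theorem adj_det (A : IM) : (adj A).1.det = A.1.det := by
  change A.1.adjugate.det = _
  rw [Matrix.det_adjugate, Fintype.card_fin, pow_one]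

theorem adj_mul (A B : IM) : adj (A * B) = adj B * adj A :=
  Subtype.ext (Matrix.adjugate_mul_distrib A.1 B.1)

theorem adj_adj (A : IM) : adj (adj A) = A := by
  apply Subtype.ext
  change A.1.adjugate.adjugate = A.1
  rw [Matrix.adjugate_fin_two, Matrix.adjugate_fin_two]
  ext i j
  fin_cases i <;> fin_cases j <;> simp

theorem adj_injective : Function.Injective adj := fun a b h => by
  rw [← adj_adj a, h, adj_adj]

theorem adj_one : adj 1 = 1 := Subtype.ext (by change Matrix.adjugate 1 = 1; exact Matrix.adjugate_one)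

theorem adj_ofSL (g : SL(2, ℤ)) : adj (ofSL g) = ofSL g⁻¹ := by
  apply Subtype.ext
  change (g.1).adjugate = (g⁻¹).1
  rw [Matrix.SpecialLinearGroup.coe_inv]

theorem mv_adj (A : M2) (v : ℤ × ℤ) : mv A.adjugate (mv A v) = (A.det * v.1, A.det * v.2) := by
  rw [← mv_mul, Matrix.adjugate_mul]
  simp [mv]

theorem mv_adj' (A : M2) (v : ℤ × ℤ) : mv A (mv A.adjugate v) = (A.det * v.1, A.det * v.2) := by
  rw [← mv_mul, Matrix.mul_adjugate]
  simp [mv]

/-- scalar matrices -/
def scal (c : ℤ) (hc : c ≠ 0) : IM := ⟨c • (1 : M2), by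
  change (c • (1 : M2)).det ≠ 0
  rw [Matrix.det_smul]
  simpa using hc⟩

theorem IM_det_ne (A : IM) : A.1.det ≠ 0 := A.2

theorem adj_mul_self (A : IM) : adj A * A = scal A.1.det (IM_det_ne A) :=
  Subtype.ext (Matrix.adjugate_mul A.1)

theorem mul_adj_self (A : IM) : A * adj A = scal A.1.det (IM_det_ne A) :=
  Subtype.ext (Matrix.mul_adjugate A.1)

theorem scal_mul_comm (c : ℤ) (hc : c ≠ 0) (A : IM) : scal c hc * A = A * scal c hc := by
  apply Subtype.ext
  change (c • (1 : M2)) * A.1 = A.1 * (c • (1 : M2))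
  rw [smul_mul_assoc, mul_smul_comm, one_mul, mul_one]

theorem scal_smul_val (c : ℤ) (hc : c ≠ 0) (v : Vec) :
    (scal c hc • v).1 = (c * v.1.1, c * v.1.2) := by
  rw [smul_val]
  change mv (c • (1 : M2)) v.1 = _
  simp [mv]

theorem mv_scale (A : M2) (c : ℤ) (v : ℤ × ℤ) :
    mv A (c * v.1, c * v.2) = (c * (mv A v).1, c * (mv A v).2) := by
  simp only [mv]
  ext <;> ring

/-- the sign attached to a pair of vectors -/
def s0 (x y : ℤ × ℤ) : ℤ := (bf 2 1 2 x y).sign * (det2 x y).sign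

theorem sign_mul_self {a : ℤ} (ha : a ≠ 0) : a.sign * a.sign = 1 := by
  rcases lt_or_gt_of_ne ha with h | h
  · rw [Int.sign_eq_neg_one_of_neg h]; norm_num
  · rw [Int.sign_eq_one_of_pos h]; norm_num

theorem s0_scale_left {a : ℤ} (ha : a ≠ 0) (x y : ℤ × ℤ) : s0 (a * x.1, a * x.2) y = s0 x y := by
  have h1 : bf 2 1 2 (a * x.1, a * x.2) y = a * bf 2 1 2 x y := by simp only [bf]; ring
  have h2 : det2 (a * x.1, a * x.2) y = a * det2 x y := by simp only [det2]; ring
  rw [s0, h1, h2, Int.sign_mul, Int.sign_mul, s0]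
  linear_combination ((bf 2 1 2 x y).sign * (det2 x y).sign) * sign_mul_self ha

theorem s0_swap (x y : ℤ × ℤ) : s0 y x = - s0 x y := by
  have h1 : bf 2 1 2 y x = bf 2 1 2 x y := by simp only [bf]; ring
  have h2 : det2 y x = - det2 x y := by simp only [det2]; ring
  rw [s0, h1, h2, Int.sign_neg, s0]
  ring

theorem s0_scale_right {a : ℤ} (ha : a ≠ 0) (x y : ℤ × ℤ) : s0 x (a * y.1, a * y.2) = s0 x y := by
  rw [s0_swap, s0_scale_left ha, ← s0_swap]

theorem exists_scale {u u' : Vec} (h : dt u u' = 0) :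
    ∃ a b : ℤ, a ≠ 0 ∧ b ≠ 0 ∧ a * u.1.1 = b * u'.1.1 ∧ a * u.1.2 = b * u'.1.2 := by
  simp only [dt, det2] at h
  by_cases h1 : u'.1.1 = 0
  · have h2 : u'.1.2 ≠ 0 := fun h => u'.2 (Prod.ext h1 h)
    have h3 : u.1.1 = 0 := by
      rw [h1, mul_zero, sub_zero] at h
      exact (mul_eq_zero.mp h).resolve_right h2
    have h4 : u.1.2 ≠ 0 := fun h => u.2 (Prod.ext h3 h)
    exact ⟨u'.1.2, u.1.2, h2, h4, by rw [h1, h3]; ring, by ring⟩
  · have h3 : u.1.1 ≠ 0 := by
      intro h0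
      rw [h0, zero_mul, zero_sub, neg_eq_zero] at h
      have h4 : u.1.2 = 0 := (mul_eq_zero.mp h).resolve_right h1
      exact u.2 (Prod.ext h0 h4)
    exact ⟨u'.1.1, u.1.1, h1, h3, by ring, by linear_combination -h⟩

/-- the side function of the geodesic from `u` to `v` at the point `g`. -/
def sd (g : IM) (u v : Vec) : ℤ := s0 (adj g • u).1 (adj g • v).1

theorem sd_swap (g : IM) (u v : Vec) : sd g v u = - sd g u v := s0_swap _ _

theorem sd_par_left (g : IM) {u u' : Vec} (h : dt u u' = 0) (v : Vec) : sd g u v = sd g u' v := by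
  obtain ⟨a, b, ha, hb, h1, h2⟩ := exists_scale h
  have h3 : (a * u.1.1, a * u.1.2) = (b * u'.1.1, b * u'.1.2) := Prod.ext h1 h2
  have h4 := congrArg (mv (adj g).1) h3
  rw [mv_scale, mv_scale] at h4
  rw [sd, sd, ← s0_scale_left ha, ← s0_scale_left hb (adj g • u').1]
  rw [smul_val, smul_val, smul_val, h4]

theorem sd_par_right (g : IM) (u : Vec) {v v' : Vec} (h : dt v v' = 0) : sd g u v = sd g u v' := by
  rw [← neg_neg (sd g u v), ← sd_swap, sd_par_left g h, sd_swap, neg_neg]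

theorem sd_of_par (g : IM) {u v : Vec} (h : dt u v = 0) : sd g u v = 0 := by
  rw [sd, s0]
  have h1 : det2 (adj g • u).1 (adj g • v).1 = 0 := (dt_smul_eq_zero (adj g)).mpr h
  rw [h1, Int.sign_zero, mul_zero]

theorem sd_left (h g : IM) (u v : Vec) : sd (h * g) (h • u) (h • v) = sd g u v := by
  have h1 : ∀ w : Vec, (adj (h * g) • (h • w)).val =
      (h.1.det * (adj g • w).1.1, h.1.det * (adj g • w).1.2) := by
    intro w
    rw [adj_mul, mul_smul, ← mul_smul (adj h) h, adj_mul_self, smul_val, scal_smul_val, mv_scale]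
    rfl
  rw [sd, sd, h1, h1, s0_scale_left (IM_det_ne h), s0_scale_right (IM_det_ne h)]

theorem sd_scal (c : ℤ) (hc : c ≠ 0) (g : IM) (u v : Vec) : sd (scal c hc * g) u v = sd g u v := by
  have h1 := sd_left (scal c hc) g u v
  rw [← h1]
  have h2 : ∀ w : Vec, dt w (scal c hc • w) = 0 := by
    intro w
    simp only [dt, det2, scal_smul_val]; ring
  rw [sd_par_left _ (h2 u), sd_par_right _ _ (h2 v)]

/-- pullback of forms -/
theorem bf_mv (A B C : ℤ) (M : M2) (u v : ℤ × ℤ) :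
    bf A B C (mv M u) (mv M v) =
      bf (bf A B C (M 0 0, M 1 0) (M 0 0, M 1 0)) (bf A B C (M 0 0, M 1 0) (M 0 1, M 1 1))
        (bf A B C (M 0 1, M 1 1) (M 0 1, M 1 1)) u v := by
  simp only [bf, mv]; ring

/-- the constant of positivity -/
def kc (M : M2) : ℤ := M 0 0 ^ 2 + M 0 1 ^ 2 + M 1 0 ^ 2 + M 1 1 ^ 2 + 1

theorem kc_pos (M : M2) : 0 < kc M := by unfold kc; positivity

theorem pos_aux {a b x y d z K : ℤ} (hd : d ≠ 0) (h : d * z = a * x - b * y)
    (hK : a ^ 2 + b ^ 2 ≤ K) : z ^ 2 ≤ K * (2 * x * x + 1 * (x * y + y * x) + 2 * y * y) := by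
  have h1 : 1 ≤ d ^ 2 := by
    have : 0 < d ^ 2 := by positivity
    linarith
  have h2 : z ^ 2 ≤ d ^ 2 * z ^ 2 := by
    have := mul_le_mul_of_nonneg_right h1 (sq_nonneg z)
    linarith
  have h3 : d ^ 2 * z ^ 2 = (a * x - b * y) ^ 2 := by rw [← h]; ring
  have h4 : (a * x - b * y) ^ 2 ≤ (a ^ 2 + b ^ 2) * (x ^ 2 + y ^ 2) := by
    have := sq_nonneg (a * y + b * x)
    linarith [show (a * x - b * y) ^ 2 + (a * y + b * x) ^ 2 = (a ^ 2 + b ^ 2) * (x ^ 2 + y ^ 2) by
      ring]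
  have h5 : (a ^ 2 + b ^ 2) * (x ^ 2 + y ^ 2) ≤ K * (x ^ 2 + y ^ 2) :=
    mul_le_mul_of_nonneg_right hK (by positivity)
  have hK0 : 0 ≤ K := le_trans (by positivity) hK
  have h6 : K * (x ^ 2 + y ^ 2) ≤ K * (2 * x * x + 1 * (x * y + y * x) + 2 * y * y) := by
    apply mul_le_mul_of_nonneg_left _ hK0
    have := sq_nonneg (x + y)
    linarith [show (x + y) ^ 2 = x ^ 2 + 2 * (x * y) + y ^ 2 by ring,
      show 2 * x * x + 1 * (x * y + y * x) + 2 * y * y = 2 * x ^ 2 + 2 * (x * y) + 2 * y ^ 2 by ring]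
  linarith

theorem form_pos {M : M2} (hM : M.det ≠ 0) {K : ℤ} (hK : kc M ≤ K) (u : ℤ × ℤ) :
    u.1 ^ 2 ≤ K * bf 2 1 2 (mv M u) (mv M u) ∧ u.2 ^ 2 ≤ K * bf 2 1 2 (mv M u) (mv M u) := by
  have hadj := mv_adj M u
  unfold kc at hK
  rw [Matrix.adjugate_fin_two] at hadj
  have h1 := congrArg Prod.fst hadj
  have h2 := congrArg Prod.snd hadj
  generalize hx : mv M u = x at *
  simp only [mv] at h1 h2
  simp only [Matrix.of_apply, Matrix.cons_val', Matrix.cons_val_zero, Matrix.cons_val_fin_one,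
    Matrix.cons_val_one] at h1 h2
  constructor
  · exact pos_aux (a := M 1 1) (b := M 0 1) hM (by linear_combination -h1)
      (by linarith [sq_nonneg (M 0 0), sq_nonneg (M 1 0)])
  · have := pos_aux (a := -M 1 0) (b := -M 0 0) (x := x.1) (y := x.2) hM (z := u.2)
      (by linear_combination -h2)
      (K := K) (by
        have e1 : (-M 1 0) ^ 2 = M 1 0 ^ 2 := by ring
        have e2 : (-M 0 0) ^ 2 = M 0 0 ^ 2 := by ring
        rw [e1, e2]
        linarith [sq_nonneg (M 0 1), sq_nonneg (M 1 1)])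
    exact this

theorem eq_of_smul_eq {A B : IM} {u v : Vec} (huv : dt u v ≠ 0) (h1 : A • u = B • u)
    (h2 : A • v = B • v) : A = B := by
  apply Subtype.ext
  have e1 := congrArg Vec.val h1
  have e2 := congrArg Vec.val h2
  rw [smul_val, smul_val] at e1 e2
  have a1 := congrArg Prod.fst e1
  have a2 := congrArg Prod.snd e1
  have b1 := congrArg Prod.fst e2
  have b2 := congrArg Prod.snd e2
  simp only [mv] at a1 a2 b1 b2
  simp only [dt, det2] at huv
  ext i j
  have key : ∀ x y x' y' : ℤ, x * u.1.1 + y * u.1.2 = x' * u.1.1 + y' * u.1.2 →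
      x * v.1.1 + y * v.1.2 = x' * v.1.1 + y' * v.1.2 → x = x' ∧ y = y' := by
    intro x y x' y' h h'
    constructor
    · have : (u.1.1 * v.1.2 - u.1.2 * v.1.1) * (x - x') = 0 := by
        linear_combination v.1.2 * h - u.1.2 * h'
      exact sub_eq_zero.mp ((mul_eq_zero.mp this).resolve_left huv)
    · have : (u.1.1 * v.1.2 - u.1.2 * v.1.1) * (y - y') = 0 := by
        linear_combination u.1.1 * h' - v.1.1 * h
      exact sub_eq_zero.mp ((mul_eq_zero.mp this).resolve_left huv)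
  have k1 := key _ _ _ _ a1 b1
  have k2 := key _ _ _ _ a2 b2
  fin_cases i <;> fin_cases j
  · exact k1.1
  · exact k1.2
  · exact k2.1
  · exact k2.2

theorem finite_of_box {u v : Vec} (huv : dt u v ≠ 0) {a b : ℤ} (ha : a ≠ 0) (hb : b ≠ 0) (M : ℤ)
    {S : Set IM} (hS : ∀ β ∈ S, (|a * (β • u).1.1| ≤ M ∧ |a * (β • u).1.2| ≤ M) ∧
      (|b * (β • v).1.1| ≤ M ∧ |b * (β • v).1.2| ≤ M)) : S.Finite := by
  refine Set.Finite.of_finite_image (f := fun β : IM =>
    (((a * (β • u).1.1, a * (β • u).1.2), (b * (β • v).1.1, b * (β • v).1.2)) :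
      (ℤ × ℤ) × (ℤ × ℤ))) ((finite_box M).subset ?_) ?_
  · rintro _ ⟨β, hβ, rfl⟩
    exact hS β hβ
  · intro β _ β' _ h
    have h1 := congrArg Prod.fst h
    have h2 := congrArg Prod.snd h
    have h11 := congrArg Prod.fst h1
    have h12 := congrArg Prod.snd h1
    have h21 := congrArg Prod.fst h2
    have h22 := congrArg Prod.snd h2
    simp only at h11 h12 h21 h22
    refine eq_of_smul_eq huv (Vec.ext (mul_left_cancel₀ ha h11) (mul_left_cancel₀ ha h12))
      (Vec.ext (mul_left_cancel₀ hb h21) (mul_left_cancel₀ hb h22))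

/-- **Finiteness of crossings.** -/
theorem finite_crossings {g₁ g₂ : IM} (h₁ : 0 < g₁.1.det) (h₂ : 0 < g₂.1.det) {δ : ℤ}
    {u v : Vec} (huv : dt u v ≠ 0) :
    {β : IM | β.1.det = δ ∧ sd g₁ (β • u) (β • v) ≠ sd g₂ (β • u) (β • v)}.Finite := by
  set K := max (kc (adj g₁).1) (kc (adj g₂).1) with hK
  have hK0 : 0 < K := lt_of_lt_of_le (kc_pos _) (le_max_left _ _)
  obtain ⟨M, hM⟩ := exists_bound_sign (K := K) hK0
    (fun w => by rw [← bf_mv]; exact form_pos (M := (adj g₁).1) (adj g₁).2 (le_max_left _ _) w)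
    (fun w => by rw [← bf_mv]; exact form_pos (M := (adj g₂).1) (adj g₂).2 (le_max_right _ _) w)
    (δ * dt u v)
  refine finite_of_box huv one_ne_zero one_ne_zero M ?_
  rintro β ⟨hδ, hne⟩
  have h3 := hM (β • u).1 (β • v).1 (β • u).2 (β • v).2 (by
    change dt (β • u) (β • v) = _
    rw [dt_smul, hδ]) (by
    rw [← bf_mv, ← bf_mv]
    intro heq
    apply hne
    rw [sd, sd, s0, s0]
    have e1 : (det2 (adj g₁ • β • u).1 (adj g₁ • β • v).1) = g₁.1.det * dt (β • u) (β • v) := by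
      rw [← adj_det]; exact dt_smul _ _ _
    have e2 : (det2 (adj g₂ • β • u).1 (adj g₂ • β • v).1) = g₂.1.det * dt (β • u) (β • v) := by
      rw [← adj_det]; exact dt_smul _ _ _
    rw [e1, e2, Int.sign_mul, Int.sign_mul, Int.sign_eq_one_of_pos h₁, Int.sign_eq_one_of_pos h₂]
    rw [smul_val (adj g₁), smul_val (adj g₁), smul_val (adj g₂), smul_val (adj g₂), heq])
  simpa only [one_mul] using h3

end Fermat.Agent.LR
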