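import Fermat.Agent.LevelRaise.AL

set_option autoImplicit false
set_option linter.unusedSectionVars false

/-!
The trace operator and its relations.
-/

namespace Fermat.Agent.LR

open Matrix CongruenceSubgroup
open scoped MatrixGroups

noncomputable section

variable {R : Type*} [CommRing R] {N q : ℕ} (w : ALD N q)

theorem Gamma0_mul_le (N q : ℕ) : Gamma0 (N * q) ≤ Gamma0 N := by
  intro γ hγ
  rw [mem_Gamma0]
  exact (Dvd.intro _ rfl : (N : ℤ) ∣ N * q).trans (ALD.mem_level.mp hγ)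

namespace ALD

/-- the trace -/
def Tr (φ : Vec → Vec → R) : Vec → Vec → R := hop w.trR φ

theorem Tr_mem (hqp : q.Prime) (hqN : ¬ q ∣ N) {φ : Vec → Vec → R}
    (hφ : φ ∈ MS R (Gamma0 (N * q))) : w.Tr φ ∈ MS R (Gamma0 N) := by
  refine hop_mem_MS (w.isReps_trR hqp hqN) ?_ hφ
  rintro γ hγ _ ⟨δ, hδ, rfl⟩
  exact ⟨δ * γ, (Gamma0 N).mul_mem hδ hγ, map_mul _ _ _⟩

/-- (R1) -/
theorem Tr_eq {φ : Vec → Vec → R} (hφ : φ ∈ Coc R) :
    w.Tr φ = φ + Uo q (slash w.mat φ) := by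
  have hq1 : (1 : ℤ) * q ≠ 0 := by rw [one_mul]; exact_mod_cast w.hq
  rw [Tr, hop_apply, Fintype.sum_option]
  congr 1
  · exact slash_one φ
  · rw [Uo, ← Fin.sum_univ_eq_sum_range (fun j => ts 1 (j : ℤ) q (slash w.mat φ)) q]
    refine Finset.sum_congr rfl fun j _ => ?_
    rw [ts_eq hq1, ← slash_mul, w.mat_mul_ut, slash_scal hφ]
    rfl

/-- (R3) -/
theorem Tr_slash {φ : Vec → Vec → R} (hφ : φ ∈ MS R (Gamma0 (N * q))) :
    w.Tr (slash w.mat φ) = slash w.mat φ + Uo q φ := by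
  rw [Tr_eq w (slash_mem_Coc _ hφ.1), w.slash_slash hφ]

theorem Tr_slash_old {φ : Vec → Vec → R} (hφ : φ ∈ MS R (Gamma0 N)) :
    w.Tr (slash w.mat φ) = To q φ := by
  rw [w.Tr_slash (MS_anti (Gamma0_mul_le N q) hφ), w.slash_old hφ, To]

/-- (R4) -/
theorem Tr_old {φ : Vec → Vec → R} (hφ : φ ∈ MS R (Gamma0 N)) :
    w.Tr φ = ((q : R) + 1) • φ := by
  have hq0 : (q : ℤ) ≠ 0 := by exact_mod_cast w.hq
  have hq1 : (1 : ℤ) * q ≠ 0 := by rw [one_mul]; exact hq0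
  have hq2 : (q : ℤ) * 1 ≠ 0 := by rw [mul_one]; exact hq0
  rw [w.Tr_eq hφ.1, w.slash_old hφ, add_comm ((q : R)) 1, add_smul, one_smul]
  congr 1
  rw [Uo, Vo]
  have h1 : ∀ j ∈ Finset.range q, ts 1 (j : ℤ) q (ts q 0 1 φ) = φ := by
    intro j _
    rw [ts_ts hq2 hq1]
    have h2 := ts_scalar (R := R) hφ.1 (c := q) (a := 1) (b := j) (d := 1) hq0 (by norm_num)
    rw [show (q : ℤ) * 1 = q * 1 from rfl, show (q : ℤ) * j + 0 * q = q * j by ring,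
      show (1 : ℤ) * q = q * 1 by ring, h2]
    exact MS.TI hφ _
  rw [Finset.sum_congr rfl h1, Finset.sum_const, Finset.card_range, Nat.cast_smul_eq_nsmul]

/-- (R5) -/
theorem To_slash {ℓ : ℕ} (hℓ : ℓ.Prime) (hℓN : ¬ ℓ ∣ N * q) {φ : Vec → Vec → R}
    (hφ : φ ∈ MS R (Gamma0 (N * q))) : To ℓ (slash w.mat φ) = slash w.mat (To ℓ φ) := by
  have : Fact ℓ.Prime := ⟨hℓ⟩
  have : NeZero ℓ := ⟨hℓ.ne_zero⟩
  rw [← To_eq_hop, ← To_eq_hop, hop_slash, slash_hop]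
  have h1 := (isReps_tr hℓN).mul_left w.mat (fun γ hγ => w.norm1 hγ) (fun γ hγ => w.norm2 hγ)
  have h2 := (isReps_tr hℓN).mul_right w.mat
  have h3 : (fun α => w.mat * α) '' DD (N * q) ℓ = (fun α => α * w.mat) '' DD (N * q) ℓ := by
    ext α
    constructor
    · rintro ⟨β, ⟨hβ1, hβ2⟩, rfl⟩
      rw [Nat.cast_mul] at hβ2
      obtain ⟨β', e1, e2, e3⟩ := w.conj' β hβ2
      exact ⟨β', ⟨e2.trans hβ1, by rw [Nat.cast_mul]; exact e3⟩, e1.symm⟩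
    · rintro ⟨β, ⟨hβ1, hβ2⟩, rfl⟩
      rw [Nat.cast_mul] at hβ2
      obtain ⟨β', e1, e2, e3⟩ := w.conj β hβ2
      exact ⟨β', ⟨e2.trans hβ1, by rw [Nat.cast_mul]; exact e3⟩, e1.symm⟩
  rw [h3] at h1
  exact hop_eq h1 h2 hφ

/-- (R6) -/
theorem Tr_To {ℓ : ℕ} (hℓ : ℓ.Prime) (hℓN : ¬ ℓ ∣ N * q) {φ : Vec → Vec → R}
    (hφ : φ ∈ MS R (Gamma0 (N * q))) : w.Tr (To ℓ φ) = To ℓ (w.Tr φ) := by
  have hcop : ℓ.Coprime q := (Nat.Prime.coprime_iff_not_dvd hℓ).mpr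
    fun h => hℓN (h.mul_left _)
  rw [w.Tr_eq (To_mem_MS hℓ hℓN hφ).1, w.Tr_eq hφ.1, To_add, ← w.To_slash hℓ hℓN hφ,
    Uo_To hℓ.ne_zero w.hq hcop (MS.TI (w.slash_mem hφ))]

/-- The new part. -/
theorem Uo_Uo_new {φ : Vec → Vec → R} (hφ : φ ∈ MS R (Gamma0 (N * q))) (h1 : w.Tr φ = 0)
    (h2 : w.Tr (slash w.mat φ) = 0) :
    Uo q φ ∈ MS R (Gamma0 (N * q)) ∧ Uo q (Uo q φ) = φ := by
  rw [w.Tr_eq hφ.1] at h1
  rw [w.Tr_slash hφ] at h2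
  have h3 : Uo q φ = - slash w.mat φ := by
    rw [eq_neg_iff_add_eq_zero, add_comm]; exact h2
  refine ⟨by rw [h3]; exact neg_mem (w.slash_mem hφ), ?_⟩
  rw [h3, Uo_neg, neg_eq_iff_add_eq_zero, add_comm]
  exact h1

end ALD

end

end Fermat.Agent.LR
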