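import Fermat.Agent.LevelRaise.Side

set_option autoImplicit false
set_option linter.unusedSectionVars false

/-!
Finiteness of the number of translates of an ideal triangle containing a given point.
-/

namespace Fermat.Agent.LR

open Matrix
open scoped MatrixGroups

theorem bf_scale (A B C a b : ℤ) (x y : ℤ × ℤ) :
    bf A B C (a * x.1, a * x.2) (b * y.1, b * y.2) = a * b * bf A B C x y := by
  simp only [bf]; ring

theorem bf_self_nonneg (x : ℤ × ℤ) : 0 ≤ bf 2 1 2 x x := by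
  have h1 := sq_nonneg (x.1 + x.2)
  have h2 := sq_nonneg x.1
  have h3 := sq_nonneg x.2
  simp only [bf]
  linarith [show 2 * x.1 * x.1 + 1 * (x.1 * x.2 + x.2 * x.1) + 2 * x.2 * x.2 =
    (x.1 + x.2) ^ 2 + x.1 ^ 2 + x.2 ^ 2 by ring]

theorem bf_self_pos {x : ℤ × ℤ} (hx : x ≠ 0) : 0 < bf 2 1 2 x x := by
  have h1 := sq_nonneg (x.1 + x.2)
  have h2 := sq_nonneg x.1
  have h3 := sq_nonneg x.2
  simp only [bf]
  rcases one_le_sq_of_ne_zero hx with h | h <;>
  linarith [show 2 * x.1 * x.1 + 1 * (x.1 * x.2 + x.2 * x.1) + 2 * x.2 * x.2 =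
    (x.1 + x.2) ^ 2 + x.1 ^ 2 + x.2 ^ 2 by ring]

/-- for three nonzero vectors with sum zero, if one of the pairings is positive then the sum of the
three signs is `-1`. -/
theorem sign_sum_of_pos {x y z : ℤ × ℤ} (hx : x ≠ 0) (hy : y ≠ 0)
    (hxyz : x + y + z = 0) (h : 0 < bf 2 1 2 x y) :
    (bf 2 1 2 x y).sign + (bf 2 1 2 y z).sign + (bf 2 1 2 z x).sign = -1 := by
  have hz1 : z.1 = -x.1 - y.1 := by
    have := congrArg Prod.fst hxyz
    simp only [Prod.fst_add, Prod.fst_zero] at this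
    linarith
  have hz2 : z.2 = -x.2 - y.2 := by
    have := congrArg Prod.snd hxyz
    simp only [Prod.snd_add, Prod.snd_zero] at this
    linarith
  have e1 : bf 2 1 2 y z = - bf 2 1 2 x y - bf 2 1 2 y y := by
    simp only [bf, hz1, hz2]; ring
  have e2 : bf 2 1 2 z x = - bf 2 1 2 x y - bf 2 1 2 x x := by
    simp only [bf, hz1, hz2]; ring
  have p1 := bf_self_pos hx
  have p2 := bf_self_pos hy
  rw [Int.sign_eq_one_of_pos h, Int.sign_eq_neg_one_of_neg (by rw [e1]; linarith),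
    Int.sign_eq_neg_one_of_neg (by rw [e2]; linarith)]
  norm_num

theorem relation_vec (u v w : ℤ × ℤ) :
    det2 v w * u.1 + det2 w u * v.1 + det2 u v * w.1 = 0 ∧
    det2 v w * u.2 + det2 w u * v.2 + det2 u v * w.2 = 0 := by
  constructor <;> (simp only [det2]; ring)

theorem scale_ne_zero {a : ℤ} (ha : a ≠ 0) {x : ℤ × ℤ} (hx : x ≠ 0) :
    ((a * x.1, a * x.2) : ℤ × ℤ) ≠ 0 := by
  intro h
  apply hx
  have h1 := congrArg Prod.fst h
  have h2 := congrArg Prod.snd h
  exact Prod.ext ((mul_eq_zero.mp h1).resolve_left ha) ((mul_eq_zero.mp h2).resolve_left ha)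

theorem det2_eq_mul (g : IM) (u v : Vec) :
    det2 (adj g • u).1 (adj g • v).1 = g.1.det * dt u v := by
  rw [← adj_det]; exact dt_smul _ _ _

/-- the value of `sd` in terms of scaled vectors -/
theorem sd_eq_scaled {g : IM} (hg : 0 < g.1.det) {u v : Vec} {a b c : ℤ} (ha : a ≠ 0) (hb : b ≠ 0)
    (hc : (dt u v).sign = c.sign) :
    sd g u v = (bf 2 1 2 (a * (adj g • u).1.1, a * (adj g • u).1.2)
      (b * (adj g • v).1.1, b * (adj g • v).1.2)).sign * (a.sign * b.sign * c.sign) := by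
  rw [sd, s0, det2_eq_mul, Int.sign_mul, Int.sign_eq_one_of_pos hg, one_mul, hc, bf_scale,
    Int.sign_mul, Int.sign_mul]
  linear_combination (-(bf 2 1 2 (adj g • u).1 (adj g • v).1).sign * c.sign *
    (b.sign * b.sign)) * sign_mul_self ha -
    ((bf 2 1 2 (adj g • u).1 (adj g • v).1).sign * c.sign) * sign_mul_self hb

/-- **Finiteness of triangles.** -/
theorem finite_triangles {g : IM} (hg : 0 < g.1.det) {δ : ℤ} (hδ : 0 < δ)
    {u v w : Vec} (h1 : dt u v ≠ 0) (h2 : dt v w ≠ 0) (h3 : dt w u ≠ 0) :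
    {β : IM | β.1.det = δ ∧ sd g (β • u) (β • v) + sd g (β • v) (β • w) + sd g (β • w) (β • u) ≠
      -((dt v w).sign * (dt w u).sign * (dt u v).sign)}.Finite := by
  obtain ⟨M, hM⟩ := exists_bound_obtuse (K := kc (adj g).1) (kc_pos _)
    (fun x => by rw [← bf_mv]; exact form_pos (M := (adj g).1) (adj g).2 le_rfl x)
    ((dt v w) * (dt w u) * (δ * dt u v))
  refine finite_of_box h1 h2 h3 M ?_
  rintro β ⟨hdet, hne⟩
  have hsgn : ∀ x y : Vec, (dt (β • x) (β • y)).sign = (dt x y).sign := by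
    intro x y
    rw [dt_smul, hdet, Int.sign_mul, Int.sign_eq_one_of_pos hδ, one_mul]
  set a := dt v w with ha
  set b := dt w u with hb
  set c := dt u v with hc
  have s1 := sd_eq_scaled hg h2 h3 (hsgn u v)
  have s2 := sd_eq_scaled hg h3 h1 (hsgn v w)
  have s3 := sd_eq_scaled hg h1 h2 (hsgn w u)
  rw [← ha] at s2
  rw [← hb] at s3
  rw [← hc] at s1
  -- relation among scaled vectors
  have rel : ∀ A : IM, ((a * (A • u).1.1, a * (A • u).1.2) : ℤ × ℤ) +
      (b * (A • v).1.1, b * (A • v).1.2) + (c * (A • w).1.1, c * (A • w).1.2) = 0 := by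
    intro A
    have r := relation_vec u.1 v.1 w.1
    have r1 : a * u.1.1 + b * v.1.1 + c * w.1.1 = 0 := r.1
    have r2 : a * u.1.2 + b * v.1.2 + c * w.1.2 = 0 := r.2
    have e : ∀ x : Vec, (A • x).1 = (A.1 0 0 * x.1.1 + A.1 0 1 * x.1.2,
      A.1 1 0 * x.1.1 + A.1 1 1 * x.1.2) := fun x => rfl
    rw [e, e, e]
    refine Prod.ext ?_ ?_
    · change a * (A.1 0 0 * u.1.1 + A.1 0 1 * u.1.2) + b * (A.1 0 0 * v.1.1 + A.1 0 1 * v.1.2) +
        c * (A.1 0 0 * w.1.1 + A.1 0 1 * w.1.2) = 0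
      linear_combination A.1 0 0 * r1 + A.1 0 1 * r2
    · change a * (A.1 1 0 * u.1.1 + A.1 1 1 * u.1.2) + b * (A.1 1 0 * v.1.1 + A.1 1 1 * v.1.2) +
        c * (A.1 1 0 * w.1.1 + A.1 1 1 * w.1.2) = 0
      linear_combination A.1 1 0 * r1 + A.1 1 1 * r2
  have relg := rel (adj g * β)
  rw [mul_smul, mul_smul, mul_smul] at relg
  have nz : ∀ (t : ℤ) (x : Vec), t ≠ 0 → ((t * x.1.1, t * x.1.2) : ℤ × ℤ) ≠ 0 :=
    fun t x ht => scale_ne_zero ht x.2
  have nU := nz a (adj g • β • u) h2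
  have nV := nz b (adj g • β • v) h3
  have nW := nz c (adj g • β • w) h1
  have hU : ∀ (t : ℤ) (x : Vec), mv (adj g).1 (t * (β • x).1.1, t * (β • x).1.2) =
      (t * (adj g • β • x).1.1, t * (adj g • β • x).1.2) := by
    intro t x
    rw [mv_scale]; rfl
  have key := hM _ _ _ (nz a (β • u) h2) (nz b (β • v) h3) (nz c (β • w) h1) (rel β) (by
    have e1 : det2 (a * (β • u).1.1, a * (β • u).1.2) (b * (β • v).1.1, b * (β • v).1.2) =
      a * b * dt (β • u) (β • v) := by simp only [det2, dt]; ring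
    rw [e1, dt_smul, hdet])
  rw [← bf_mv, ← bf_mv, ← bf_mv, hU, hU, hU] at key
  generalize ((a * (adj g • β • u).1.1, a * (adj g • β • u).1.2) : ℤ × ℤ) = U at *
  generalize ((b * (adj g • β • v).1.1, b * (adj g • β • v).1.2) : ℤ × ℤ) = V at *
  generalize ((c * (adj g • β • w).1.1, c * (adj g • β • w).1.2) : ℤ × ℤ) = W at *
  have rel2 : V + W + U = 0 := by rw [← relg]; abel
  have rel3 : W + U + V = 0 := by rw [← relg]; abel
  rw [s1, s2, s3] at hne
  have hne' : (bf 2 1 2 U V).sign + (bf 2 1 2 V W).sign + (bf 2 1 2 W U).sign ≠ -1 := by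
    intro h
    apply hne
    linear_combination (a.sign * b.sign * c.sign) * h
  refine key ?_ ?_ ?_
  · by_contra hcon
    push Not at hcon
    exact hne' (sign_sum_of_pos nU nV relg hcon)
  · by_contra hcon
    push Not at hcon
    apply hne'
    rw [← sign_sum_of_pos nV nW rel2 hcon]; ring
  · by_contra hcon
    push Not at hcon
    apply hne'
    rw [← sign_sum_of_pos nW nU rel3 hcon]; ring

end Fermat.Agent.LR
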