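import Fermat.Agent.LevelRaise.Lattice

set_option autoImplicit false
set_option linter.unusedSectionVars false

/-!
The map `d ↦ (γ ↦ d (PD γ))` is injective modulo every odd prime.
-/

namespace Fermat.Agent.LR

open Matrix
open scoped MatrixGroups

noncomputable section

/-- `S` -/
def mS : SL(2, ℤ) := mkSL 0 (-1) 1 0 (by norm_num)
/-- `U`, of order `6` -/
def mU : SL(2, ℤ) := mkSL 0 (-1) 1 1 (by norm_num)

theorem sl_ext {a b : SL(2, ℤ)} (h00 : a.1 0 0 = b.1 0 0) (h01 : a.1 0 1 = b.1 0 1)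
    (h10 : a.1 1 0 = b.1 1 0) (h11 : a.1 1 1 = b.1 1 1) : a = b := by
  apply Subtype.ext
  ext i j
  fin_cases i <;> fin_cases j
  · exact h00
  · exact h01
  · exact h10
  · exact h11

theorem mul_val (a b : SL(2, ℤ)) (i j : Fin 2) :
    (a * b).1 i j = a.1 i 0 * b.1 0 j + a.1 i 1 * b.1 1 j := by
  rw [Matrix.SpecialLinearGroup.coe_mul, Matrix.mul_apply, Fin.sum_univ_two]

theorem one_val (i j : Fin 2) : (1 : SL(2, ℤ)).1 i j = (1 : M2) i j := rfl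

theorem mU_inv : mU⁻¹ = mkSL 1 1 (-1) 0 (by norm_num) := by
  apply inv_eq_of_mul_eq_one_right
  apply sl_ext <;> (rw [mul_val, one_val]; simp [mU])

theorem mS_inv : mS⁻¹ = mkSL 0 1 (-1) 0 (by norm_num) := by
  apply inv_eq_of_mul_eq_one_right
  apply sl_ext <;> (rw [mul_val, one_val]; simp [mS])

theorem mkSL_smul_val (a b c d : ℤ) (h : a * d - b * c = 1) (x : Vec) :
    (mkSL a b c d h • x).1 = (a * x.1.1 + b * x.1.2, c * x.1.1 + d * x.1.2) := rfl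

theorem s0_U (x y : Vec) : s0 (mU⁻¹ • x).1 (mU⁻¹ • y).1 = s0 x.1 y.1 := by
  rw [mU_inv, mkSL_smul_val, mkSL_smul_val, s0, s0]
  have h1 : bf 2 1 2 (1 * x.1.1 + 1 * x.1.2, -1 * x.1.1 + 0 * x.1.2)
    (1 * y.1.1 + 1 * y.1.2, -1 * y.1.1 + 0 * y.1.2) = bf 2 1 2 x.1 y.1 := by
    simp only [bf]; ring
  have h2 : det2 (1 * x.1.1 + 1 * x.1.2, -1 * x.1.1 + 0 * x.1.2)
    (1 * y.1.1 + 1 * y.1.2, -1 * y.1.1 + 0 * y.1.2) = det2 x.1 y.1 := by
    simp only [det2]; ring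
  rw [h1, h2]

theorem sd_mul_U (g : SL(2, ℤ)) (u v : Vec) : sd (ofSL (g * mU)) u v = sd (ofSL g) u v := by
  rw [sd, sd, adj_ofSL, adj_ofSL, _root_.mul_inv_rev, map_mul, mul_smul, mul_smul]
  exact s0_U _ _

/-- the basic crossing number -/
def f0 (m : SL(2, ℤ)) : ℤ := sd (ofSL mS) (m • e1) (m • e2) - sd 1 (m • e1) (m • e2)

theorem f0_eq (m : SL(2, ℤ)) :
    f0 m = (2 * (m.1 0 0 * m.1 0 1) + 2 * (m.1 1 0 * m.1 1 1) -
        (m.1 0 0 * m.1 1 1 + m.1 0 1 * m.1 1 0)).sign -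
      (2 * (m.1 0 0 * m.1 0 1) + 2 * (m.1 1 0 * m.1 1 1) +
        (m.1 0 0 * m.1 1 1 + m.1 0 1 * m.1 1 0)).sign := by
  have hdet : m.1 0 0 * m.1 1 1 - m.1 0 1 * m.1 1 0 = 1 := by
    have := m.2
    rw [Matrix.det_fin_two] at this
    exact this
  have h1 : sd 1 (m • e1) (m • e2) = (2 * (m.1 0 0 * m.1 0 1) + 2 * (m.1 1 0 * m.1 1 1) +
        (m.1 0 0 * m.1 1 1 + m.1 0 1 * m.1 1 0)).sign := by
    rw [sd, adj_one, one_smul, one_smul, sl_smul_e1, sl_smul_e2, s0]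
    have e1 : bf 2 1 2 (m.1 0 0, m.1 1 0) (m.1 0 1, m.1 1 1) =
      2 * (m.1 0 0 * m.1 0 1) + 2 * (m.1 1 0 * m.1 1 1) +
        (m.1 0 0 * m.1 1 1 + m.1 0 1 * m.1 1 0) := by simp only [bf]; ring
    have e2 : det2 (m.1 0 0, m.1 1 0) (m.1 0 1, m.1 1 1) = 1 := by
      simp only [det2]; linear_combination hdet
    rw [e1, e2, Int.sign_one, mul_one]
  have h2 : sd (ofSL mS) (m • e1) (m • e2) = (2 * (m.1 0 0 * m.1 0 1) + 2 * (m.1 1 0 * m.1 1 1) -
        (m.1 0 0 * m.1 1 1 + m.1 0 1 * m.1 1 0)).sign := by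
    rw [sd, adj_ofSL]
    change s0 (mS⁻¹ • (m • e1)).1 (mS⁻¹ • (m • e2)).1 = _
    rw [mS_inv, mkSL_smul_val, mkSL_smul_val, sl_smul_e1, sl_smul_e2, s0]
    have e1 : bf 2 1 2 (0 * m.1 0 0 + 1 * m.1 1 0, -1 * m.1 0 0 + 0 * m.1 1 0)
      (0 * m.1 0 1 + 1 * m.1 1 1, -1 * m.1 0 1 + 0 * m.1 1 1) =
      2 * (m.1 0 0 * m.1 0 1) + 2 * (m.1 1 0 * m.1 1 1) -
        (m.1 0 0 * m.1 1 1 + m.1 0 1 * m.1 1 0) := by simp only [bf]; ring
    have e2 : det2 (0 * m.1 0 0 + 1 * m.1 1 0, -1 * m.1 0 0 + 0 * m.1 1 0)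
      (0 * m.1 0 1 + 1 * m.1 1 1, -1 * m.1 0 1 + 0 * m.1 1 1) = 1 := by
      simp only [det2]; linear_combination hdet
    rw [e1, e2, Int.sign_one, mul_one]
  rw [f0, h1, h2]

theorem sign_eq_of_mul_pos {x y : ℤ} (h : 0 < x * y) : x.sign = y.sign := by
  rcases pos_and_pos_or_neg_and_neg_of_mul_pos h with ⟨h1, h2⟩ | ⟨h1, h2⟩
  · rw [Int.sign_eq_one_of_pos h1, Int.sign_eq_one_of_pos h2]
  · rw [Int.sign_eq_neg_one_of_neg h1, Int.sign_eq_neg_one_of_neg h2]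

theorem aux_small {a b c d : ℤ} (h : a * d - b * c = 1)
    (h2 : (2 * (a * b) + 2 * (c * d) - (a * d + b * c)) *
      (2 * (a * b) + 2 * (c * d) + (a * d + b * c)) ≤ 0) :
    a ^ 2 + c ^ 2 = 1 ∧ b ^ 2 + d ^ 2 = 1 := by
  have e1 : (a * b + c * d) ^ 2 + (a * d - b * c) ^ 2 = (a ^ 2 + c ^ 2) * (b ^ 2 + d ^ 2) := by ring
  have e2 : (a * d + b * c) ^ 2 = (a * d - b * c) ^ 2 + 4 * (a * c * (b * d)) := by ring
  have e3 : (2 * (a * b) + 2 * (c * d) - (a * d + b * c)) *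
      (2 * (a * b) + 2 * (c * d) + (a * d + b * c)) =
      4 * (a * b + c * d) ^ 2 - (a * d + b * c) ^ 2 := by ring
  rw [h] at e1 e2
  have h3 : 4 * (a * c * (b * d)) ≤ (a ^ 2 + c ^ 2) * (b ^ 2 + d ^ 2) := by
    have p1 : 0 ≤ a ^ 2 + c ^ 2 := by positivity
    have p2 : 0 ≤ b ^ 2 + d ^ 2 := by positivity
    have q1 : |2 * (a * c)| ≤ a ^ 2 + c ^ 2 := by
      rw [abs_le]
      constructor
      · nlinarith [sq_nonneg (a + c)]
      · nlinarith [sq_nonneg (a - c)]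
    have q2 : |2 * (b * d)| ≤ b ^ 2 + d ^ 2 := by
      rw [abs_le]
      constructor
      · nlinarith [sq_nonneg (b + d)]
      · nlinarith [sq_nonneg (b - d)]
    calc 4 * (a * c * (b * d)) = (2 * (a * c)) * (2 * (b * d)) := by ring
      _ ≤ |(2 * (a * c)) * (2 * (b * d))| := le_abs_self _
      _ = |2 * (a * c)| * |2 * (b * d)| := abs_mul _ _
      _ ≤ (a ^ 2 + c ^ 2) * (b ^ 2 + d ^ 2) := mul_le_mul q1 q2 (abs_nonneg _) p1
  have hX : (a ^ 2 + c ^ 2) * (b ^ 2 + d ^ 2) ≤ 1 := by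
    rw [e3] at h2
    by_contra hcon
    push Not at hcon
    have : (a * b + c * d) ^ 2 = (a ^ 2 + c ^ 2) * (b ^ 2 + d ^ 2) - 1 := by linarith
    rw [this, e2] at h2
    linarith
  have p1 : 1 ≤ a ^ 2 + c ^ 2 := by
    by_contra hcon
    have : a ^ 2 + c ^ 2 = 0 := le_antisymm (by linarith) (by positivity)
    have ha : a = 0 := by nlinarith [sq_nonneg a, sq_nonneg c]
    have hc : c = 0 := by nlinarith [sq_nonneg a, sq_nonneg c]
    rw [ha, hc] at h; norm_num at h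
  have p2 : 1 ≤ b ^ 2 + d ^ 2 := by
    by_contra hcon
    have : b ^ 2 + d ^ 2 = 0 := le_antisymm (by linarith) (by positivity)
    have hb : b = 0 := by nlinarith [sq_nonneg b, sq_nonneg d]
    have hd : d = 0 := by nlinarith [sq_nonneg b, sq_nonneg d]
    rw [hb, hd] at h; norm_num at h
  constructor
  · nlinarith
  · nlinarith

theorem sq_add_sq_eq_one {a c : ℤ} (h : a ^ 2 + c ^ 2 = 1) :
    (a = 0 ∧ (c = 1 ∨ c = -1)) ∨ (c = 0 ∧ (a = 1 ∨ a = -1)) := by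
  have h1 : a ^ 2 ≤ 1 := by nlinarith [sq_nonneg c]
  have h2 : -1 ≤ a := by nlinarith
  have h3 : a ≤ 1 := by nlinarith
  have h4 : c ^ 2 ≤ 1 := by nlinarith [sq_nonneg a]
  have h5 : -1 ≤ c := by nlinarith
  have h6 : c ≤ 1 := by nlinarith
  interval_cases a <;> interval_cases c <;> simp_all

/-- `{1, -1, S, -S}` -/
def T4 : Finset SL(2, ℤ) := {1, -1, mS, -mS}

theorem neg_val' (a : SL(2, ℤ)) (i j : Fin 2) : (-a).1 i j = - a.1 i j := by
  rw [Matrix.SpecialLinearGroup.coe_neg, Matrix.neg_apply]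

theorem mem_T4_of_f0 {m : SL(2, ℤ)} (h : f0 m ≠ 0) : m ∈ T4 := by
  have hdet : m.1 0 0 * m.1 1 1 - m.1 0 1 * m.1 1 0 = 1 := by
    have := m.2
    rw [Matrix.det_fin_two] at this
    exact this
  rw [f0_eq] at h
  have h1 := aux_small hdet (by
    by_contra hcon
    push Not at hcon
    exact h (by rw [sign_eq_of_mul_pos hcon, sub_self]))
  rw [T4, Finset.mem_insert, Finset.mem_insert, Finset.mem_insert, Finset.mem_singleton]
  rcases sq_add_sq_eq_one h1.1 with ⟨ha, hc | hc⟩ | ⟨hc, ha | ha⟩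
  · -- a = 0, c = 1
    rw [ha, hc] at hdet
    have hb : m.1 0 1 = -1 := by linarith
    have hd : m.1 1 1 = 0 := by
      have := h1.2; rw [hb] at this; nlinarith
    right; right; left
    apply sl_ext
    · rw [ha]; rfl
    · rw [hb]; rfl
    · rw [hc]; rfl
    · rw [hd]; rfl
  · rw [ha, hc] at hdet
    have hb : m.1 0 1 = 1 := by linarith
    have hd : m.1 1 1 = 0 := by
      have := h1.2; rw [hb] at this; nlinarith
    right; right; right
    apply sl_ext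
    · rw [ha, neg_val']; rfl
    · rw [hb, neg_val']; rfl
    · rw [hc, neg_val']; rfl
    · rw [hd, neg_val']; rfl
  · rw [ha, hc] at hdet
    have hd : m.1 1 1 = 1 := by linarith
    have hb : m.1 0 1 = 0 := by
      have := h1.2; rw [hd] at this; nlinarith
    left
    apply sl_ext
    · rw [ha]; rfl
    · rw [hb]; rfl
    · rw [hc]; rfl
    · rw [hd]; rfl
  · rw [ha, hc] at hdet
    have hd : m.1 1 1 = -1 := by linarith
    have hb : m.1 0 1 = 0 := by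
      have := h1.2; rw [hd] at this; nlinarith
    right; left
    apply sl_ext
    · rw [ha, neg_val']; rfl
    · rw [hb, neg_val']; rfl
    · rw [hc, neg_val']; rfl
    · rw [hd, neg_val']; rfl

theorem f0_one : f0 1 = -2 := by rw [f0_eq]; simp [one_val]
theorem f0_neg_one : f0 (-1) = -2 := by rw [f0_eq]; simp [neg_val', one_val]
theorem f0_S : f0 mS = 2 := by rw [f0_eq]; simp [mS]
theorem f0_neg_S : f0 (-mS) = 2 := by rw [f0_eq]; simp [neg_val', mS]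

end

end Fermat.Agent.LR
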