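import Mathlib

set_option autoImplicit false
set_option linter.unusedSectionVars false

/-!
Nonzero integral vectors, integral `2 × 2` matrices of nonzero determinant, and modular symbols
as functions on pairs of nonzero vectors.
-/

namespace Fermat.Agent.LR

open Matrix
open scoped MatrixGroups

/-- integral `2 × 2` matrices -/
abbrev M2 := Matrix (Fin 2) (Fin 2) ℤ

/-- nonzero integral vectors -/
structure Vec : Type where
  val : ℤ × ℤ
  property : val ≠ 0

theorem Vec.val_ext {u v : Vec} (h : u.val = v.val) : u = v := by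
  cases u; cases v; simpa using h

/-- matrix times vector -/
def mv (A : M2) (v : ℤ × ℤ) : ℤ × ℤ :=
  (A 0 0 * v.1 + A 0 1 * v.2, A 1 0 * v.1 + A 1 1 * v.2)

theorem mv_one (v : ℤ × ℤ) : mv 1 v = v := by
  simp [mv]

theorem mv_mul (A B : M2) (v : ℤ × ℤ) : mv (A * B) v = mv A (mv B v) := by
  simp only [mv, Matrix.mul_apply, Fin.sum_univ_two]
  ext <;> ring

/-- the determinant of two vectors -/
def det2 (u v : ℤ × ℤ) : ℤ := u.1 * v.2 - u.2 * v.1

theorem det2_mv (A : M2) (u v : ℤ × ℤ) : det2 (mv A u) (mv A v) = A.det * det2 u v := by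
  simp only [mv, det2, Matrix.det_fin_two]
  ring

theorem mv_ne_zero {A : M2} (hA : A.det ≠ 0) {v : ℤ × ℤ} (hv : v ≠ 0) : mv A v ≠ 0 := by
  intro h
  apply hv
  have h1 : A 0 0 * v.1 + A 0 1 * v.2 = 0 := congrArg Prod.fst h
  have h2 : A 1 0 * v.1 + A 1 1 * v.2 = 0 := congrArg Prod.snd h
  rw [Matrix.det_fin_two] at hA
  have h3 : (A 0 0 * A 1 1 - A 0 1 * A 1 0) * v.1 = 0 := by linear_combination A 1 1 * h1 - A 0 1 * h2
  have h4 : (A 0 0 * A 1 1 - A 0 1 * A 1 0) * v.2 = 0 := by linear_combination A 0 0 * h2 - A 1 0 * h1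
  ext
  · exact (mul_eq_zero.mp h3).resolve_left hA
  · exact (mul_eq_zero.mp h4).resolve_left hA

/-- the monoid of integral matrices of nonzero determinant -/
def IM : Submonoid M2 where
  carrier := {A | A.det ≠ 0}
  one_mem' := by simp
  mul_mem' := by
    intro a b ha hb
    simp only [Set.mem_ofPred_eq, Matrix.det_mul] at ha hb ⊢
    exact mul_ne_zero ha hb

instance : MulAction IM Vec where
  smul A v := ⟨mv A.1 v.1, mv_ne_zero A.2 v.2⟩
  one_smul v := Vec.val_ext (mv_one v.1)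
  mul_smul A B v := Vec.val_ext (mv_mul A.1 B.1 v.1)

theorem smul_val (A : IM) (v : Vec) : (A • v).1 = mv A.1 v.1 := rfl

@[ext] theorem Vec.ext {u v : Vec} (h1 : u.1.1 = v.1.1) (h2 : u.1.2 = v.1.2) : u = v :=
  Vec.val_ext (Prod.ext h1 h2)

/-- determinant of two elements of `Vec` -/
def dt (u v : Vec) : ℤ := det2 u.1 v.1

theorem dt_smul (A : IM) (u v : Vec) : dt (A • u) (A • v) = A.1.det * dt u v := det2_mv _ _ _

theorem dt_self (u : Vec) : dt u u = 0 := by simp only [dt, det2]; ring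

theorem dt_swap (u v : Vec) : dt v u = - dt u v := by simp only [dt, det2]; ring

/-- parallelism is transitive on nonzero vectors -/
theorem dt_trans {u v w : Vec} (h1 : dt u v = 0) (h2 : dt v w = 0) : dt u w = 0 := by
  simp only [dt, det2] at *
  by_cases hv : v.1.1 = 0
  · have hv2 : v.1.2 ≠ 0 := fun h => v.2 (Prod.ext hv h)
    rw [hv] at h1 h2
    have : v.1.2 * (u.1.1 * w.1.2 - u.1.2 * w.1.1) = 0 := by
      linear_combination w.1.2 * h1 + u.1.2 * h2
    exact (mul_eq_zero.mp this).resolve_left hv2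
  · have : v.1.1 * (u.1.1 * w.1.2 - u.1.2 * w.1.1) = 0 := by
      linear_combination w.1.1 * h1 + u.1.1 * h2
    exact (mul_eq_zero.mp this).resolve_left hv

theorem dt_eq_zero_symm {u v : Vec} (h : dt u v = 0) : dt v u = 0 := by
  rw [dt_swap, h, neg_zero]

theorem dt_smul_eq_zero (A : IM) {u v : Vec} : dt (A • u) (A • v) = 0 ↔ dt u v = 0 := by
  rw [dt_smul, mul_eq_zero]
  exact ⟨fun h => h.resolve_left A.2, Or.inr⟩

/-- `SL(2, ℤ) → IM` -/
def ofSL : SL(2, ℤ) →* IM where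
  toFun g := ⟨g.1, by change g.1.det ≠ 0; rw [g.2]; exact one_ne_zero⟩
  map_one' := rfl
  map_mul' _ _ := rfl

theorem ofSL_val (g : SL(2, ℤ)) : (ofSL g).1 = g.1 := rfl

theorem ofSL_injective : Function.Injective ofSL := by
  intro a b h
  have h1 : (ofSL a).1 = (ofSL b).1 := by rw [h]
  exact Subtype.ext h1

instance : MulAction SL(2, ℤ) Vec where
  smul g v := ofSL g • v
  one_smul v := by change ofSL 1 • v = v; rw [map_one, one_smul]
  mul_smul a b v := by change ofSL (a * b) • v = ofSL a • ofSL b • v; rw [map_mul, mul_smul]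

theorem sl_smul_def (g : SL(2, ℤ)) (v : Vec) : g • v = ofSL g • v := rfl

theorem dt_sl_smul (g : SL(2, ℤ)) (u v : Vec) : dt (g • u) (g • v) = dt u v := by
  rw [sl_smul_def, sl_smul_def, dt_smul, ofSL_val, g.2, one_mul]

/-- the vector `(1, 0)` (the cusp `∞`) -/
def e1 : Vec := ⟨(1, 0), by simp⟩
/-- the vector `(0, 1)` (the cusp `0`) -/
def e2 : Vec := ⟨(0, 1), by simp⟩

theorem e1_val : e1.1 = (1, 0) := rfl
theorem e2_val : e2.1 = (0, 1) := rfl

theorem sl_smul_e1 (g : SL(2, ℤ)) : (g • e1).1 = (g.1 0 0, g.1 1 0) := by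
  rw [sl_smul_def, smul_val, mv, ofSL_val, e1_val]
  simp

theorem sl_smul_e2 (g : SL(2, ℤ)) : (g • e2).1 = (g.1 0 1, g.1 1 1) := by
  rw [sl_smul_def, smul_val, mv, ofSL_val, e2_val]
  simp

theorem dt_e1_e2 : dt e1 e2 = 1 := by simp [dt, det2, e1, e2]

/-- the matrix `(a, b; c, d)` -/
def mkSL (a b c d : ℤ) (h : a * d - b * c = 1) : SL(2, ℤ) :=
  ⟨!![a, b; c, d], by rw [Matrix.det_fin_two_of]; exact h⟩

@[simp] theorem mkSL_00 (a b c d : ℤ) (h : a * d - b * c = 1) : (mkSL a b c d h).1 0 0 = a := rfl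
@[simp] theorem mkSL_01 (a b c d : ℤ) (h : a * d - b * c = 1) : (mkSL a b c d h).1 0 1 = b := rfl
@[simp] theorem mkSL_10 (a b c d : ℤ) (h : a * d - b * c = 1) : (mkSL a b c d h).1 1 0 = c := rfl
@[simp] theorem mkSL_11 (a b c d : ℤ) (h : a * d - b * c = 1) : (mkSL a b c d h).1 1 1 = d := rfl

/-- negation of vectors -/
instance : Neg Vec := ⟨fun v => ⟨-v.1, neg_ne_zero.mpr v.2⟩⟩

theorem neg_val (v : Vec) : (-v).1 = -v.1 := rfl

theorem neg_one_smul (v : Vec) : (-1 : SL(2, ℤ)) • v = -v := by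
  apply Vec.val_ext
  simp only [sl_smul_def, smul_val, mv, ofSL_val, neg_val, Matrix.SpecialLinearGroup.coe_neg,
    Matrix.SpecialLinearGroup.coe_one, Matrix.neg_apply]
  ext <;> simp

theorem dt_neg_self (v : Vec) : dt v (-v) = 0 := by
  simp only [dt, det2, neg_val, Prod.fst_neg, Prod.snd_neg]; ring

section MS

variable (R : Type*) [CommRing R]

/-- additive functions on pairs of cusps -/
def Coc : Submodule R (Vec → Vec → R) where
  carrier := {φ | (∀ u v w, φ u v + φ v w = φ u w) ∧ ∀ u v, dt u v = 0 → φ u v = 0}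
  zero_mem' := ⟨fun _ _ _ => by simp, fun _ _ _ => rfl⟩
  add_mem' := by
    rintro a b ⟨ha, ha'⟩ ⟨hb, hb'⟩
    refine ⟨fun u v w => ?_, fun u v h => ?_⟩
    · simp only [Pi.add_apply]
      rw [← ha u v w, ← hb u v w]; ring
    · simp only [Pi.add_apply]
      rw [ha' u v h, hb' u v h, add_zero]
  smul_mem' := by
    rintro c a ⟨ha, ha'⟩
    refine ⟨fun u v w => ?_, fun u v h => ?_⟩
    · simp only [Pi.smul_apply, smul_eq_mul]
      rw [← ha u v w]; ring
    · simp only [Pi.smul_apply, smul_eq_mul]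
      rw [ha' u v h, mul_zero]

/-- the modular symbols of a subgroup of `SL(2, ℤ)` -/
def MS (Γ : Subgroup SL(2, ℤ)) : Submodule R (Vec → Vec → R) where
  carrier := {φ | φ ∈ Coc R ∧ ∀ γ ∈ Γ, ∀ u v, φ (γ • u) (γ • v) = φ u v}
  zero_mem' := ⟨zero_mem _, fun _ _ _ _ => rfl⟩
  add_mem' := by
    rintro a b ⟨ha, ha'⟩ ⟨hb, hb'⟩
    refine ⟨add_mem ha hb, fun γ hγ u v => ?_⟩
    simp only [Pi.add_apply, ha' γ hγ, hb' γ hγ]
  smul_mem' := by
    rintro c a ⟨ha, ha'⟩
    refine ⟨Submodule.smul_mem _ _ ha, fun γ hγ u v => ?_⟩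
    simp only [Pi.smul_apply, ha' γ hγ]

variable {R}

theorem mem_MS {Γ : Subgroup SL(2, ℤ)} {φ : Vec → Vec → R} :
    φ ∈ MS R Γ ↔ φ ∈ Coc R ∧ ∀ γ ∈ Γ, ∀ u v, φ (γ • u) (γ • v) = φ u v := Iff.rfl

theorem MS_anti {Γ Γ' : Subgroup SL(2, ℤ)} (h : Γ' ≤ Γ) : MS R Γ ≤ MS R Γ' :=
  fun _ hφ => ⟨hφ.1, fun γ hγ => hφ.2 γ (h hγ)⟩

namespace Coc

variable {φ : Vec → Vec → R} (hφ : φ ∈ Coc R)
include hφ

theorem add (u v w : Vec) : φ u v + φ v w = φ u w := hφ.1 u v w

theorem par {u v : Vec} (h : dt u v = 0) : φ u v = 0 := hφ.2 u v h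

theorem self (u : Vec) : φ u u = 0 := hφ.2 u u (dt_self u)

theorem swap (u v : Vec) : φ v u = - φ u v := by
  have h1 := hφ.1 u v u
  rw [Coc.self hφ u] at h1
  linear_combination h1

/-- values only depend on the cusps -/
theorem congr {u u' v v' : Vec} (hu : dt u u' = 0) (hv : dt v v' = 0) : φ u v = φ u' v' := by
  have h1 := hφ.1 u u' v
  have h2 := hφ.1 u' v v'
  rw [hφ.2 u u' hu, zero_add] at h1
  rw [hφ.2 v v' hv, add_zero] at h2
  rw [← h1, h2]

end Coc

/-- the slash operator -/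
def slash (A : IM) : (Vec → Vec → R) →ₗ[R] (Vec → Vec → R) where
  toFun φ u v := φ (A • u) (A • v)
  map_add' _ _ := rfl
  map_smul' _ _ := rfl

@[simp] theorem slash_apply (A : IM) (φ : Vec → Vec → R) (u v : Vec) :
    slash A φ u v = φ (A • u) (A • v) := rfl

theorem slash_mul (A B : IM) (φ : Vec → Vec → R) : slash (A * B) φ = slash B (slash A φ) := by
  funext u v
  simp only [slash_apply, mul_smul]

theorem slash_one (φ : Vec → Vec → R) : slash 1 φ = φ := by
  funext u v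
  simp only [slash_apply, one_smul]

theorem slash_mem_Coc (A : IM) {φ : Vec → Vec → R} (hφ : φ ∈ Coc R) : slash A φ ∈ Coc R :=
  ⟨fun u v w => hφ.1 _ _ _, fun u v h => hφ.2 _ _ ((dt_smul_eq_zero A).mpr h)⟩

theorem slash_ofSL {Γ : Subgroup SL(2, ℤ)} {φ : Vec → Vec → R} (hφ : φ ∈ MS R Γ) {γ : SL(2, ℤ)}
    (hγ : γ ∈ Γ) : slash (ofSL γ) φ = φ := by
  funext u v
  exact hφ.2 γ hγ u v

/-- scalar matrices act trivially -/
theorem slash_scalar {φ : Vec → Vec → R} (hφ : φ ∈ Coc R) {A : IM} (hA : ∀ u, dt (A • u) u = 0) :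
    slash A φ = φ := by
  funext u v
  exact Coc.congr hφ (hA u) (hA v)

end MS

end Fermat.Agent.LR
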